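import Fermat.Agent.ES.M.Gauss

/-!
# ES library, part M: `F_K(N)` is finite over every intermediate field containing `j`, for every
constant field `K` of characteristic zero.
-/

set_option autoImplicit false
set_option linter.unusedSectionVars false

open ModularCurve Polynomial

namespace Fermat.Agent.ESlib

open Fermat.Agent.S28lib (JIndep evY jA jAd)

noncomputable section

variable {K : Type} [Field K] [Algebra ℚ K] {N : ℕ} [NeZero N]

theorem coe_aeval_J1_K (P : K[X]) :
    ((aeval (J1 K N) P : FK K N) : LaurentSeries K) = evY K (jA K) P := by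
  have : ((algebraMap (FK K N) (LaurentSeries K)).comp
      (aeval (J1 K N) : K[X] →ₐ[K] FK K N).toRingHom) = evY K (jA K) := by
    apply Polynomial.ringHom_ext
    · intro a
      simp only [RingHom.comp_apply, AlgHom.toRingHom_eq_coe, RingHom.coe_coe, aeval_C,
        S28lib.evY_C]
      show algebraMap K (LaurentSeries K) _ = _
      rw [algebraMap_laurentSeries_eq_single, HahnSeries.C_apply]
    · simp only [RingHom.comp_apply, AlgHom.toRingHom_eq_coe, RingHom.coe_coe, aeval_X,
        S28lib.evY_X]
      exact coe_J1_jA K N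
  exact congrArg (fun g => g P) this

variable (K N) in
theorem transcendental_K_J1 : Transcendental K (J1 K N) := by
  rw [transcendental_iff]
  intro p hp
  have h1 := coe_aeval_J1_K (K := K) (N := N) p
  rw [hp] at h1
  exact S28lib.evY_jA_injective (K := K) (by rw [← h1, map_zero]; rfl)

/-- `F_K(N)` is finite over every intermediate field containing `j`; the degree is at most
`ψ(N)`. -/
theorem rank_le_of_J1_mem [CharZero K] (E₀ : IntermediateField K (FK K N))
    (h : J1 K N ∈ E₀) : Module.rank E₀ (FK K N) ≤ (dedekindPsi N : ℕ) := by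
  classical
  refine rank_le fun s hs => ?_
  let e := s.equivFin
  refine key_char0K N (fun i => ((e.symm i : FK K N) : LaurentSeries K))
    (fun i => FK_le_fullC K N (e.symm i : FK K N).2) ?_
  intro P hP i
  have hmem : ∀ i, aeval (J1 K N) (P i) ∈ E₀ := fun i => by
    rw [aeval_eq_sum_range]
    exact sum_mem fun k _ => E₀.smul_mem (pow_mem h k)
  have hlin : LinearIndependent E₀ (fun i : Fin s.card => ((e.symm i : s) : FK K N)) :=
    hs.comp e.symm e.symm.injective
  rw [Fintype.linearIndependent_iff] at hlin
  have hsum : ∑ i, (⟨aeval (J1 K N) (P i), hmem i⟩ : E₀) • ((e.symm i : s) : FK K N) = 0 := by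
    apply Subtype.ext
    refine Eq.trans ?_ hP
    rw [← IntermediateField.algebraMap_apply, map_sum]
    refine Finset.sum_congr rfl fun i _ => ?_
    rw [← coe_aeval_J1_K (N := N)]
    rfl
  have h0 := hlin _ hsum i
  have h1 : aeval (J1 K N) (P i) = 0 := congrArg Subtype.val h0
  exact (transcendental_iff.mp (transcendental_K_J1 K N)) _ h1

theorem finiteDimensional_of_J1_mem [CharZero K] (E₀ : IntermediateField K (FK K N))
    (h : J1 K N ∈ E₀) : FiniteDimensional E₀ (FK K N) := by
  have : Module.Free E₀ (FK K N) := Module.Free.of_divisionRing _ _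
  exact Module.rank_lt_aleph0_iff.mp
    ((rank_le_of_J1_mem E₀ h).trans_lt (Cardinal.natCast_lt_aleph0))

/-- `j ∈ K(t)` if `j t^e = B(t)` -/
theorem J1_mem_adjoin_of_rel {t : FK K N} (ht0 : t ≠ 0) {B : K[X]} {e : ℕ}
    (hrel : J1 K N * t ^ e = aeval t B) : J1 K N ∈ IntermediateField.adjoin K {t} := by
  have ht : t ∈ IntermediateField.adjoin K {t} := IntermediateField.mem_adjoin_simple_self K t
  have h1 : J1 K N = aeval t B * (t ^ e)⁻¹ := by
    rw [← hrel, mul_assoc, mul_inv_cancel₀ (pow_ne_zero e ht0), mul_one]
  rw [h1]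
  refine mul_mem ?_ (inv_mem (pow_mem ht e))
  rw [aeval_eq_sum_range]
  exact sum_mem fun k _ => (IntermediateField.adjoin K {t}).smul_mem (pow_mem ht k)

theorem finiteDimensional_adjoin_of_rel [CharZero K] {t : FK K N} (ht0 : t ≠ 0) {B : K[X]} {e : ℕ}
    (hrel : J1 K N * t ^ e = aeval t B) :
    FiniteDimensional (IntermediateField.adjoin K {t}) (FK K N) :=
  finiteDimensional_of_J1_mem _ (J1_mem_adjoin_of_rel ht0 hrel)

end

end Fermat.Agent.ESlib
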