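import Fermat.Agent.S28.Descent

/-!
# ES library, part M (modular inputs), (M-G) 1: the localisation `LamR` of `R((q))` at `(ϖ)` inside
`K((q))` and its reduction map to `κ((q))`, in an abstract reduction setup
`ι : R → K`, `ρ : R → κ`, `ker ρ = (ϖ)` (`Fermat.Agent.S28lib.RedSetup`), `K`, `κ` fields.
Port of `S28/FRed.lean`, `S28/FClosed.lean`.
-/

set_option autoImplicit false

open ModularCurve

namespace Fermat.Agent.ESlib

open Fermat.Agent.S28lib (RedSetup)

noncomputable section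

variable {R K κ : Type*} [CommRing R] [Field K] [Field κ] {ι : R →+* K} {ρ : R →+* κ} {ϖ : R}

theorem redSetup_unif_ne_zero (h : RedSetup ι ρ ϖ) : ι ϖ ≠ 0 := by
  intro h0
  exact one_ne_zero (h.reg 1 (by rw [h0, zero_mul]))

theorem redSetup_C_unif_ne_zero (h : RedSetup ι ρ ϖ) :
    (HahnSeries.C (ι ϖ) : LaurentSeries K) ≠ 0 := by
  intro h0
  have h2 : (HahnSeries.C (ι ϖ) : LaurentSeries K).coeff 0 = 0 := by rw [h0]; rfl
  rw [HahnSeries.C_apply, HahnSeries.coeff_single_same] at h2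
  exact redSetup_unif_ne_zero h h2

theorem coeffMap_C' {A B : Type*} [CommRing A] [CommRing B] (f : A →+* B) (a : A) :
    coeffMap f (HahnSeries.C a) = HahnSeries.C (f a) := by
  rw [HahnSeries.C_apply, HahnSeries.C_apply, coeffMap_single]

/-- no nonzero element of `R` is divisible by all powers of `ϖ` -/
theorem redSetup_exists_not_pow_dvd (h : RedSetup ι ρ ϖ) {a : R} (ha : a ≠ 0) :
    ∃ n : ℕ, ¬ ϖ ^ n ∣ a := by
  have ha' : ι a ≠ 0 := fun h0 => ha (h.inj (by rw [h0, map_zero]))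
  obtain ⟨n, z, hz⟩ := h.scale (ι a)⁻¹
  refine ⟨n + 1, ?_⟩
  rintro ⟨w, rfl⟩
  have h1 : ι (z * w * ϖ) * ι ϖ ^ n = 1 * ι ϖ ^ n := by
    have h2 : ι z * ι (ϖ ^ (n + 1) * w) = ι ϖ ^ n := by
      rw [hz, mul_assoc, inv_mul_cancel₀ ha', mul_one]
    rw [one_mul]
    calc ι (z * w * ϖ) * ι ϖ ^ n = ι z * ι (ϖ ^ (n + 1) * w) := by
          simp only [map_mul, map_pow]; ring
      _ = ι ϖ ^ n := h2
  have h3 : ι (z * w * ϖ) = 1 := mul_right_cancel₀ (pow_ne_zero n (redSetup_unif_ne_zero h)) h1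
  have h4 : z * w * ϖ = 1 := h.inj (by rw [h3, map_one])
  have h5 := congrArg ρ h4
  rw [map_mul, h.red_unif, mul_zero, map_one] at h5
  exact zero_ne_one h5

theorem exists_eq_C_mul_of_coeffMap_eq_zero (h : RedSetup ι ρ ϖ) {y : LaurentSeries R}
    (hy : coeffMap ρ y = 0) : ∃ y' : LaurentSeries R, y = HahnSeries.C ϖ * y' := by
  classical
  have hdvd : ∀ n, ϖ ∣ y.coeff n := fun n => h.ker _ (by
    have := congrArg (fun z => z.coeff n) hy
    simpa using this)
  choose c hc using hdvd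
  refine ⟨{ coeff := fun n => if y.coeff n = 0 then 0 else c n
            isPWO_support' := y.isPWO_support.mono fun n hn => by
              simp only [Function.mem_support, ne_eq, ite_eq_left_iff, not_forall] at hn
              exact hn.1 }, ?_⟩
  ext n
  rw [HahnSeries.C_mul_eq_smul, HahnSeries.coeff_smul]
  simp only [smul_eq_mul]
  split_ifs with h0
  · rw [h0, mul_zero]
  · exact hc n

variable (ι ρ) in
/-- The localisation of `R((q))` at the prime ideal `(ϖ) = ker (R((q)) → κ((q)))`, as a subring of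
`K((q))`. -/
def LamR : Subring (LaurentSeries K) where
  carrier := {x | ∃ s y : LaurentSeries R, coeffMap ρ s ≠ 0 ∧ coeffMap ι s * x = coeffMap ι y}
  mul_mem' := by
    rintro x x' ⟨s, y, hs, h⟩ ⟨s', y', hs', h'⟩
    refine ⟨s * s', y * y', ?_, ?_⟩
    · rw [map_mul]; exact mul_ne_zero hs hs'
    · rw [map_mul, map_mul, ← h, ← h']; ring
  one_mem' := ⟨1, 1, by rw [map_one]; exact one_ne_zero, by simp⟩
  add_mem' := by
    rintro x x' ⟨s, y, hs, h⟩ ⟨s', y', hs', h'⟩
    refine ⟨s * s', y * s' + y' * s, ?_, ?_⟩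
    · rw [map_mul]; exact mul_ne_zero hs hs'
    · rw [map_mul, map_add, map_mul, map_mul, ← h, ← h']; ring
  zero_mem' := ⟨1, 0, by rw [map_one]; exact one_ne_zero, by simp⟩
  neg_mem' := by
    rintro x ⟨s, y, hs, h⟩
    exact ⟨s, -y, hs, by rw [map_neg, ← h]; ring⟩

theorem mem_LamR_iff {x : LaurentSeries K} :
    x ∈ LamR ι ρ ↔ ∃ s y : LaurentSeries R, coeffMap ρ s ≠ 0 ∧ coeffMap ι s * x = coeffMap ι y :=
  Iff.rfl

/-- the underlying function of `redR` -/
def redRFun (x : LamR ι ρ) : LaurentSeries κ :=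
  coeffMap ρ x.2.choose_spec.choose / coeffMap ρ x.2.choose

theorem redRFun_spec (hι : Function.Injective ι) (x : LamR ι ρ) {s y : LaurentSeries R}
    (hs : coeffMap ρ s ≠ 0) (h : coeffMap ι s * (x : LaurentSeries K) = coeffMap ι y) :
    redRFun x = coeffMap ρ y / coeffMap ρ s := by
  obtain ⟨hs0, h0⟩ := x.2.choose_spec.choose_spec
  set s0 := x.2.choose
  set y0 := x.2.choose_spec.choose
  have key : s * y0 = s0 * y := by
    apply S28lib.coeffMap_injective hι
    rw [map_mul, map_mul, ← h0, ← h]; ring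
  have key' : coeffMap ρ s * coeffMap ρ y0 = coeffMap ρ s0 * coeffMap ρ y := by
    rw [← map_mul, ← map_mul, key]
  show coeffMap ρ y0 / coeffMap ρ s0 = _
  rw [div_eq_div_iff hs0 hs]
  linear_combination key'

/-- The reduction map `LamR → κ((q))`. -/
def redR (hι : Function.Injective ι) : LamR ι ρ →+* LaurentSeries κ where
  toFun := redRFun
  map_one' := by
    rw [redRFun_spec hι 1 (s := 1) (y := 1) (by rw [map_one]; exact one_ne_zero) (by simp)]
    simp
  map_mul' := by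
    rintro ⟨x, s, y, hs, h⟩ ⟨x', s', y', hs', h'⟩
    rw [redRFun_spec hι ⟨x, s, y, hs, h⟩ hs h, redRFun_spec hι ⟨x', s', y', hs', h'⟩ hs' h',
      redRFun_spec hι _ (s := s * s') (y := y * y') (by rw [map_mul]; exact mul_ne_zero hs hs')
        (by
          show coeffMap ι (s * s') * (x * x') = _
          rw [map_mul, map_mul, ← h, ← h']; ring)]
    rw [map_mul, map_mul]
    field_simp
  map_zero' := by
    rw [redRFun_spec hι 0 (s := 1) (y := 0) (by rw [map_one]; exact one_ne_zero) (by simp)]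
    simp
  map_add' := by
    rintro ⟨x, s, y, hs, h⟩ ⟨x', s', y', hs', h'⟩
    rw [redRFun_spec hι ⟨x, s, y, hs, h⟩ hs h, redRFun_spec hι ⟨x', s', y', hs', h'⟩ hs' h',
      redRFun_spec hι _ (s := s * s') (y := y * s' + y' * s)
        (by rw [map_mul]; exact mul_ne_zero hs hs')
        (by
          show coeffMap ι (s * s') * (x + x') = _
          rw [map_mul, map_add, map_mul, map_mul, ← h, ← h']; ring)]
    rw [map_mul, map_add, map_mul, map_mul]
    field_simp

theorem redR_eq (hι : Function.Injective ι) (x : LamR ι ρ) {s y : LaurentSeries R}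
    (hs : coeffMap ρ s ≠ 0) (h : coeffMap ι s * (x : LaurentSeries K) = coeffMap ι y) :
    redR hι x = coeffMap ρ y / coeffMap ρ s :=
  redRFun_spec hι x hs h

theorem coeffMap_mem_LamR (d : LaurentSeries R) : coeffMap ι d ∈ LamR ι ρ :=
  ⟨1, d, by rw [map_one]; exact one_ne_zero, by simp⟩

theorem redR_coeffMap (hι : Function.Injective ι) (d : LaurentSeries R) :
    redR hι (⟨coeffMap ι d, coeffMap_mem_LamR d⟩ : LamR ι ρ) = coeffMap ρ d := by
  rw [redR_eq hι _ (s := 1) (y := d) (by rw [map_one]; exact one_ne_zero) (by simp)]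
  simp

theorem redR_of_eq_coeffMap (hι : Function.Injective ι) (x : LamR ι ρ) (d : LaurentSeries R)
    (h : (x : LaurentSeries K) = coeffMap ι d) : redR hι x = coeffMap ρ d := by
  rw [← redR_coeffMap hι]; congr 1; exact Subtype.ext h

theorem C_unif_mem_LamR : (HahnSeries.C (ι ϖ) : LaurentSeries K) ∈ LamR ι ρ := by
  rw [← coeffMap_C']; exact coeffMap_mem_LamR _

theorem redR_C_unif (h : RedSetup ι ρ ϖ) :
    redR h.inj (⟨HahnSeries.C (ι ϖ), C_unif_mem_LamR⟩ : LamR ι ρ) = 0 := by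
  rw [redR_of_eq_coeffMap h.inj _ (HahnSeries.C ϖ) (coeffMap_C' _ _).symm, coeffMap_C', h.red_unif,
    map_zero]

/-- the kernel of `redR` is `ϖ LamR` -/
theorem exists_eq_mul_of_redR_eq_zero (h : RedSetup ι ρ ϖ) {x : LamR ι ρ}
    (hx : redR h.inj x = 0) :
    ∃ x' : LamR ι ρ, x = ⟨HahnSeries.C (ι ϖ), C_unif_mem_LamR⟩ * x' := by
  obtain ⟨s, y, hs, hxy⟩ := x.2
  rw [redR_eq h.inj _ hs hxy, div_eq_zero_iff] at hx
  obtain ⟨y', rfl⟩ := exists_eq_C_mul_of_coeffMap_eq_zero h (hx.resolve_right hs)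
  have hℓ := redSetup_C_unif_ne_zero h
  rw [map_mul, coeffMap_C'] at hxy
  have hmem : (HahnSeries.C (ι ϖ) : LaurentSeries K)⁻¹ * (x : LaurentSeries K) ∈ LamR ι ρ := by
    refine ⟨s, y', hs, ?_⟩
    calc coeffMap ι s * ((HahnSeries.C (ι ϖ) : LaurentSeries K)⁻¹ * (x : LaurentSeries K))
        = (HahnSeries.C (ι ϖ) : LaurentSeries K)⁻¹ * (coeffMap ι s * (x : LaurentSeries K)) := by
          ring
      _ = coeffMap ι y' := by rw [hxy, inv_mul_cancel_left₀ hℓ]
  refine ⟨⟨_, hmem⟩, Subtype.ext ?_⟩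
  rw [Subring.coe_mul, mul_inv_cancel_left₀ hℓ]

/-- an element of `LamR` with nonzero reduction is a unit of `LamR` -/
theorem inv_mem_LamR_of_redR_ne_zero (hι : Function.Injective ι) {x : LamR ι ρ}
    (hx : redR hι x ≠ 0) : (x : LaurentSeries K)⁻¹ ∈ LamR ι ρ := by
  obtain ⟨s, y, hs, hxy⟩ := x.2
  rw [redR_eq hι _ hs hxy] at hx
  have hy : coeffMap ρ y ≠ 0 := fun h0 => hx (by rw [h0, zero_div])
  have hy' : coeffMap ι y ≠ 0 := by
    intro h0
    have : y = 0 := S28lib.coeffMap_injective hι (by rw [h0, map_zero])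
    exact hy (by rw [this, map_zero])
  have hx0 : (x : LaurentSeries K) ≠ 0 := by
    intro h0
    rw [h0, mul_zero] at hxy
    exact hy' hxy.symm
  refine ⟨y, s, hy, ?_⟩
  rw [← hxy, mul_assoc, mul_inv_cancel₀ hx0, mul_one]

/-- if `s ∈ R((q))` is nonzero mod `ϖ` then `1 / s ∈ LamR` -/
theorem inv_coeffMap_mem_LamR (hι : Function.Injective ι) {s : LaurentSeries R}
    (hs : coeffMap ρ s ≠ 0) : (coeffMap ι s)⁻¹ ∈ LamR ι ρ :=
  inv_mem_LamR_of_redR_ne_zero hι (x := ⟨coeffMap ι s, coeffMap_mem_LamR s⟩)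
    (by rw [redR_coeffMap]; exact hs)

open Polynomial in
/-- an element `x` with `ϖ^a x ∈ LamR`, `red (ϖ^a x) ≠ 0`, `a > 0` is not integral over `LamR` -/
theorem not_isIntegral_LamR (h : RedSetup ι ρ ϖ) {x : LaurentSeries K} {a : ℕ} (ha : 0 < a)
    (hm : (HahnSeries.C (ι ϖ) : LaurentSeries K) ^ a * x ∈ LamR ι ρ)
    (hred : redR h.inj ⟨_, hm⟩ ≠ 0) : ¬ IsIntegral (LamR ι ρ) x := by
  rintro ⟨p, hp, hpx⟩
  set c : LamR ι ρ := (⟨HahnSeries.C (ι ϖ), C_unif_mem_LamR⟩ : LamR ι ρ) ^ a with hc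
  set y : LamR ι ρ := ⟨_, hm⟩ with hy
  have hal : ∀ z : LamR ι ρ, algebraMap (LamR ι ρ) (LaurentSeries K) z = (z : LaurentSeries K) :=
    fun _ => rfl
  have hcy : algebraMap (LamR ι ρ) (LaurentSeries K) c * x =
      algebraMap (LamR ι ρ) (LaurentSeries K) y := by
    rw [hal, hal, hc, hy, Subring.coe_pow]
  have h1 : eval₂ (algebraMap (LamR ι ρ) (LaurentSeries K))
      (algebraMap (LamR ι ρ) (LaurentSeries K) y) (p.scaleRoots c) = 0 := by
    rw [← hcy, scaleRoots_eval₂_mul, hpx, mul_zero]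
  rw [eval₂_at_apply] at h1
  have h2 : eval y (p.scaleRoots c) = 0 := by
    apply Subtype.val_injective
    rw [hal] at h1
    exact h1
  have h3 : eval (redR h.inj y) ((p.scaleRoots c).map (redR h.inj)) = 0 := by
    rw [eval_map, eval₂_at_apply, h2, map_zero]
  have hredc : redR h.inj c = 0 := by
    rw [hc, map_pow, redR_C_unif h, zero_pow ha.ne']
  have h4 : (p.scaleRoots c).map (redR h.inj) = X ^ p.natDegree := by
    ext i
    rw [coeff_map, coeff_scaleRoots, map_mul, map_pow, hredc, coeff_X_pow]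
    split_ifs with hi
    · rw [hi, Nat.sub_self, pow_zero, mul_one, hp.coeff_natDegree, map_one]
    · rcases lt_or_gt_of_ne hi with hlt | hgt
      · rw [zero_pow (by omega), mul_zero]
      · rw [coeff_eq_zero_of_natDegree_lt hgt, map_zero, zero_mul]
  rw [h4, eval_pow, eval_X] at h3
  exact hred (pow_eq_zero_iff (fun h0 => by
    rw [h0, pow_zero] at h3; exact one_ne_zero h3) |>.mp h3)

end

end Fermat.Agent.ESlib
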