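import Fermat.Agent.S28.Key
import Fermat.Agent.ES.M.Lam

/-!
# ES library, part M, (M-G) 2: scaling to `ϖ`-primitive families and the relations
`P(j) x = ∑ Q_i(j) b_i` for `x` in the function field `K(j(q^d) : d ∣ N)`.
Port of `S28/FScale.lean`, `S28/FRel.lean` to an abstract reduction setup.
-/

set_option autoImplicit false

open ModularCurve Polynomial

namespace Fermat.Agent.ESlib

open Fermat.Agent.S28lib (RedSetup JIndep evY jA ModData)

noncomputable section

variable {R K κ : Type*} [CommRing R] [Field K] [Field κ] {ι : R →+* K} {ρ : R →+* κ} {ϖ : R}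

/-- family version over `R` -/
theorem exists_pow_mul_primitive_familyR (h : RedSetup ι ρ ϖ) {σ : Type*} (m : ℕ) :
    ∀ (Q : σ → R[X]) (i₀ : σ) (n₀ : ℕ), ¬ ϖ ^ m ∣ (Q i₀).coeff n₀ →
    ∃ (a : ℕ) (Q' : σ → R[X]), (∀ i, Q i = C (ϖ ^ a) * Q' i) ∧ ∃ i, (Q' i).map ρ ≠ 0 := by
  induction m with
  | zero =>
    intro Q i₀ n₀ h0
    exact absurd (by rw [pow_zero]; exact one_dvd _) h0
  | succ m ih =>
    intro Q i₀ n₀ h0
    by_cases hex : ∃ i, (Q i).map ρ ≠ 0
    · exact ⟨0, Q, fun i => by simp, hex⟩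
    · push Not at hex
      have hdvd : ∀ i, C ϖ ∣ Q i := fun i => by
        rw [C_dvd_iff_dvd_coeff]
        intro n
        have := congrArg (fun P => P.coeff n) (hex i)
        simp only [coeff_map, coeff_zero] at this
        exact h.ker _ this
      choose S hS using hdvd
      have hc : (Q i₀).coeff n₀ = ϖ * (S i₀).coeff n₀ := by rw [hS i₀, coeff_C_mul]
      have hS0 : ¬ ϖ ^ m ∣ (S i₀).coeff n₀ := by
        intro hd
        apply h0
        rw [hc, pow_succ, mul_comm]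
        exact mul_dvd_mul_left _ hd
      obtain ⟨a, Q', hQ', hex'⟩ := ih S i₀ n₀ hS0
      refine ⟨a + 1, Q', fun i => ?_, hex'⟩
      rw [hS i, hQ' i, ← mul_assoc, ← C_mul, pow_succ, mul_comm ϖ]

/-- a nonzero polynomial over `R` is `ϖ^a` times a polynomial which is nonzero mod `ϖ` -/
theorem exists_pow_mul_primitiveR (h : RedSetup ι ρ ϖ) (P : R[X]) (hP : P ≠ 0) :
    ∃ (a : ℕ) (P' : R[X]), P = C (ϖ ^ a) * P' ∧ P'.map ρ ≠ 0 := by
  obtain ⟨n₀, hn₀⟩ : ∃ n, P.coeff n ≠ 0 := by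
    by_contra h
    push Not at h
    exact hP (Polynomial.ext (by simpa using h))
  obtain ⟨m, hm⟩ := redSetup_exists_not_pow_dvd h hn₀
  obtain ⟨a, Q', h1, ⟨_, h2⟩⟩ := exists_pow_mul_primitive_familyR h (σ := Unit) m (fun _ => P) () n₀
    hm
  exact ⟨a, Q' (), h1 (), h2⟩

/-- A finite family of polynomials over `K`, not all zero, can be scaled by a nonzero constant to a
family over `R` which is not identically zero mod `ϖ`. -/
theorem exists_primitiveR (h : RedSetup ι ρ ϖ) {σ : Type*} [Finite σ] (P : σ → K[X])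
    (hP : ∃ i, P i ≠ 0) :
    ∃ (c : K) (P' : σ → R[X]), c ≠ 0 ∧ (∀ i, (P' i).map ι = C c * P i) ∧
      ∃ i, (P' i).map ρ ≠ 0 := by
  classical
  cases nonempty_fintype σ
  have hϖ := redSetup_unif_ne_zero h
  have hnorm : ∀ i, ∃ (n : ℕ) (Q : R[X]), Q.map ι = C (ι ϖ ^ n) * P i := by
    intro i
    obtain ⟨n, Q, hQ⟩ := h.poly.scale (P i)
    refine ⟨n, Q, ?_⟩
    rw [coe_mapRingHom, Polynomial.map_C] at hQ
    rw [hQ, C_pow]
  choose n Q₀ hQ₀ using hnorm
  set d : ℕ := ∑ i, n i with hd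
  have hle : ∀ i, n i ≤ d := fun i =>
    Finset.single_le_sum (f := n) (fun _ _ => Nat.zero_le _) (Finset.mem_univ i)
  set Q : σ → R[X] := fun i => C (ϖ ^ (d - n i)) * Q₀ i with hQ
  have hQmap : ∀ i, (Q i).map ι = C (ι ϖ ^ d) * P i := fun i => by
    rw [hQ]
    change (C (ϖ ^ (d - n i)) * Q₀ i).map ι = _
    rw [Polynomial.map_mul, Polynomial.map_C, hQ₀, ← mul_assoc, ← C_mul, map_pow, ← pow_add,
      Nat.sub_add_cancel (hle i)]
  obtain ⟨i₀, hi₀⟩ := hP
  have hQi₀ : Q i₀ ≠ 0 := by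
    intro h0
    have := hQmap i₀
    rw [h0, Polynomial.map_zero] at this
    have hdq : (C (ι ϖ ^ d) : K[X]) ≠ 0 := by
      rw [Ne, C_eq_zero]; exact pow_ne_zero _ hϖ
    exact (mul_ne_zero hdq hi₀) this.symm
  obtain ⟨n₀, hn₀⟩ : ∃ n, (Q i₀).coeff n ≠ 0 := by
    by_contra h
    push Not at h
    exact hQi₀ (Polynomial.ext (by simpa using h))
  obtain ⟨m, hm⟩ := redSetup_exists_not_pow_dvd h hn₀
  obtain ⟨a, Q', h1, h2⟩ := exists_pow_mul_primitive_familyR h m Q i₀ n₀ hm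
  have hℓ0 : (ι ϖ ^ a) ≠ 0 := pow_ne_zero _ hϖ
  refine ⟨ι ϖ ^ d / ι ϖ ^ a, Q', div_ne_zero (pow_ne_zero _ hϖ) hℓ0, fun i => ?_, h2⟩
  have h3 := hQmap i
  rw [h1 i, Polynomial.map_mul, Polynomial.map_C, map_pow] at h3
  have hC : (C (ι ϖ ^ a) : K[X]) ≠ 0 := by rwa [Ne, C_eq_zero]
  apply mul_left_cancel₀ hC
  rw [h3, ← mul_assoc, ← C_mul, mul_div_cancel₀ _ hℓ0]

/-- `P(j) ∈ R((q))` -/
abbrev evR (P : R[X]) : LaurentSeries R := evY R (jA R) P

theorem coeffMap_evR {B : Type*} [CommRing B] (f : R →+* B) (P : R[X]) :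
    coeffMap f (evR P) = evY B (jA B) (P.map f) := by
  rw [S28lib.coeffMap_evY, coeffMap_jqModC]

theorem coeffMap_evR_ne_zero {P : R[X]} (hP : P.map ρ ≠ 0) : coeffMap ρ (evR P) ≠ 0 := by
  rw [coeffMap_evR]
  intro h
  exact hP (S28lib.evY_jA_injective (K := κ) (by rw [h, map_zero]))

theorem coeffMap_evR_eq_zero {P : R[X]} (hP : P.map ρ = 0) : coeffMap ρ (evR P) = 0 := by
  rw [coeffMap_evR, hP, map_zero]

/-- upper bound for the degree in characteristic zero, any constant field -/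
theorem key_char0K [CharZero K] (N : ℕ) [NeZero N] {m : ℕ} (x : Fin m → LaurentSeries K)
    (hx : ∀ i, x i ∈ modularFunctionFieldFullC K N) (h : JIndep K x) : m ≤ dedekindPsi N := by
  refine S28lib.card_le_of_JIndep (K := AlgebraicClosure K) N (Nat.cast_ne_zero.mpr (NeZero.ne N))
    (fun p hp _ => by
      have : NeZero p := ⟨hp.ne_zero⟩
      obtain ⟨D⟩ := S28lib.nonempty_modData_rat (S28lib.nonempty_modData_complex hp)
      exact ⟨D.map (algebraMap ℚ (AlgebraicClosure K))⟩)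
    (fun i => coeffMap (algebraMap K (AlgebraicClosure K)) (x i))
    (fun i => S28lib.coeffMap_mem_full (algebraMap K (AlgebraicClosure K)) N (hx i))
    ((JIndep.map_iff _ x).mpr h)

variable {N : ℕ} [NeZero N]

theorem exists_relR [CharZero K] (h : RedSetup ι ρ ϖ) (b : Fin (dedekindPsi N) → LaurentSeries R)
    (hbF : ∀ i, coeffMap ι (b i) ∈ modularFunctionFieldFullC K N)
    {x : LaurentSeries K} (hx : x ∈ modularFunctionFieldFullC K N) :
    ∃ (P : R[X]) (Q : Fin (dedekindPsi N) → R[X]),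
      (P.map ρ ≠ 0 ∨ ∃ i, (Q i).map ρ ≠ 0) ∧
      coeffMap ι (evR P) * x = coeffMap ι (∑ i, evR (Q i) * b i) := by
  set x' : Fin (dedekindPsi N + 1) → LaurentSeries K := Fin.cons x (fun i => coeffMap ι (b i))
    with hx'
  have hx'F : ∀ i, x' i ∈ modularFunctionFieldFullC K N := by
    intro i
    refine Fin.cases ?_ (fun i => ?_) i
    · simpa [hx'] using hx
    · simpa [hx'] using hbF i
  have hnot : ¬ JIndep K x' := fun h => by
    have := key_char0K N x' hx'F h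
    omega
  unfold JIndep at hnot
  push Not at hnot
  obtain ⟨P, hsum, hP⟩ := hnot
  obtain ⟨c, P', hc, hP', hprim⟩ := exists_primitiveR h P hP
  have hsum' : ∑ i, coeffMap ι (evR (P' i)) * x' i = 0 := by
    have : ∀ i, coeffMap ι (evR (P' i)) * x' i =
        evY K (jA K) (C c) * (evY K (jA K) (P i) * x' i) := by
      intro i
      rw [coeffMap_evR, hP', map_mul]; ring
    simp only [this, ← Finset.mul_sum, hsum, mul_zero]
  rw [Fin.sum_univ_succ] at hsum'
  refine ⟨P' 0, fun i => - P' i.succ, ?_, ?_⟩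
  · obtain ⟨i, hi⟩ := hprim
    refine Fin.cases (fun hi => Or.inl hi) (fun i hi => Or.inr ⟨i, ?_⟩) i hi
    rw [Polynomial.map_neg]
    exact neg_ne_zero.mpr hi
  · simp only [hx', Fin.cons_zero, Fin.cons_succ] at hsum'
    rw [map_sum]
    simp only [map_mul, map_neg, neg_mul, Finset.sum_neg_distrib]
    linear_combination hsum'

omit [NeZero N] in
theorem coeffMap_sum_ne_zero {b : Fin (dedekindPsi N) → LaurentSeries R}
    (hind : JIndep κ (fun i => coeffMap ρ (b i))) {Q : Fin (dedekindPsi N) → R[X]}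
    (hQ : ∃ i, (Q i).map ρ ≠ 0) :
    coeffMap ρ (∑ i, evR (Q i) * b i) ≠ 0 := by
  intro h
  obtain ⟨i, hi⟩ := hQ
  apply hi
  refine hind (fun i => (Q i).map ρ) ?_ i
  rw [← h, map_sum]
  refine Finset.sum_congr rfl fun i _ => ?_
  rw [map_mul, coeffMap_evR]

theorem exists_rel_of_mem_LamR [CharZero K] (h : RedSetup ι ρ ϖ)
    {b : Fin (dedekindPsi N) → LaurentSeries R}
    (hbF : ∀ i, coeffMap ι (b i) ∈ modularFunctionFieldFullC K N)
    (hind : JIndep κ (fun i => coeffMap ρ (b i)))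
    {x : LaurentSeries K} (hx : x ∈ modularFunctionFieldFullC K N) (hxL : x ∈ LamR ι ρ) :
    ∃ (P : R[X]) (Q : Fin (dedekindPsi N) → R[X]),
      P.map ρ ≠ 0 ∧ coeffMap ι (evR P) * x = coeffMap ι (∑ i, evR (Q i) * b i) := by
  obtain ⟨P, Q, hprim, hrel⟩ := exists_relR h b hbF hx
  refine ⟨P, Q, ?_, hrel⟩
  intro hP
  have hQ := hprim.resolve_left (not_not.mpr hP)
  apply coeffMap_sum_ne_zero hind hQ
  have h1 : (⟨coeffMap ι (evR P), coeffMap_mem_LamR _⟩ : LamR ι ρ) * ⟨x, hxL⟩ =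
      ⟨coeffMap ι (∑ i, evR (Q i) * b i), coeffMap_mem_LamR _⟩ := Subtype.ext hrel
  have h2 := congrArg (redR h.inj) h1
  rw [map_mul, redR_coeffMap, redR_coeffMap, coeffMap_evR_eq_zero hP, zero_mul] at h2
  exact h2.symm

theorem dichotomyR [CharZero K] (h : RedSetup ι ρ ϖ) {b : Fin (dedekindPsi N) → LaurentSeries R}
    (hbF : ∀ i, coeffMap ι (b i) ∈ modularFunctionFieldFullC K N)
    (hind : JIndep κ (fun i => coeffMap ρ (b i)))
    {x : LaurentSeries K} (hx : x ∈ modularFunctionFieldFullC K N) :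
    x ∈ LamR ι ρ ∨ ∃ a : ℕ, 0 < a ∧
      ∃ hm : (HahnSeries.C (ι ϖ) : LaurentSeries K) ^ a * x ∈ LamR ι ρ,
        redR h.inj ⟨_, hm⟩ ≠ 0 := by
  obtain ⟨P, Q, hprim, hrel⟩ := exists_relR h b hbF hx
  by_cases hP : P.map ρ = 0
  · right
    have hQ := hprim.resolve_left (not_not.mpr hP)
    have hne := coeffMap_sum_ne_zero hind hQ
    have hP0 : P ≠ 0 := by
      rintro rfl
      apply hne
      have : (∑ i, evR (Q i) * b i) = 0 := by
        apply S28lib.coeffMap_injective h.inj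
        rw [← hrel]; simp
      rw [this, map_zero]
    obtain ⟨a, P₁, hPP, hP₁⟩ := exists_pow_mul_primitiveR h P hP0
    have ha : 0 < a := by
      rcases Nat.eq_zero_or_pos a with rfl | h
      · exfalso; apply hP₁
        rw [← hP, hPP]; simp
      · exact h
    have hrel' : coeffMap ι (evR P₁) * ((HahnSeries.C (ι ϖ) : LaurentSeries K) ^ a * x) =
        coeffMap ι (∑ i, evR (Q i) * b i) := by
      rw [← hrel, hPP]
      have : evR (C (ϖ ^ a) * P₁) = (HahnSeries.C ϖ : LaurentSeries R) ^ a * evR P₁ := by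
        show evY R (jA R) (C (ϖ ^ a) * P₁) = _
        rw [map_mul, S28lib.evY_C, map_pow]
      rw [this, map_mul, map_pow, coeffMap_C']
      ring
    have hs := coeffMap_evR_ne_zero (ρ := ρ) hP₁
    have hmem : (HahnSeries.C (ι ϖ) : LaurentSeries K) ^ a * x ∈ LamR ι ρ :=
      mem_LamR_iff.mpr ⟨evR P₁, ∑ i, evR (Q i) * b i, hs, hrel'⟩
    refine ⟨a, ha, hmem, ?_⟩
    rw [redR_eq h.inj ⟨_, hmem⟩ hs hrel']
    exact div_ne_zero hne hs
  · left
    exact mem_LamR_iff.mpr ⟨_, _, coeffMap_evR_ne_zero hP, hrel⟩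

end

end Fermat.Agent.ESlib
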