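import Fermat.Agent.ES.M.Gauss
import Fermat.Agent.ES.C.AKGauss

/-!
# ES library, part M, (M-pi): the hypothesis `UnitDiff` (= (Hπ)) of the abstract KIL for
`F = F_K(N)`.

Two distinct `K`-embeddings `σ, σ'` of `F_K(N)` which agree at `j` differ at some `j(q^d)`; take `d`
minimal, `d = p d'`.  Then `σ j_d`, `σ' j_d` are two distinct roots of `Φ_p(X, σ j_d')`, and
`Φ_p'(j_d, j_d')` is a unit of the Gauss ring, because its reduction does not vanish
(`S28lib.ev2_derivative_Phi_ne_zero`).  Hence `σ j_d - σ' j_d` is a unit.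
-/

set_option autoImplicit false
set_option linter.unusedSectionVars false

open ModularCurve Polynomial

namespace Fermat.Agent.ESlib

open Fermat.Agent.S28lib (RedSetup JIndep evY ev2 jA jAd jSet ModData)
open Fermat.Agent.S24lib (Dv)

noncomputable section

/-- two distinct roots of a polynomial over a domain differ by a unit if the derivative at one of
them is a unit -/
theorem isUnit_sub_of_roots {V : Type*} [CommRing V] [IsDomain V] (S : V[X]) {a a' : V}
    (ha : S.eval a = 0) (ha' : S.eval a' = 0) (hne : a ≠ a')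
    (hu : IsUnit ((derivative S).eval a)) : IsUnit (a - a') := by
  obtain ⟨S₁, hS⟩ : X - C a ∣ S := dvd_iff_isRoot.mpr ha
  have h1 : S₁.eval a' = 0 := by
    rw [hS, eval_mul, eval_sub, eval_X, eval_C] at ha'
    exact (mul_eq_zero.mp ha').resolve_left (sub_ne_zero.mpr hne.symm)
  have h2 : (derivative S).eval a = S₁.eval a := by
    rw [hS, derivative_mul, eval_add, eval_mul, eval_mul, eval_sub, eval_X, eval_C, sub_self,
      zero_mul, add_zero, derivative_sub, derivative_X, derivative_C, sub_zero, eval_one, one_mul]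
  have h3 : a - a' ∣ S₁.eval a - S₁.eval a' := sub_dvd_eval_sub a a' S₁
  rw [h1, sub_zero, ← h2] at h3
  exact isUnit_of_dvd_unit h3 hu

section integral

variable {O F k : Type*} [CommRing O] [CommRing F] [Field k]
  {ι : O →+* F} {red : O →+* k} {ϖ : O}

open Fermat.Agent.S28lib in
/-- integrality of the modular data in an abstract reduction setup
(the first half of `S28lib.RedSetup.nonempty_modData`) -/
theorem redSetup_nonempty_modData_int (h : RedSetup ι red ϖ) {p : ℕ} [NeZero p] (hp : p.Prime)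
    (hpk : (p : k) ≠ 0) (D : ModData F p) : Nonempty (ModData O p) := by
  obtain ⟨Φ, hΦ⟩ : D.Φ ∈ (map2 ι).range := by
    refine h.mem_range_of_roots D.Φ p (mem_range_top_of_monic ι D.Φ_monic D.Φ_natDegree)
      (jAd O p) (jA O) (jA O) (jAd O p) 0 0 ?_ ?_ ?_
    · rw [coeffMap_jAd, coeffMap_jA, D.Φ_ev₁, map_zero]
    · rw [coeffMap_jAd, coeffMap_jA, D.Φ_ev₂, map_zero]
    · intro Q hQ h1 h2
      rw [coeffMap_jAd, coeffMap_jA] at h1 h2
      exact eq_zero_of_ev_j' hp hpk Q hQ h1 h2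
  obtain ⟨Ψ, hΨ⟩ : D.Ψ ∈ (map2 ι).range := by
    refine h.mem_range_of_roots D.Ψ p (mem_range_top_of_monic ι D.Ψ_monic D.Ψ_natDegree)
      (HahnSeries.C ((p : O) ^ 12) * uA O p) (jA O) (uAinv O p) (jAd O p) 0 0 ?_ ?_ ?_
    · rw [map_mul, coeffMap_uA, coeffMap_jA, coeffMap_C_natCast_pow, D.Ψ_ev₁, map_zero]
    · rw [coeffMap_jAd, coeffMap_uAinv, D.Ψ_ev₂, map_zero]
    · intro Q hQ h1 h2
      rw [map_mul, coeffMap_uA, coeffMap_jA, coeffMap_C_natCast_pow] at h1
      rw [coeffMap_jAd, coeffMap_uAinv] at h2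
      exact eq_zero_of_ev_u' hp hpk Q hQ h1 h2
  obtain ⟨G, hG⟩ : D.G ∈ (map2 ι).range := by
    refine h.mem_range_of_roots D.G p
      (fun i hi => by
        rw [Polynomial.coeff_eq_zero_of_natDegree_lt (lt_of_le_of_lt D.G_natDegree hi)]
        exact zero_mem _)
      (jAd O p) (jA O) (jA O) (jAd O p)
      (HahnSeries.C ((p : O) ^ 12) * uA O p * ev2 (Polynomial.derivative Φ) (jAd O p) (jA O))
      (uAinv O p * ev2 (Polynomial.derivative Φ) (jA O) (jAd O p)) ?_ ?_ ?_
    · rw [map_mul, map_mul, coeffMap_ev2, ← Polynomial.derivative_map, ← map2_apply, hΦ,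
        coeffMap_uA, coeffMap_jA, coeffMap_jAd, coeffMap_C_natCast_pow, D.G_ev₁]
    · rw [map_mul, coeffMap_ev2, ← Polynomial.derivative_map, ← map2_apply, hΦ,
        coeffMap_uAinv, coeffMap_jA, coeffMap_jAd, D.G_ev₂]
    · intro Q hQ h1 h2
      rw [coeffMap_jAd, coeffMap_jA] at h1 h2
      exact eq_zero_of_ev_j' hp hpk Q hQ h1 h2
  exact ⟨ModData.descend ι h.inj D Φ Ψ G hΦ hΨ hG⟩

end integral

section phi

variable (R K : Type) [CommRing R] [IsDomain R] [IsDiscreteValuationRing R] [Field K]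
  [Algebra R K] [IsFractionRing R K] [Algebra ℚ K]

include K in
/-- The modular polynomial `Φ_p` over `R`: monic, `Φ_p(j(q^(p d)), j(q^d)) = 0`, and
`Φ_p'(j(q^(p d)), j(q^d)) ≠ 0` modulo `π`. -/
theorem exists_PhiR {p : ℕ} (hp : p.Prime) (hpk : (p : IsLocalRing.ResidueField R) ≠ 0) :
    ∃ Φ : R[X][X], Φ.Monic ∧ ∀ (d : ℕ) [NeZero d] [NeZero (d * p)],
      ev2 Φ (jAd R (d * p)) (jAd R d) = 0 ∧
      coeffMap (IsLocalRing.residue R) (ev2 (derivative Φ) (jAd R (d * p)) (jAd R d)) ≠ 0 := by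
  have : NeZero p := ⟨hp.ne_zero⟩
  obtain ⟨π, hπ⟩ := IsDiscreteValuationRing.exists_irreducible R
  obtain ⟨D₀⟩ := S28lib.nonempty_modData_rat (S28lib.nonempty_modData_complex hp)
  obtain ⟨D⟩ := redSetup_nonempty_modData_int (redSetup_of_dvr (K := K) hπ) hp hpk
    (D₀.map (algebraMap ℚ K))
  set κ := IsLocalRing.ResidueField R
  let g : R →+* AlgebraicClosure κ := (algebraMap κ (AlgebraicClosure κ)).comp (IsLocalRing.residue R)
  have hpK : (p : AlgebraicClosure κ) ≠ 0 := by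
    rw [← map_natCast (algebraMap κ (AlgebraicClosure κ))]
    exact (map_ne_zero_iff _ (algebraMap κ (AlgebraicClosure κ)).injective).2 hpk
  have hder := S28lib.ev2_derivative_Phi_ne_zero hp hpK (D.map g)
  refine ⟨D.Φ, D.Φ_monic, fun d _ _ => ⟨?_, ?_⟩⟩
  · have := congrArg (qExpand R d) D.Φ_ev₁
    rw [map_zero, ← S28lib.sub_one_eq_qExpand, S28lib.sub_ev2, S28lib.sub_one_eq_qExpand,
      S28lib.sub_one_eq_qExpand, qExpand_qExpand] at this
    exact this
  · intro h0
    apply hder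
    have h1 : ev2 (derivative D.Φ) (jAd R (d * p)) (jAd R d) =
        qExpand R d (ev2 (derivative D.Φ) (jAd R p) (jA R)) := by
      rw [← S28lib.sub_one_eq_qExpand, S28lib.sub_ev2, S28lib.sub_one_eq_qExpand,
        S28lib.sub_one_eq_qExpand, qExpand_qExpand]
    rw [h1, coeffMap_qExpand] at h0
    have h2 : coeffMap (IsLocalRing.residue R) (ev2 (derivative D.Φ) (jAd R p) (jA R)) = 0 :=
      qExpand_injective d (by rw [h0, map_zero])
    have h3 := congrArg (coeffMap (algebraMap κ (AlgebraicClosure κ))) h2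
    rw [coeffMap_coeffMap, map_zero, S28lib.coeffMap_ev2, S28lib.coeffMap_jAd, S28lib.coeffMap_jA,
      ← Polynomial.derivative_map] at h3
    exact h3

end phi

section unitdiff

variable {R K : Type} [CommRing R] [IsDomain R] [IsDiscreteValuationRing R] [Field K]
  [Algebra R K] [IsFractionRing R K] [Algebra ℚ K] {N : ℕ} [NeZero N]

variable (K N) in
theorem FK_eq_adjoin : laurentBaseChange K (modularFunctionFieldFull N) =
    IntermediateField.adjoin K (divisorExpansionsC K N) := by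
  apply le_antisymm (FK_le_fullC K N)
  show IntermediateField.adjoin K (divisorExpansionsC K N) ≤ _
  rw [IntermediateField.adjoin_le_iff]
  rintro _ ⟨d, hd0, hd, rfl⟩
  exact jAd_mem_FK K N hd

theorem algHom_ext_Jgen {Ω : Type*} [Field Ω] [Algebra K Ω] {σ σ' : FK K N →ₐ[K] Ω}
    (h : ∀ d : Dv N, σ (Jgen K N d) = σ' (Jgen K N d)) : σ = σ' := by
  refine IntermediateField.algHom_ext_of_eq_adjoin K (FK_eq_adjoin K N) ?_
  rintro x ⟨d, hd0, hd, rfl⟩
  have h1 := h ⟨d, hd⟩
  have h2 : Jgen K N ⟨d, hd⟩ = ⟨qExpand K d (jqModC K), (FK_eq_adjoin K N).ge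
      (IntermediateField.subset_adjoin _ _ ⟨d, hd0, hd, rfl⟩)⟩ :=
    Subtype.ext (coe_Jgen_jAd K N ⟨d, hd⟩)
  rw [h2] at h1
  exact h1

variable [Algebra R (FK K N)] [IsScalarTower R K (FK K N)]

variable (R K N) in
/-- `R → gaussSub` -/
def rG : R →+* gaussSub R K N :=
  (algebraMap R (FK K N)).codRestrict (gaussSub R K N) (fun a =>
    mem_gaussSub_of_eq_coeffMap (HahnSeries.C a) (by rw [coe_algebraMap_R, coeffMap_C']))

variable (R) in
/-- `j(q^d)` as an element of `gaussSub` -/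
def jG (d : Dv N) : gaussSub R K N := ⟨Jgen K N d, Jgen_mem_gaussSub d⟩

variable (R) in
/-- `R[Y] → gaussSub`, `Y ↦ j(q^d)` -/
def φG (d : Dv N) : R[X] →+* gaussSub R K N := eval₂RingHom (rG R K N) (jG R d)

variable (R K N) in
/-- `gaussSub → K((q))` -/
def cG : gaussSub R K N →+* LaurentSeries K :=
  (algebraMap (FK K N) (LaurentSeries K)).comp (gaussSub R K N).subtype

theorem cG_injective : Function.Injective (cG R K N) := by
  intro x y h
  exact Subtype.ext (Subtype.ext h)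

theorem cG_comp_φG (d : Dv N) :
    (cG R K N).comp (φG R d) = (coeffMap (algebraMap R K)).comp (evY R (jAd R d.1)) := by
  apply Polynomial.ringHom_ext
  · intro a
    simp only [RingHom.comp_apply, φG, coe_eval₂RingHom, eval₂_C, S28lib.evY_C, coeffMap_C']
    exact coe_algebraMap_R a
  · simp only [RingHom.comp_apply, φG, coe_eval₂RingHom, eval₂_X, S28lib.evY_X,
      S28lib.coeffMap_jAd]
    exact coe_Jgen_jAd K N d

theorem cG_eval_map (P : R[X][X]) (d d' : Dv N) :
    cG R K N ((P.map (φG R d')).eval (jG R d)) =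
      coeffMap (algebraMap R K) (ev2 P (jAd R d.1) (jAd R d'.1)) := by
  unfold ev2
  rw [eval_map, hom_eval₂, hom_eval₂, cG_comp_φG, S28lib.coeffMap_jAd]
  congr 1
  exact coe_Jgen_jAd K N d

/-- the inductive step: if `σ, σ'` agree at `j(q^d)` and differ at `j(q^(d p))`, they differ there
by a unit -/
theorem valuation_sub_eq_one_of_step (hN : (N : IsLocalRing.ResidueField R) ≠ 0)
    {Ω : Type*} [Field Ω] [Algebra K Ω] (V : ValuationSubring Ω) (σ σ' : FK K N →ₐ[K] Ω)
    (hmem : ∀ x ∈ gaussSub R K N, σ x ∈ V) (hmem' : ∀ x ∈ gaussSub R K N, σ' x ∈ V)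
    {d p : ℕ} (hp : p.Prime) (hdN : d * p ∣ N)
    (heq : σ (Jgen K N ⟨d, (Dvd.intro _ rfl).trans hdN⟩) =
      σ' (Jgen K N ⟨d, (Dvd.intro _ rfl).trans hdN⟩))
    (hne : σ (Jgen K N ⟨d * p, hdN⟩) ≠ σ' (Jgen K N ⟨d * p, hdN⟩)) :
    V.valuation (σ (Jgen K N ⟨d * p, hdN⟩) - σ' (Jgen K N ⟨d * p, hdN⟩)) = 1 := by
  set D' : Dv N := ⟨d, (Dvd.intro _ rfl).trans hdN⟩ with hD'
  set D : Dv N := ⟨d * p, hdN⟩ with hD
  have i1 : NeZero d := S24lib.neZero_Dv N D'
  have i2 : NeZero (d * p) := S24lib.neZero_Dv N D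
  have hpk : (p : IsLocalRing.ResidueField R) ≠ 0 := by
    intro h0
    obtain ⟨c, hc⟩ := hdN
    apply hN
    rw [hc, Nat.cast_mul, Nat.cast_mul, h0, mul_zero, zero_mul]
  obtain ⟨Φ, -, hΦ⟩ := exists_PhiR R K hp hpk
  obtain ⟨hΦ0, hΦ1⟩ := hΦ d
  let τ : gaussSub R K N →+* V :=
    ((σ : FK K N →+* Ω).comp (gaussSub R K N).subtype).codRestrict V (fun x => hmem x x.2)
  let τ' : gaussSub R K N →+* V :=
    ((σ' : FK K N →+* Ω).comp (gaussSub R K N).subtype).codRestrict V (fun x => hmem' x x.2)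
  set SG : (gaussSub R K N)[X] := Φ.map (φG R D') with hSG
  have h0 : SG.eval (jG R D) = 0 := by
    apply cG_injective
    rw [hSG, cG_eval_map, map_zero]
    show coeffMap _ (ev2 Φ (jAd R (d * p)) (jAd R d)) = 0
    rw [hΦ0, map_zero]
  have hu : IsUnit ((derivative SG).eval (jG R D)) := by
    rw [hSG, derivative_map]
    set u : gaussSub R K N := ((derivative Φ).map (φG R D')).eval (jG R D) with hu
    have hcu : cG R K N u =
        coeffMap (algebraMap R K) (ev2 (derivative Φ) (jAd R (d * p)) (jAd R d)) :=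
      cG_eval_map _ _ _
    have hinv : (u : FK K N)⁻¹ ∈ gaussSub R K N :=
      inv_mem_gaussSub_of_eq_coeffMap (x := (u : FK K N)) _ hcu hΦ1
    have hu0 : (u : FK K N) ≠ 0 := by
      intro h0
      have h1 : cG R K N u = 0 := by
        show ((u : FK K N) : LaurentSeries K) = 0
        rw [h0]; rfl
      rw [hcu] at h1
      have h2 := S28lib.coeffMap_injective (IsFractionRing.injective R K)
        (h1.trans (map_zero _).symm)
      exact hΦ1 (by rw [h2, map_zero])
    exact IsUnit.of_mul_eq_one ⟨_, hinv⟩ (Subtype.ext (mul_inv_cancel₀ hu0))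
  have hττ : τ.comp (φG R D') = τ'.comp (φG R D') := by
    apply Polynomial.ringHom_ext
    · intro a
      apply Subtype.ext
      simp only [RingHom.comp_apply, φG, coe_eval₂RingHom, eval₂_C]
      show σ (algebraMap R (FK K N) a) = σ' (algebraMap R (FK K N) a)
      rw [IsScalarTower.algebraMap_apply R K (FK K N), σ.commutes, σ'.commutes]
    · apply Subtype.ext
      simp only [RingHom.comp_apply, φG, coe_eval₂RingHom, eval₂_X]
      exact heq
  have hmap : SG.map τ = SG.map τ' := by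
    rw [hSG, Polynomial.map_map, Polynomial.map_map, hττ]
  have key : IsUnit (τ (jG R D) - τ' (jG R D)) := by
    refine isUnit_sub_of_roots (SG.map τ) ?_ ?_ ?_ ?_
    · rw [eval_map_apply, h0, map_zero]
    · rw [hmap, eval_map_apply, h0, map_zero]
    · intro h
      exact hne (congrArg Subtype.val h)
    · rw [derivative_map, eval_map_apply]
      exact hu.map τ
  exact (V.valuation_eq_one_iff _).mp key

/-- **(Hπ)** for `F_K(N)` and a parameter `t` such that the Gauss ring is `π`-integral with respect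
to `t` and `j ∈ K(t)`. -/
theorem unitDiff_FK (hN : (N : IsLocalRing.ResidueField R) ≠ 0) {π : R} {t : FK K N}
    (hPi : ∀ x ∈ gaussSub R K N, PiInt π t x)
    (hj : ∀ (Ω : Type) [Field Ω] [Algebra K Ω] (σ σ' : FK K N →ₐ[K] Ω), σ t = σ' t →
      σ (J1 K N) = σ' (J1 K N)) : UnitDiff K π t := by
  classical
  intro Ω _ _ V σ σ' hT hV hne
  have hagree : ∀ q : R[X], σ' (aeval t q) = σ (aeval t q) := by
    intro q
    rw [← aeval_map_algebraMap K, ← aeval_algHom_apply, ← aeval_algHom_apply, hT]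
  have hV' : GaussDom π t V (σ' : FK K N →+* Ω) := by
    intro q
    have := hV q
    simp only [RingHom.coe_coe] at this ⊢
    rwa [hagree]
  have hmem : ∀ x ∈ gaussSub R K N, σ x ∈ V := fun x hx =>
    (V.valuation_le_one_iff _).mp (hV.valuation_le_one (hPi x hx))
  have hmem' : ∀ x ∈ gaussSub R K N, σ' x ∈ V := fun x hx =>
    (V.valuation_le_one_iff _).mp (hV'.valuation_le_one (hPi x hx))
  have hex : ∃ n : ℕ, ∃ h : n ∣ N, σ (Jgen K N ⟨n, h⟩) ≠ σ' (Jgen K N ⟨n, h⟩) := by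
    by_contra hcon
    push Not at hcon
    exact hne (algHom_ext_Jgen fun d => hcon d.1 d.2)
  obtain ⟨d, ⟨hdN, hd⟩, hmin⟩ : ∃ d : ℕ,
      (∃ h : d ∣ N, σ (Jgen K N ⟨d, h⟩) ≠ σ' (Jgen K N ⟨d, h⟩)) ∧
      ∀ n < d, ¬ ∃ h : n ∣ N, σ (Jgen K N ⟨n, h⟩) ≠ σ' (Jgen K N ⟨n, h⟩) :=
    ⟨Nat.find hex, Nat.find_spec hex, fun n hn => Nat.find_min hex hn⟩
  have hd0 : d ≠ 0 := by
    rintro rfl
    exact NeZero.ne N (Nat.eq_zero_of_zero_dvd hdN)
  have hd1 : d ≠ 1 := by
    rintro rfl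
    exact hd (hj Ω σ σ' hT)
  have hp : (d.minFac).Prime := Nat.minFac_prime hd1
  obtain ⟨d', hd'⟩ := Nat.minFac_dvd d
  set p := d.minFac with hpdef
  have hdd : d = d' * p := by rw [hd', mul_comm]
  clear_value p
  subst hdd
  have hd'0 : d' ≠ 0 := by
    rintro rfl
    exact hd0 (zero_mul p)
  have hlt : d' < d' * p := by
    have := hp.two_le
    nlinarith [Nat.pos_of_ne_zero hd'0]
  have heq : σ (Jgen K N ⟨d', (Dvd.intro _ rfl).trans hdN⟩) =
      σ' (Jgen K N ⟨d', (Dvd.intro _ rfl).trans hdN⟩) := by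
    by_contra hcon
    exact hmin d' hlt ⟨_, hcon⟩
  exact ⟨Jgen K N ⟨d' * p, hdN⟩, hPi _ (Jgen_mem_gaussSub _),
    valuation_sub_eq_one_of_step hN V σ σ' hmem hmem' hp hdN heq hd⟩

/-- **(Hπ)** for the parameter `j`. -/
theorem unitDiff_J1 [CharZero K] (hN : (N : IsLocalRing.ResidueField R) ≠ 0) {π : R}
    (hπ : IsLocalRing.residue R π = 0) : UnitDiff K π (J1 K N) :=
  unitDiff_FK hN (fun _ hx => piInt_J1 hN hπ hx) (fun _ _ _ _ _ h => h)

/-- **(Hπ)** for a Hauptmodul `t`, `j t^e = A(t)`. -/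
theorem unitDiff_haupt [CharZero K] (hN : (N : IsLocalRing.ResidueField R) ≠ 0) {π : R}
    (hπ : IsLocalRing.residue R π = 0) {t : FK K N} (ht0 : t ≠ 0) {A : R[X]} (hA : A.Monic)
    {e : ℕ} (he : e < A.natDegree) (hrel : J1 K N * t ^ e = aeval t A) : UnitDiff K π t := by
  refine unitDiff_FK hN (fun _ hx => piInt_haupt hN hπ ht0 hA he hrel hx) ?_
  intro Ω _ _ σ σ' h
  have h1 : ∀ τ : FK K N →ₐ[K] Ω, τ (J1 K N) * τ t ^ e =
      aeval (τ t) (A.map (algebraMap R K)) := by
    intro τ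
    rw [← map_pow, ← map_mul, hrel, ← aeval_map_algebraMap K, aeval_algHom_apply]
  have h2 : σ t ^ e ≠ 0 := pow_ne_zero e ((_root_.map_ne_zero _).mpr ht0)
  apply mul_right_cancel₀ h2
  rw [h1 σ, h, ← h1 σ']

end unitdiff

end

end Fermat.Agent.ESlib
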