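import Fermat.Agent.ES.Dict.Places
import Fermat.Agent.ES.B.Defs
import Fermat.Agent.ES.H.Alg
import Fermat.Agent.ES.M.Rel
import Fermat.Agent.ES.M.Sep
import Fermat.Agent.ES.M.FinDim
import Fermat.Agent.S28.Key

/-!
# ES, modular side, row M-B: the function field `F_K(N) = FK K N` over an ARBITRARY field `K` of
characteristic zero (not algebraically closed: in the application `K` is a number field), and the
Hauptmodul `t_r ∈ F_K(N)`, `r ∈ {2, 3}`, `r ∣ N`.
-/

set_option autoImplicit false
set_option linter.unusedSectionVars false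

open ModularCurve IntermediateField
open Fermat.Agent.S24lib Fermat.Agent.S28lib

namespace Fermat.Agent.ESlib

variable (K : Type) [Field K] [CharZero K] [Algebra ℚ K] (N : ℕ) [NeZero N]

/-- **M-B1.** the two descriptions of `F_K(N)` agree.
(`⊆`: `adjoin_le_iff`; an element of `coeffEmb K '' F_ℚ(N)` is in `F_K(N)` by
`S28lib.coeffMap_mem_full (algebraMap ℚ K)` and `modularFunctionFieldFullC_rat`.
`⊇`: the generators `qExpand K d (jqModC K)` are `coeffEmb K (qExpand ℚ d jq)`:
`S28lib.coeffMap_jqModC`, `coeffMap_qExpand`-type lemmas of S28/Subst, S28/Indep.) -/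
theorem laurentBaseChange_eq_fullC :
    laurentBaseChange K (modularFunctionFieldFull N) = modularFunctionFieldFullC K N :=
  FK_eq_adjoin K N

/-- the underlying series of `J1` -/
theorem coe_J1 : ((J1 K N : FK K N) : LaurentSeries K) = jqModC K :=
  coe_J1_jA K N

/-- the underlying series of `Jgen d` -/
theorem coe_Jgen (d : Dv N) : ((Jgen K N d : FK K N) : LaurentSeries K) = jqNModC K d.1 :=
  coe_Jgen_jAd K N d

/-- a nonzero power series without constant term is transcendental over the coefficient field -/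
theorem powerSeries_aeval_ne_zero {K : Type*} [Field K] (y : PowerSeries K) (hy : y ≠ 0)
    (hy0 : PowerSeries.constantCoeff y = 0) (p : Polynomial K) (hp : p ≠ 0) :
    Polynomial.aeval y p ≠ 0 := by
  intro h
  obtain ⟨q, hq, hnd⟩ := Polynomial.exists_eq_pow_rootMultiplicity_mul_and_not_dvd p hp 0
  rw [hq, map_mul, map_pow] at h
  have h1 : Polynomial.aeval y q = 0 := by
    rcases mul_eq_zero.mp h with h | h
    · exfalso
      have := eq_zero_of_pow_eq_zero h
      simp at this
      exact hy this
    · exact h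
  apply hnd
  rw [Polynomial.dvd_iff_isRoot, Polynomial.IsRoot]
  have h2 : PowerSeries.constantCoeff (Polynomial.aeval y q) = Polynomial.eval 0 q := by
    have := Polynomial.hom_eval₂ q (algebraMap K (PowerSeries K))
      (PowerSeries.constantCoeff (R := K)) y
    rw [hy0] at this
    rw [Polynomial.aeval_def, this]
    have h3 : (PowerSeries.constantCoeff (R := K)).comp (algebraMap K (PowerSeries K)) =
        RingHom.id K := by
      ext a
      simp
    rw [h3, Polynomial.eval₂_id]
  rw [← h2, h1, map_zero]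

theorem transcendental_of_order_pos {K : Type*} [Field K] {x : LaurentSeries K}
    (hx : 0 < x.order) : Transcendental K x := by
  have hx0 : x ≠ 0 := by
    rintro rfl
    simp at hx
  obtain ⟨n, hn⟩ := Int.eq_ofNat_of_zero_le hx.le
  have hn0 : n ≠ 0 := by
    rintro rfl
    simp [hn] at hx
  have hxy : x = HahnSeries.ofPowerSeries ℤ K (PowerSeries.X ^ n * x.powerSeriesPart) := by
    conv_lhs => rw [← LaurentSeries.single_order_mul_powerSeriesPart x, hn]
    rw [map_mul]
    congr 1
    exact (HahnSeries.ofPowerSeries_X_pow (Γ := ℤ) (R := K) n).symm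
  rw [transcendental_iff]
  intro p hp
  by_contra hp0
  have h1 := Polynomial.hom_eval₂ p (algebraMap K (PowerSeries K)) (HahnSeries.ofPowerSeries ℤ K)
    (PowerSeries.X ^ n * x.powerSeriesPart)
  rw [← hxy] at h1
  have h2 : (HahnSeries.ofPowerSeries ℤ K).comp (algebraMap K (PowerSeries K)) =
      algebraMap K (LaurentSeries K) := rfl
  rw [h2, ← Polynomial.aeval_def, ← Polynomial.aeval_def, hp] at h1
  have h0 := HahnSeries.ofPowerSeries_injective (h1.trans (map_zero _).symm)
  refine powerSeries_aeval_ne_zero _ ?_ ?_ p hp0 h0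
  · intro h
    rw [h, map_zero] at hxy
    exact hx0 hxy
  · simp [hn0]

theorem transcendental_of_order_ne_zero' {K : Type*} [Field K] {x : LaurentSeries K}
    (hx : x.order ≠ 0) : Transcendental K x := by
  have hx0 : x ≠ 0 := by
    rintro rfl
    simp at hx
  rcases lt_or_gt_of_ne hx with h | h
  · intro halg
    have h1 : (x * x⁻¹).order = x.order + (x⁻¹).order :=
      HahnSeries.order_mul hx0 (inv_ne_zero hx0)
    rw [mul_inv_cancel₀ hx0, HahnSeries.order_one] at h1
    have : 0 < (x⁻¹).order := by omega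
    exact transcendental_of_order_pos this halg.inv
  · exact transcendental_of_order_pos h

/-- **M-B2.** an element of `K((q))` of nonzero order is transcendental over `K`; more precisely:
an element of `K((q))` which is algebraic over `K` is a constant (`K` of characteristic `0`).

Proof.  Let `p = minpoly K x` (separable).  If `ord x < 0` the dominant term of `p(x)` is
`x ^ deg p`: absurd; so `x = a + x₁`, `a ∈ K` the constant term, `ord x₁ > 0` or `x₁ = 0`.
`0 = p(a + x₁) = p(a) + p'(a) x₁ + x₁² (…)` (`Polynomial.aeval_add_of_sq_eq_zero`-like /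
`Polynomial.binomExpansion`), the constant term gives `p(a) = 0`, so `p = X - a` by irreducibility,
hence `x = a`. -/
theorem exists_eq_C_of_isAlgebraic {K : Type*} [Field K] [CharZero K] (x : LaurentSeries K)
    (hx : IsAlgebraic K x) : ∃ a : K, x = HahnSeries.C a := by
  refine ⟨x.coeff 0, ?_⟩
  by_contra hne
  have hsub : x - HahnSeries.C (x.coeff 0) ≠ 0 := sub_ne_zero.mpr hne
  have hC : HahnSeries.C (x.coeff 0) = algebraMap K (LaurentSeries K) (x.coeff 0) := by
    show _ = HahnSeries.ofPowerSeries ℤ K (algebraMap K (PowerSeries K) (x.coeff 0))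
    rw [← PowerSeries.C_eq_algebraMap, HahnSeries.ofPowerSeries_C]
  have halg : IsAlgebraic K (x - HahnSeries.C (x.coeff 0)) := by
    rw [hC]
    exact hx.sub (isAlgebraic_algebraMap (x.coeff 0))
  have hord : (x - HahnSeries.C (x.coeff 0)).order ≠ 0 := by
    intro h0
    have := (HahnSeries.coeff_order_eq_zero (x := x - HahnSeries.C (x.coeff 0))).not.mpr hsub
    rw [h0] at this
    simp at this
  exact transcendental_of_order_ne_zero' hord halg

theorem transcendental_of_order_ne_zero {K : Type*} [Field K] [CharZero K] {x : LaurentSeries K}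
    (hx : x.order ≠ 0) : Transcendental K x := transcendental_of_order_ne_zero' hx

/-- `j` is transcendental over `K` -/
theorem transcendental_J1K : Transcendental K (J1 K N) := by
  have h : Transcendental K ((J1 K N : FK K N) : LaurentSeries K) := by
    apply transcendental_of_order_ne_zero
    rw [coe_J1, show jqModC K = jA K from rfl, order_jA]
    norm_num
  exact (transcendental_algebraMap_iff
    (algebraMap (FK K N) (LaurentSeries K)).injective).mp h

/-- **M-B3.** `[F_K(N) : K(j)] ≤ ψ(N)` and finiteness, for arbitrary `K` of characteristic zero.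

Proof.  A family `x : Fin m → FK K N` which is linearly independent over `K⟮J1⟯` is `JIndep K`
(clear denominators: `K⟮J1⟯ = Frac K[J1]`; `JIndep K x` says `∑ P_i(j) x_i = 0 → P = 0`), so
`m ≤ ψ(N)` by helper29's `key_char0K` (ES/M/Rel.lean; membership via `laurentBaseChange_eq_fullC`).
Then `Module.finrank_le_of_...` / `Module.finite_of_...` (linearly independent families are bounded:
`Module.Finite` via `rank_lt_aleph0`, `Module.rank_le`, `LinearIndependent` + `Fin m`...). -/
theorem finrank_J1K_le :
    FiniteDimensional K⟮J1 K N⟯ (FK K N) ∧ Module.finrank K⟮J1 K N⟯ (FK K N) ≤ dedekindPsi N :=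
  ⟨finiteDimensional_of_J1_mem _ (mem_adjoin_simple_self K _),
    Module.finrank_le_of_rank_le (rank_le_of_J1_mem _ (mem_adjoin_simple_self K _))⟩

section haupt

variable (r : ℕ) [NeZero r]

/-- the exponent `24 / (r - 1)`: `24` for `r = 2`, `12` for `r = 3` -/
def hexp (r : ℕ) : ℕ := 24 / (r - 1)

/-- **M-B4.** `t_r ∈ F_K(N)` for `r ∣ N` (helper14's `haupt2_mem_of_dvd`, `haupt3_mem_of_dvd` in
ES/H/Alg.lean and M-B1). -/
theorem haupt_mem_FK (hr : r = 2 ∨ r = 3) (hrN : r ∣ N) :
    haupt K r (hexp r) ∈ laurentBaseChange K (modularFunctionFieldFull N) := by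
  rcases hr with rfl | rfl
  · exact (FK_eq_adjoin K N).ge (haupt2_mem_of_dvd K two_ne_zero N hrN)
  · exact (FK_eq_adjoin K N).ge (haupt3_mem_of_dvd K three_ne_zero N hrN)

/-- the Hauptmodul `t_r` as an element of `F_K(N)` -/
noncomputable def tF (hr : r = 2 ∨ r = 3) (hrN : r ∣ N) : FK K N :=
  ⟨haupt K r (hexp r), haupt_mem_FK K N r hr hrN⟩

/-- `ord_q t_r = -1` -/
theorem order_haupt (c : ℕ) : (haupt K r c).order = -1 := by
  have hc0 : PowerSeries.constantCoeff (hauptNum r c) = 1 := by
    have h1 : PowerSeries.constantCoeff etaProdInv = 1 := by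
      have := congrArg PowerSeries.constantCoeff etaProd_mul_inv
      rwa [map_mul, constantCoeff_etaProd, one_mul, map_one] at this
    rw [hauptNum, map_mul, map_pow, map_pow, constantCoeff_Vp, constantCoeff_etaProd, h1]
    simp
  have h0 : (zLhom K (hauptNum r c)).coeff 0 = 1 := by
    have := zLhom_coeff_natCast K (hauptNum r c) 0
    rw [PowerSeries.coeff_zero_eq_constantCoeff_apply, hc0] at this
    simpa using this
  have hne : zLhom K (hauptNum r c) ≠ 0 := by
    intro h
    rw [h] at h0
    simp at h0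
  have hord : (zLhom K (hauptNum r c)).order = 0 := by
    apply le_antisymm
    · exact HahnSeries.order_le_of_coeff_ne_zero (by rw [h0]; exact one_ne_zero)
    · by_contra hlt
      exact hne (HahnSeries.coeff_order_eq_zero.1 (zLhom_coeff_of_neg K _ (not_le.1 hlt)))
  rw [haupt_eq, HahnSeries.order_mul (by simp) hne, HahnSeries.order_single one_ne_zero, hord,
    add_zero]

theorem transcendental_tF (hr : r = 2 ∨ r = 3) (hrN : r ∣ N) :
    Transcendental K (tF K N r hr hrN) := by
  have h : Transcendental K ((tF K N r hr hrN : FK K N) : LaurentSeries K) := by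
    apply transcendental_of_order_ne_zero
    show (haupt K r (hexp r)).order ≠ 0
    rw [order_haupt]
    norm_num
  exact (transcendental_algebraMap_iff
    (algebraMap (FK K N) (LaurentSeries K)).injective).mp h

theorem tF_ne_zero (hr : r = 2 ∨ r = 3) (hrN : r ∣ N) : tF K N r hr hrN ≠ 0 := by
  intro h0
  have h1 : haupt K r (hexp r) = 0 := congrArg Subtype.val h0
  have h2 := order_haupt K r (hexp r)
  rw [h1, HahnSeries.order_zero] at h2
  exact absurd h2 (by norm_num)

end haupt

/-- the relation for `r = 2` -/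
theorem tF_rel_two (hrN : 2 ∣ N) :
    J1 K N * tF K N 2 (Or.inl rfl) hrN ^ 2 = (tF K N 2 (Or.inl rfl) hrN + 256) ^ 3 := by
  apply Subtype.ext
  show ((J1 K N : FK K N) : LaurentSeries K) * haupt K 2 24 ^ 2 = (haupt K 2 24 + 256) ^ 3
  rw [coe_J1]
  exact haupt2_rel_one K

/-- the relation for `r = 3` -/
theorem tF_rel_three (hrN : 3 ∣ N) :
    J1 K N * tF K N 3 (Or.inr rfl) hrN ^ 3 =
      (tF K N 3 (Or.inr rfl) hrN + 27) * (tF K N 3 (Or.inr rfl) hrN + 243) ^ 3 := by
  apply Subtype.ext
  show ((J1 K N : FK K N) : LaurentSeries K) * haupt K 3 12 ^ 3 =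
    (haupt K 3 12 + 27) * (haupt K 3 12 + 243) ^ 3
  rw [coe_J1]
  exact haupt3_rel_one K

/-- the relation in polynomial form, over any coefficient ring `R₀` -/
theorem exists_tF_rel (R₀ : Type*) [CommRing R₀] [Nontrivial R₀] [Algebra R₀ (FK K N)]
    (r : ℕ) [NeZero r] (hr : r = 2 ∨ r = 3) (hrN : r ∣ N) :
    ∃ (A : Polynomial R₀) (e : ℕ), A.Monic ∧ e < A.natDegree ∧
      J1 K N * tF K N r hr hrN ^ e = Polynomial.aeval (tF K N r hr hrN) A := by
  rcases hr with rfl | rfl
  · refine ⟨(Polynomial.X + Polynomial.C 256) ^ 3, 2, (Polynomial.monic_X_add_C 256).pow 3, ?_, ?_⟩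
    · rw [((Polynomial.monic_X_add_C (256 : R₀))).natDegree_pow, Polynomial.natDegree_X_add_C]
      norm_num
    · rw [map_pow, map_add, Polynomial.aeval_X, Polynomial.aeval_C, map_ofNat]
      exact tF_rel_two K N hrN
  · refine ⟨(Polynomial.X + Polynomial.C 27) * (Polynomial.X + Polynomial.C 243) ^ 3, 3,
      (Polynomial.monic_X_add_C 27).mul ((Polynomial.monic_X_add_C 243).pow 3), ?_, ?_⟩
    · rw [(Polynomial.monic_X_add_C 27).natDegree_mul ((Polynomial.monic_X_add_C 243).pow 3),
        (Polynomial.monic_X_add_C (243 : R₀)).natDegree_pow, Polynomial.natDegree_X_add_C,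
        Polynomial.natDegree_X_add_C]
      norm_num
    · rw [map_mul, map_pow, map_add, map_add, Polynomial.aeval_X, Polynomial.aeval_C,
        Polynomial.aeval_C, map_ofNat, map_ofNat]
      exact tF_rel_three K N hrN

theorem J1_mem_adjoin_tF (r : ℕ) [NeZero r] (hr : r = 2 ∨ r = 3) (hrN : r ∣ N) :
    J1 K N ∈ K⟮tF K N r hr hrN⟯ := by
  obtain ⟨A, e, -, -, hrel⟩ := exists_tF_rel K N K r hr hrN
  exact J1_mem_adjoin_of_rel (tF_ne_zero K N r hr hrN) hrel

/-- `F_K(N)` is finite over `K(t)` and over `K(1/t)` (because `J1 ∈ K(t)`). -/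
theorem finiteDimensional_tF (r : ℕ) [NeZero r]
    (hr : r = 2 ∨ r = 3) (hrN : r ∣ N) :
    FiniteDimensional K⟮tF K N r hr hrN⟯ (FK K N) ∧
      FiniteDimensional K⟮(tF K N r hr hrN)⁻¹⟯ (FK K N) := by
  refine ⟨finiteDimensional_of_J1_mem _ (J1_mem_adjoin_tF K N r hr hrN),
    finiteDimensional_of_J1_mem _ ?_⟩
  have hle : K⟮tF K N r hr hrN⟯ ≤ K⟮(tF K N r hr hrN)⁻¹⟯ := by
    rw [IntermediateField.adjoin_simple_le_iff]
    have := inv_mem (mem_adjoin_simple_self K (tF K N r hr hrN)⁻¹)
    rwa [inv_inv] at this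
  exact hle (J1_mem_adjoin_tF K N r hr hrN)

/-- base change is compatible with the generators and with `t` -/
theorem bc_Jgen (K' : Type) [Field K'] [CharZero K'] [Algebra ℚ K'] [Algebra K K']
    [IsScalarTower ℚ K K'] (d : Dv N) :
    bc K K' (modularFunctionFieldFull N) (Jgen K N d) = Jgen K' N d :=
  Subtype.ext (coeffMap_coeffEmb_algebraMap K K' _)

theorem coeffMap_zLhom {A B : Type*} [CommRing A] [CommRing B] (φ : A →+* B)
    (P : PowerSeries ℤ) : coeffMap φ (zLhom A P) = zLhom B P := by
  ext k
  rw [coeffMap_coeff]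
  rcases lt_or_ge k 0 with hk | hk
  · rw [zLhom_coeff_of_neg A _ hk, zLhom_coeff_of_neg B _ hk, map_zero]
  · obtain ⟨n, rfl⟩ := Int.eq_ofNat_of_zero_le hk
    rw [zLhom_coeff_natCast, zLhom_coeff_natCast, map_intCast]

theorem coeffMap_haupt {A B : Type*} [CommRing A] [CommRing B] (φ : A →+* B) (r c : ℕ)
    [NeZero r] : coeffMap φ (haupt A r c) = haupt B r c := by
  rw [haupt_eq, haupt_eq, map_mul, coeffMap_zLhom, coeffMap_single, map_one]

theorem bc_tF (K' : Type) [Field K'] [CharZero K'] [Algebra ℚ K'] [Algebra K K']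
    [IsScalarTower ℚ K K'] (r : ℕ) [NeZero r] (hr : r = 2 ∨ r = 3) (hrN : r ∣ N) :
    bc K K' (modularFunctionFieldFull N) (tF K N r hr hrN) = tF K' N r hr hrN :=
  Subtype.ext (coeffMap_haupt (algebraMap K K') r (hexp r))

end Fermat.Agent.ESlib
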