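import Fermat.Agent.ES.M.Base
import Fermat.Agent.ES.C.AKDefs

/-!
# ES, modular side, rows M-pi and M-f: the two `π`-adic inputs of `abstract_KIL`
(owner: helper29; these are the exact shapes consumed by `ES/M/Final.lean`)

Setting: `R` a DVR with fraction field `K` of characteristic zero, `N` a unit of `R`,
`F = FK K N ⊆ K((q))`, `t = tF K N r`.  The `R`-algebra structure of `F` is an instance argument
(there is no global instance); in the application it is
`((algebraMap K F).comp (algebraMap R K)).toAlgebra`.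
-/

set_option autoImplicit false
set_option linter.unusedSectionVars false

open ModularCurve IntermediateField
open Fermat.Agent.S24lib

namespace Fermat.Agent.ESlib

variable {R K : Type} [CommRing R] [IsDomain R] [IsDiscreteValuationRing R] [Field K] [Algebra R K]
  [IsFractionRing R K] [CharZero K] [Algebra ℚ K] (N : ℕ) [NeZero N]
  [Algebra R (FK K N)] [IsScalarTower R K (FK K N)]

theorem natCast_residueField_ne_zero_of_isUnit {R : Type*} [CommRing R] [IsLocalRing R] {N : ℕ}
    (hN : IsUnit (N : R)) : (N : IsLocalRing.ResidueField R) ≠ 0 := by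
  have := (hN.map (IsLocalRing.residue R)).ne_zero
  rwa [map_natCast] at this

/-- **M-pi = (Hπ).**  (`AK4Sep.unitDiff_of_separable`, or directly: `d ∣ N` minimal with
`σ (j_d) ≠ σ' (j_d)`, `Φ_p'(j_d, j_{d'})` is a unit of the Gauss valuation ring.) -/
theorem unitDiff_tF {π : R} (hπ : Irreducible π) (hN : IsUnit (N : R)) (r : ℕ) [NeZero r]
    (hr : r = 2 ∨ r = 3) (hrN : r ∣ N) : UnitDiff K π (tF K N r hr hrN) := by
  obtain ⟨A, e, hA, he, hrel⟩ := exists_tF_rel K N R r hr hrN
  exact unitDiff_haupt (natCast_residueField_ne_zero_of_isUnit hN)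
    (redSetup_of_dvr (K := K) hπ).red_unif (tF_ne_zero K N r hr hrN) hA he hrel

/-- **M-f = (Hf).**  `g₁, g₂ ∈ F ∩ R((q))` with the same nonzero reduction: `(g₁ / g₂ - 1) / π` is
`π`-integral.  (`(g₁ - g₂) / π` and `1 / g₂` are in `LamR ∩ F`; `HasRelR.piInt`.) -/
theorem piInt_tF_of_red_eq {π : R} (hπ : Irreducible π) (hN : IsUnit (N : R)) (r : ℕ) [NeZero r]
    (hr : r = 2 ∨ r = 3) (hrN : r ∣ N) (g₁ g₂ : FK K N) (y₁ y₂ : LaurentSeries R)
    (h₁ : coeffMap (algebraMap R K) y₁ = (g₁ : LaurentSeries K))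
    (h₂ : coeffMap (algebraMap R K) y₂ = (g₂ : LaurentSeries K))
    (hred : coeffMap (IsLocalRing.residue R) y₁ = coeffMap (IsLocalRing.residue R) y₂)
    (hne : coeffMap (IsLocalRing.residue R) y₁ ≠ 0) :
    PiInt π (tF K N r hr hrN) ((g₁ / g₂ - 1) / algebraMap R (FK K N) π) := by
  obtain ⟨A, e, hA, he, hrel⟩ := exists_tF_rel K N R r hr hrN
  have hg₂ : g₂ ≠ 0 := by
    rintro rfl
    apply hne
    rw [hred]
    have : y₂ = 0 := by
      apply coeffMap_injective (algebraMap R K) (IsFractionRing.injective R K)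
      rw [h₂, map_zero]; rfl
    rw [this, map_zero]
  refine piInt_haupt (natCast_residueField_ne_zero_of_isUnit hN)
    (redSetup_of_dvr (K := K) hπ).red_unif (tF_ne_zero K N r hr hrN) hA he hrel
    (div_sub_one_mem_gaussSub hπ (y₁ := y₁) (y₂ := y₂) ?_ hred (hred ▸ hne))
  rw [h₁, h₂]
  show ((g₁ / g₂ * g₂ : FK K N) : LaurentSeries K) = _
  rw [div_mul_cancel₀ _ hg₂]

end Fermat.Agent.ESlib
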