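import Mathlib
import Fermat.Prelude.Def_FLTPrelim_Ramification
import Fermat.Prelude.Def_ModularCurve_LaurentCoeff

/-!
# ES, modular side, row M-K1: the discrete valuation ring `A ∩ K` of a number field `K ⊆ ℚ̄`
-/

set_option autoImplicit false

open ModularCurve

namespace Fermat.Agent.ESlib

local notation "Kb" => AlgebraicClosure ℚ

/-- A valuation subring of the fraction field of a Dedekind domain `D`, containing `D` and in which
some nonzero element of `D` is not a unit, is a discrete valuation ring. -/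
theorem isDiscreteValuationRing_of_dedekind {D K : Type*} [CommRing D] [IsDedekindDomain D]
    [Field K] [Algebra D K] [IsFractionRing D K] (R : ValuationSubring K)
    (hD : ∀ d : D, algebraMap D K d ∈ R)
    (hR : ∃ d : D, d ≠ 0 ∧ algebraMap D K d ∈ R.nonunits) : IsDiscreteValuationRing R := by
  let φ : D →+* R := (algebraMap D K).codRestrict R.toSubring hD
  have hφ : ∀ d, ((φ d : R) : K) = algebraMap D K d := fun _ => rfl
  have hφinj : Function.Injective φ := fun x y h =>
    IsFractionRing.injective D K (by rw [← hφ, ← hφ, h])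
  let _ : Algebra D R := φ.toAlgebra
  let 𝔭 : Ideal D := (IsLocalRing.maximalIdeal R).comap φ
  have h𝔭 : 𝔭.IsPrime := Ideal.comap_isPrime φ _
  have h𝔭0 : 𝔭 ≠ ⊥ := by
    obtain ⟨d, hd0, hd⟩ := hR
    obtain ⟨hd', hd''⟩ := ValuationSubring.mem_nonunits_iff_exists_mem_maximalIdeal.1 hd
    intro hbot
    have : d ∈ 𝔭 := hd''
    rw [hbot, Ideal.mem_bot] at this
    exact hd0 this
  have hunit : ∀ s : D, s ∉ 𝔭 → IsUnit (φ s) := fun s hs => by
    by_contra h
    exact hs ((IsLocalRing.mem_maximalIdeal _).2 h)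
  have hdvr : IsDiscreteValuationRing (Localization.AtPrime 𝔭) :=
    IsLocalization.AtPrime.isDiscreteValuationRing_of_dedekind_domain D h𝔭0 _
  have hinjP : Function.Injective (algebraMap D (Localization.AtPrime 𝔭)) :=
    IsLocalization.injective _ 𝔭.primeCompl_le_nonZeroDivisors
  have hloc : IsLocalization.AtPrime R 𝔭 := by
    refine ⟨?_, ?_, ?_⟩
    · rintro ⟨s, hs⟩
      exact hunit s hs
    · intro z
      obtain ⟨a, b, hb, hz⟩ := IsFractionRing.div_surjective (A := D) (z : K)
      have hb0 : algebraMap D K b ≠ 0 := by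
        simpa using nonZeroDivisors.ne_zero hb
      obtain ⟨c, hc⟩ := ValuationRing.cond (algebraMap D (Localization.AtPrime 𝔭) a)
        (algebraMap D (Localization.AtPrime 𝔭) b)
      obtain ⟨c', s, rfl⟩ := IsLocalization.exists_mk'_eq 𝔭.primeCompl c
      rcases hc with hc | hc
      · -- `a c' = b s`
        have h1 : a * c' = b * s := by
          apply hinjP
          rw [map_mul, map_mul, ← hc, mul_assoc, IsLocalization.mk'_spec]
        have h2 : z * φ c' = φ s := by
          apply Subtype.ext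
          change (z : K) * algebraMap D K c' = algebraMap D K s
          rw [← hz, div_mul_eq_mul_div, ← map_mul, h1, map_mul, mul_div_cancel_left₀ _ hb0]
        have h3 : IsUnit (φ c') := isUnit_of_mul_isUnit_right (h2 ▸ hunit s s.2)
        have h4 : c' ∉ 𝔭 := fun h => (IsLocalRing.mem_maximalIdeal _).1 h h3
        exact ⟨(s, ⟨c', h4⟩), h2⟩
      · have h1 : b * c' = a * s := by
          apply hinjP
          rw [map_mul, map_mul, ← hc, mul_assoc, IsLocalization.mk'_spec]
        refine ⟨(c', s), Subtype.ext ?_⟩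
        change (z : K) * algebraMap D K s = algebraMap D K c'
        rw [← hz, div_mul_eq_mul_div, ← map_mul, ← h1, map_mul, mul_div_cancel_left₀ _ hb0]
    · intro x y hxy
      exact ⟨1, by rw [hφinj hxy]⟩
  exact IsLocalization.AtPrime.isDiscreteValuationRing_of_dedekind_domain D h𝔭0 R

/-- `A ∩ K` as a valuation subring of `K` -/
noncomputable abbrev RA (A : ValuationSubring Kb) (K : IntermediateField ℚ Kb) : ValuationSubring K :=
  A.comap (algebraMap K Kb)

/-- the inclusion `A ∩ K → A` -/
noncomputable def RAincl (A : ValuationSubring Kb) (K : IntermediateField ℚ Kb) : RA A K →+* A where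
  toFun x := ⟨algebraMap K Kb x.1, x.2⟩
  map_one' := rfl
  map_mul' _ _ := rfl
  map_zero' := rfl
  map_add' _ _ := rfl

theorem coe_RAincl (A : ValuationSubring Kb) (K : IntermediateField ℚ Kb) (x : RA A K) :
    ((RAincl A K x : A) : Kb) = algebraMap K Kb (x : K) := rfl

/-- **M-K1 (a).** `A ∩ K → A` is a local homomorphism. -/
theorem isLocalHom_RAincl (A : ValuationSubring Kb) (K : IntermediateField ℚ Kb) :
    IsLocalHom (RAincl A K) := by
  refine ⟨fun a ha => ?_⟩
  obtain ⟨b, hb⟩ := ha.exists_right_inv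
  have h1 : algebraMap K Kb (a : K) * (b : Kb) = 1 := congrArg (fun w : A => (w : Kb)) hb
  have h2 : (b : Kb) = algebraMap K Kb (a : K)⁻¹ := by
    rw [map_inv₀]
    exact eq_inv_of_mul_eq_one_right h1
  have ha0 : (a : K) ≠ 0 := by
    intro h0
    rw [h0, map_zero, zero_mul] at h1
    exact zero_ne_one h1
  have h3 : (a : K)⁻¹ ∈ RA A K := by
    change algebraMap K Kb (a : K)⁻¹ ∈ A
    rw [← h2]
    exact b.2
  exact IsUnit.of_mul_eq_one ⟨_, h3⟩ (Subtype.ext (mul_inv_cancel₀ ha0))

theorem mem_nonunits_RA_iff (A : ValuationSubring Kb) (K : IntermediateField ℚ Kb) (x : K) :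
    x ∈ (RA A K).nonunits ↔ algebraMap K Kb x ∈ A.nonunits := by
  have := isLocalHom_RAincl A K
  rw [ValuationSubring.mem_nonunits_iff_exists_mem_maximalIdeal,
    ValuationSubring.mem_nonunits_iff_exists_mem_maximalIdeal]
  constructor
  · rintro ⟨hx, hx'⟩
    refine ⟨hx, ?_⟩
    rw [IsLocalRing.mem_maximalIdeal] at hx' ⊢
    intro hu
    exact hx' (isUnit_of_map_unit (RAincl A K) ⟨x, hx⟩ hu)
  · rintro ⟨hx, hx'⟩
    refine ⟨hx, ?_⟩
    rw [IsLocalRing.mem_maximalIdeal] at hx' ⊢
    intro hu
    exact hx' (hu.map (RAincl A K))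

/-- **M-K1 (b).** `A ∩ K` is a discrete valuation ring when `K` is a number field and `A` lies over
a prime.

Proof.  `𝓞 := integralClosure ℤ K` is a Dedekind domain (`K` is a number field), `𝓞 ⊆ A ∩ K`
(valuation rings are integrally closed), `𝔭 := 𝔪 ∩ 𝓞` is a nonzero prime (`ℓ ∈ 𝔭`).  The localisation
`𝓞_𝔭` is a DVR (`IsLocalization.AtPrime.isDiscreteValuationRing_of_dedekind_domain`), contained in
`A ∩ K`; if `x ∈ A ∩ K` is not in `𝓞_𝔭` then `x⁻¹ ∈ 𝔭 𝓞_𝔭 ⊆ 𝔪`, absurd.
Alternative: show directly that the maximal ideal of `A ∩ K` is principal and nonzero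
(`IsDiscreteValuationRing` for a valuation ring: `ValuationRing` + `IsPrincipalIdealRing`, e.g.
via `(IsDiscreteValuationRing.TFAE _ _)`), using that the value group of `A ∩ K` contains that of
`ℤ_(ℓ)` with finite index `≤ [K : ℚ]`. -/
theorem isDiscreteValuationRing_RA (A : ValuationSubring Kb) {ℓ : ℕ} (hℓ : ℓ.Prime)
    (hA : A.LiesOverPrime ℓ) (K : IntermediateField ℚ Kb) [FiniteDimensional ℚ K] :
    IsDiscreteValuationRing (RA A K) := by
  have hnf : NumberField K := ⟨⟩
  refine isDiscreteValuationRing_of_dedekind (D := NumberField.RingOfIntegers K) (RA A K)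
    (fun d => ?_) ⟨(ℓ : NumberField.RingOfIntegers K), ?_, ?_⟩
  · have h1 : IsIntegral ℤ (algebraMap (NumberField.RingOfIntegers K) K d) :=
      NumberField.RingOfIntegers.isIntegral_coe d
    obtain ⟨y, hy⟩ := IsIntegrallyClosed.isIntegral_iff.1 (h1.tower_top (A := RA A K))
    rw [← hy]
    exact y.2
  · exact_mod_cast hℓ.ne_zero
  · rw [mem_nonunits_RA_iff, map_natCast, map_natCast]
    exact hA

/-- **M-K1 (c).** a series over `K` which becomes `A`-integral over `ℚ̄` is `A ∩ K`-integral. -/
theorem exists_series_RA (A : ValuationSubring Kb) (K : IntermediateField ℚ Kb)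
    (y : LaurentSeries A) (g : LaurentSeries K)
    (h : coeffMap (algebraMap K Kb) g = coeffMap A.subtype y) :
    ∃ y' : LaurentSeries (RA A K),
      coeffMap (algebraMap (RA A K) K) y' = g ∧ coeffMap (RAincl A K) y' = y := by
  have hc : ∀ n, algebraMap K Kb (g.coeff n) = (y.coeff n : Kb) := fun n =>
    congrArg (fun w : LaurentSeries Kb => w.coeff n) h
  have hmem : ∀ n, g.coeff n ∈ RA A K := fun n => by
    change algebraMap K Kb (g.coeff n) ∈ A
    rw [hc]
    exact (y.coeff n).2
  let y' : LaurentSeries (RA A K) :=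
    { coeff := fun n => ⟨g.coeff n, hmem n⟩
      isPWO_support' := by
        refine g.isPWO_support.mono ?_
        intro n hn hg
        exact hn (Subtype.ext hg) }
  refine ⟨y', ?_, ?_⟩
  · ext n
    rfl
  · ext n
    exact hc n

end Fermat.Agent.ESlib
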