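import Fermat.Agent.ES.M.Base
import Fermat.Agent.ES.M.NumField

/-!
# ES, modular side, row M-K2: descent of finitely many elements of `F_ℚ̄(N)` to a number field
-/

set_option autoImplicit false
set_option linter.unusedSectionVars false

open ModularCurve IntermediateField AlgebraicCurve
open Fermat.Agent.S24lib

namespace Fermat.Agent.ESlib

theorem isIntegral_Qb_MK (a : Kb) : IsIntegral ℚ a :=
  ((AlgebraicClosure.isAlgebraic ℚ).isAlgebraic a).isIntegral

/-- an element of `F_ℚ̄` is defined over every sufficiently large number field -/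
theorem exists_level_aux (F₀ : IntermediateField ℚ (LaurentSeries ℚ)) {x : LaurentSeries Kb}
    (hx : x ∈ laurentBaseChange Kb F₀) :
    ∃ K₀ : IntermediateField ℚ Kb, FiniteDimensional ℚ K₀ ∧ ∀ K : IntermediateField ℚ Kb, K₀ ≤ K →
      ∃ g ∈ laurentBaseChange K F₀, coeffMap (algebraMap K Kb) g = x := by
  rw [mem_laurentBaseChange_iff] at hx
  induction hx using Subfield.closure_induction with
  | mem y hy =>
      rcases hy with ⟨a, rfl⟩ | ⟨z, hz, rfl⟩
      · refine ⟨ℚ⟮a⟯, IntermediateField.adjoin.finiteDimensional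
          (isIntegral_Qb_MK a), fun K hK => ?_⟩
        have ha : a ∈ K := hK (mem_adjoin_simple_self ℚ a)
        refine ⟨algebraMap K (LaurentSeries K) ⟨a, ha⟩, (laurentBaseChange K F₀).algebraMap_mem _, ?_⟩
        rw [coeffMap_algebraMap_algebraMap]
        rfl
      · refine ⟨⊥, inferInstance, fun K _ => ⟨coeffEmb K z, coeffEmb_mem_laurentBaseChange K hz, ?_⟩⟩
        rw [coeffMap_coeffEmb_algebraMap]
  | one => exact ⟨⊥, inferInstance, fun K _ => ⟨1, one_mem _, map_one _⟩⟩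
  | add x y _ _ hx hy =>
      obtain ⟨K₁, h₁, H₁⟩ := hx
      obtain ⟨K₂, h₂, H₂⟩ := hy
      refine ⟨K₁ ⊔ K₂, IntermediateField.finiteDimensional_sup K₁ K₂, fun K hK => ?_⟩
      obtain ⟨g₁, hg₁, rfl⟩ := H₁ K (le_sup_left.trans hK)
      obtain ⟨g₂, hg₂, rfl⟩ := H₂ K (le_sup_right.trans hK)
      exact ⟨g₁ + g₂, add_mem hg₁ hg₂, map_add _ _ _⟩
  | neg x _ hx =>
      obtain ⟨K₁, h₁, H₁⟩ := hx
      refine ⟨K₁, h₁, fun K hK => ?_⟩
      obtain ⟨g₁, hg₁, rfl⟩ := H₁ K hK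
      exact ⟨-g₁, neg_mem hg₁, map_neg _ _⟩
  | inv x _ hx =>
      obtain ⟨K₁, h₁, H₁⟩ := hx
      refine ⟨K₁, h₁, fun K hK => ?_⟩
      obtain ⟨g₁, hg₁, rfl⟩ := H₁ K hK
      exact ⟨g₁⁻¹, inv_mem hg₁, map_inv₀ _ _⟩
  | mul x y _ _ hx hy =>
      obtain ⟨K₁, h₁, H₁⟩ := hx
      obtain ⟨K₂, h₂, H₂⟩ := hy
      refine ⟨K₁ ⊔ K₂, IntermediateField.finiteDimensional_sup K₁ K₂, fun K hK => ?_⟩
      obtain ⟨g₁, hg₁, rfl⟩ := H₁ K (le_sup_left.trans hK)
      obtain ⟨g₂, hg₂, rfl⟩ := H₂ K (le_sup_right.trans hK)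
      exact ⟨g₁ * g₂, mul_mem hg₁ hg₂, map_mul _ _ _⟩

variable (N : ℕ) [NeZero N]

theorem exists_level_finset (s : Finset (FK Kb N)) :
    ∃ K₀ : IntermediateField ℚ Kb, FiniteDimensional ℚ K₀ ∧ ∀ K : IntermediateField ℚ Kb, K₀ ≤ K →
      ∀ f ∈ s, ∃ g : FK K N, bc K Kb (modularFunctionFieldFull N) g = f := by
  classical
  induction s using Finset.induction_on with
  | empty => exact ⟨⊥, inferInstance, fun K _ f hf => absurd hf (Finset.notMem_empty f)⟩
  | insert a s _ ih =>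
      obtain ⟨K₁, h₁, H₁⟩ := ih
      obtain ⟨K₂, h₂, H₂⟩ := exists_level_aux (modularFunctionFieldFull N) a.2
      refine ⟨K₁ ⊔ K₂, IntermediateField.finiteDimensional_sup K₁ K₂, fun K hK f hf => ?_⟩
      rcases Finset.mem_insert.1 hf with rfl | hf
      · obtain ⟨g, hg, hgf⟩ := H₂ K (le_sup_right.trans hK)
        exact ⟨⟨g, hg⟩, Subtype.ext hgf⟩
      · exact H₁ K (le_sup_left.trans hK) f hf

/-- **M-K2.**  Finitely many elements of `F_ℚ̄(N)` and of `ℚ̄` are defined over a number field.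

Proof.  `exists_frac` (Dict/Gen.lean): `f * evF Q = evF P`, `evF Q ≠ 0`, `P Q : MvPolynomial (Dv N) ℚ̄`.
`K := adjoin ℚ (c ∪ all the coefficients of the P's and Q's)` is finite dimensional
(`IntermediateField.finiteDimensional_adjoin`, all the elements of `ℚ̄` are integral over `ℚ`:
`Fermat.Agent.FrobExists.isAlgebraicQb`).  `P = MvPolynomial.map (algebraMap K ℚ̄) P'`
(`MvPolynomial.mem_range_map_iff_coeffs_subset`-like), `bc (evF K N P') = evF ℚ̄ N P` (`bc_Jgen`,
`bc_algebraMap`, induction on `P'` or `MvPolynomial.aeval`/`map_aeval`), `g := evF P' / evF Q'`. -/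
theorem exists_level (s : Finset (FK Kb N)) (c : Finset Kb) :
    ∃ K : IntermediateField ℚ Kb, FiniteDimensional ℚ K ∧ (∀ a ∈ c, a ∈ K) ∧
      ∀ f ∈ s, ∃ g : FK K N, bc K Kb (modularFunctionFieldFull N) g = f := by
  obtain ⟨K₁, h₁, H₁⟩ := exists_level_finset N s
  have h₂ : FiniteDimensional ℚ (IntermediateField.adjoin ℚ (c : Set Kb)) :=
    IntermediateField.finiteDimensional_adjoin fun x _ => isIntegral_Qb_MK x
  refine ⟨K₁ ⊔ IntermediateField.adjoin ℚ (c : Set Kb), IntermediateField.finiteDimensional_sup _ _,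
    fun a ha => ?_, H₁ _ le_sup_left⟩
  exact (le_sup_right : IntermediateField.adjoin ℚ (c : Set Kb) ≤ _)
    (IntermediateField.subset_adjoin ℚ _ ha)

/-- the `q`-order is a place of `F_ℚ̄(N)` (the cusp `∞`).
(`S24lib.exists_place_of_emb` applied to the inclusion `F ⊆ ℚ̄((q)) → ℂ((q))`, or
`exists_place_of_valuation` with `w f = order f`; `e = 1` because `J1` has order `-1`.) -/
theorem exists_place_infty :
    ∃ P : Place Kb (FK Kb N), ∀ f : FK Kb N, f ≠ 0 → P.ord f = (f : LaurentSeries Kb).order := by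
  have hJ : ((J1 Kb N : FK Kb N) : LaurentSeries Kb).order = -1 := by
    rw [coe_J1]
    exact Fermat.Agent.S28lib.order_jA
  have hJ0 : J1 Kb N ≠ 0 := by
    intro h0
    rw [h0] at hJ
    simp at hJ
  obtain ⟨v, m, hm, hv⟩ := exists_place_of_emb
    ((laurentBaseChange Kb (modularFunctionFieldFull N)).val) ⟨J1 Kb N, hJ0, by
      change ((J1 Kb N : FK Kb N) : LaurentSeries Kb).order ≠ 0
      rw [hJ]; norm_num⟩
  have h1 : (-1 : ℤ) = m * v.ord (J1 Kb N) := by
    rw [← hJ]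
    exact hv _ hJ0
  have hm1 : m = 1 := by
    have : (m : ℤ) ∣ 1 := ⟨-v.ord (J1 Kb N), by linarith⟩
    exact_mod_cast Int.eq_one_of_dvd_one (by positivity) this
  refine ⟨v, fun f hf => ?_⟩
  have := hv f hf
  rw [hm1, Nat.cast_one, one_mul] at this
  exact this.symm

end Fermat.Agent.ESlib
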