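import Fermat.Agent.ES.M.Final
import Fermat.Agent.ES.M.Descend
import Fermat.Agent.ES.K.KILDef

/-!
# ES, modular side, row M-K4 (b): `KILAt N A m` for `r ∣ N`, `r ∈ {2, 3}`, `ℓ ∤ N`, `m ≠ ℓ` prime
-/

set_option autoImplicit false
set_option linter.unusedSectionVars false
set_option linter.style.haveILetI false

open ModularCurve IntermediateField AlgebraicCurve
open Fermat.Agent.S24lib

namespace Fermat.Agent.ESlib

/-- **M-K4a.** an integer prime to `ℓ` is a unit of `A ∩ K`. -/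
theorem isUnit_natCast_RA (A : ValuationSubring Kb) {ℓ : ℕ} (hℓ : ℓ.Prime)
    (hA : A.LiesOverPrime ℓ) (K : IntermediateField ℚ Kb) (n : ℕ) (hn : ¬ ℓ ∣ n) :
    IsUnit (n : RA A K) := by
  haveI := isLocalHom_RAincl A K
  apply isUnit_of_map_unit (RAincl A K)
  rw [map_natCast]
  by_contra hu
  have h1 : (n : A) ∈ IsLocalRing.maximalIdeal A := (IsLocalRing.mem_maximalIdeal _).2 hu
  obtain ⟨hℓA, h2⟩ := ValuationSubring.mem_nonunits_iff_exists_mem_maximalIdeal.1 hA
  have h2' : (ℓ : A) ∈ IsLocalRing.maximalIdeal A := by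
    have : (⟨(ℓ : Kb), hℓA⟩ : A) = (ℓ : A) := Subtype.ext (by simp)
    rwa [this] at h2
  have hcop : IsCoprime (ℓ : ℤ) (n : ℤ) :=
    Nat.isCoprime_iff_coprime.2 ((Nat.Prime.coprime_iff_not_dvd hℓ).2 hn)
  obtain ⟨a, b, hab⟩ := hcop
  have h3 : ((a : A) * (ℓ : A) + (b : A) * (n : A)) = 1 := by
    exact_mod_cast congrArg (Int.cast : ℤ → A) hab
  have h4 : (1 : A) ∈ IsLocalRing.maximalIdeal A := by
    rw [← h3]
    exact Ideal.add_mem _ (Ideal.mul_mem_left _ _ h2') (Ideal.mul_mem_left _ _ h1)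
  exact (Ideal.ne_top_iff_one _).1 (IsLocalRing.maximalIdeal.isMaximal A).ne_top h4

/-- **M-K4b.** a root of unity of `K` lies in `A ∩ K`. -/
theorem exists_primitiveRoot_RA (A : ValuationSubring Kb) (K : IntermediateField ℚ Kb) {m : ℕ}
    (hm : 0 < m) (z : Kb) (hz : IsPrimitiveRoot z m) (hzK : z ∈ K) :
    ∃ ζ : RA A K, IsPrimitiveRoot ζ m := by
  have hzA : z ∈ A := by
    rw [← A.valuation_le_one_iff]
    have h1 : A.valuation z ^ m = 1 := by rw [← map_pow, hz.pow_eq_one, map_one]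
    exact ((pow_eq_one_iff.1 h1).resolve_right hm.ne').le
  refine ⟨⟨⟨z, hzK⟩, hzA⟩, ?_⟩
  have hinj : Function.Injective ((algebraMap K Kb).comp (RA A K).subtype) :=
    (algebraMap K Kb).injective.comp Subtype.val_injective
  exact IsPrimitiveRoot.of_map_of_injective (f := (algebraMap K Kb).comp (RA A K).subtype)
    (hf := hinj) hz

/-- **M-K4c.** order and leading coefficient are compatible with injective coefficient maps.
(Same as `order_coeffMap_of_injective` of `ES/B/PlaceExt.lean`, which is not imported here.) -/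
theorem order_coeffMap_of_injective_top {R S : Type*} [CommRing R] [CommRing S] (φ : R →+* S)
    (hφ : Function.Injective φ) (x : LaurentSeries R) : (coeffMap φ x).order = x.order := by
  by_cases hx : x = 0
  · subst hx; simp
  have hx' : coeffMap φ x ≠ 0 := by
    intro h
    apply hx
    ext k
    apply hφ
    rw [← coeffMap_coeff, h]
    simp
  apply le_antisymm
  · apply HahnSeries.order_le_of_coeff_ne_zero
    rw [coeffMap_coeff]
    intro h
    exact hx (HahnSeries.coeff_order_eq_zero.1 (hφ (by rw [h, map_zero])))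
  · apply HahnSeries.order_le_of_coeff_ne_zero
    intro h
    apply hx'
    apply HahnSeries.coeff_order_eq_zero.1
    rw [coeffMap_coeff, h, map_zero]

theorem leadingCoeff_coeffMap_of_injective_top {R S : Type*} [CommRing R] [CommRing S]
    (φ : R →+* S) (hφ : Function.Injective φ) (x : LaurentSeries R) :
    (coeffMap φ x).leadingCoeff = φ x.leadingCoeff := by
  rw [HahnSeries.leadingCoeff_eq, HahnSeries.leadingCoeff_eq,
    order_coeffMap_of_injective_top φ hφ, coeffMap_coeff]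

/-- **M-K4d.** equality of reductions descends from `A` to `A ∩ K` (the map of residue fields
`IsLocalRing.ResidueField.map (RAincl A K)` is injective; `isLocalHom_RAincl`). -/
theorem coeffMap_residue_RA_eq_iff (A : ValuationSubring Kb) (K : IntermediateField ℚ Kb)
    (y y' : LaurentSeries (RA A K)) :
    coeffMap (IsLocalRing.residue (RA A K)) y = coeffMap (IsLocalRing.residue (RA A K)) y' ↔
      coeffMap (IsLocalRing.residue A) (coeffMap (RAincl A K) y) =
        coeffMap (IsLocalRing.residue A) (coeffMap (RAincl A K) y') := by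
  haveI := isLocalHom_RAincl A K
  have key : ∀ a b : RA A K, IsLocalRing.residue (RA A K) a = IsLocalRing.residue (RA A K) b ↔
      IsLocalRing.residue A (RAincl A K a) = IsLocalRing.residue A (RAincl A K b) := by
    intro a b
    rw [← sub_eq_zero, ← map_sub, IsLocalRing.residue_eq_zero_iff,
      ← sub_eq_zero (a := IsLocalRing.residue A (RAincl A K a)),
      ← map_sub, ← map_sub, IsLocalRing.residue_eq_zero_iff, IsLocalRing.mem_maximalIdeal,
      IsLocalRing.mem_maximalIdeal, mem_nonunits_iff, mem_nonunits_iff, not_iff_not]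
    exact ⟨fun h => h.map _, fun h => isUnit_of_map_unit (RAincl A K) _ h⟩
  constructor
  · intro h
    ext k
    have := congrArg (fun s => HahnSeries.coeff s k) h
    simp only [coeffMap_coeff] at this ⊢
    exact (key _ _).1 this
  · intro h
    ext k
    have := congrArg (fun s => HahnSeries.coeff s k) h
    simp only [coeffMap_coeff] at this ⊢
    exact (key _ _).2 this

/-- **KIL at the levels divisible by `2` or `3`.** -/
theorem kilAt_of_dvd {ℓ : ℕ} (hℓ : ℓ.Prime) (A : ValuationSubring Kb) (hA : A.LiesOverPrime ℓ)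
    (N : ℕ) [NeZero N] (r : ℕ) (hr : r = 2 ∨ r = 3) (hrN : r ∣ N) (hℓN : ¬ ℓ ∣ N) (m : ℕ)
    (hm : m.Prime) (hmℓ : m ≠ ℓ) : KILAt N A m := by
  classical
  intro y₁ y₂ h₁ h₂ hred hne hdiv
  haveI : NeZero r := ⟨by rcases hr with rfl | rfl <;> norm_num⟩
  set f₁ : FK Kb N := ⟨_, h₁⟩ with hf₁
  set f₂ : FK Kb N := ⟨_, h₂⟩ with hf₂
  have hy₁ : y₁ ≠ 0 := by rintro rfl; exact hne (map_zero _)
  have hy₂ : y₂ ≠ 0 := by rintro rfl; exact hne (by rw [hred, map_zero])
  have hAinj : Function.Injective A.subtype := Subtype.val_injective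
  have hf₁0 : f₁ ≠ 0 := by
    intro h
    apply hy₁
    apply coeffMap_injective A.subtype hAinj
    rw [map_zero]
    exact congrArg Subtype.val h
  have hf₂0 : f₂ ≠ 0 := by
    intro h
    apply hy₂
    apply coeffMap_injective A.subtype hAinj
    rw [map_zero]
    exact congrArg Subtype.val h
  -- the constants
  obtain ⟨c0, hc0⟩ := IsAlgClosed.exists_pow_nat_eq
    (((f₁ / f₂ : FK Kb N) : LaurentSeries Kb).leadingCoeff) hm.pos
  haveI : NeZero (m : Kb) := ⟨Nat.cast_ne_zero.2 hm.ne_zero⟩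
  haveI : NeZero (N : Kb) := ⟨Nat.cast_ne_zero.2 (NeZero.ne N)⟩
  obtain ⟨zm, hzm⟩ := HasEnoughRootsOfUnity.exists_primitiveRoot Kb m
  obtain ⟨zN, hzN⟩ := HasEnoughRootsOfUnity.exists_primitiveRoot Kb N
  obtain ⟨K, hKfd, hKc, hKf⟩ := exists_level N {f₁, f₂} {c0, zm, zN}
  obtain ⟨g₁, hg₁⟩ := hKf f₁ (by simp)
  obtain ⟨g₂, hg₂⟩ := hKf f₂ (by simp)
  have hc0K : c0 ∈ K := hKc c0 (by simp)
  have hzmK : zm ∈ K := hKc zm (by simp)
  have hzNK : zN ∈ K := hKc zN (by simp)
  haveI := isDiscreteValuationRing_RA A hℓ hA K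
  obtain ⟨π, hπ⟩ := IsDiscreteValuationRing.exists_irreducible (RA A K)
  obtain ⟨y₁', hy₁', hy₁''⟩ := exists_series_RA A K y₁ (g₁ : LaurentSeries K)
    (by rw [← coe_bc, hg₁])
  obtain ⟨y₂', hy₂', hy₂''⟩ := exists_series_RA A K y₂ (g₂ : LaurentSeries K)
    (by rw [← coe_bc, hg₂])
  obtain ⟨ζ, hζ⟩ := exists_primitiveRoot_RA A K hm.pos zm hzm hzmK
  have hKinj : Function.Injective (algebraMap K Kb) := (algebraMap K Kb).injective
  have hbcdiv : bc K Kb (modularFunctionFieldFull N) (g₁ / g₂) = f₁ / f₂ := by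
    rw [map_div₀, hg₁, hg₂]
  have hcoe : coeffMap (algebraMap K Kb) ((g₁ / g₂ : FK K N) : LaurentSeries K) =
      ((f₁ / f₂ : FK Kb N) : LaurentSeries Kb) := by
    rw [← coe_bc, hbcdiv]
  have hdiv' : ∀ v : Place Kb (FK Kb N), (m : ℤ) ∣ v.ord (f₁ / f₂) := by
    intro v
    rw [Fermat.Agent.S24RH.ord_div v hf₁0 hf₂0]
    exact hdiv v
  obtain ⟨ψ, hψ⟩ := kil_level (R := RA A K) (K := K) N hπ
    (isUnit_natCast_RA A hℓ hA K N hℓN) r hr hrN m
    (isUnit_natCast_RA A hℓ hA K m (fun h => hmℓ ((Nat.prime_dvd_prime_iff_eq hℓ hm).1 h).symm))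
    ζ hζ ⟨⟨zN, hzNK⟩, IsPrimitiveRoot.of_map_of_injective (f := algebraMap K Kb) (hf := hKinj) hzN⟩
    g₁ g₂ y₁' y₂' hy₁' hy₂'
    ((coeffMap_residue_RA_eq_iff A K y₁' y₂').2 (by rw [hy₁'', hy₂'', hred]))
    (by
      intro h
      apply hne
      have := (coeffMap_residue_RA_eq_iff A K y₁' 0).1 (by rw [h, map_zero])
      rw [hy₁'', map_zero, map_zero] at this
      exact this)
    (chartDiv_of_places K N Kb (g₁ / g₂) m (by rw [hbcdiv]; exact hdiv'))
    (by
      obtain ⟨P, hP⟩ := exists_place_infty N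
      rw [← order_coeffMap_of_injective_top _ hKinj, hcoe, ← hP _ (div_ne_zero hf₁0 hf₂0)]
      exact hdiv' P)
    ⟨c0, hc0K⟩
    (by
      apply hKinj
      rw [← leadingCoeff_coeffMap_of_injective_top _ hKinj, hcoe, ← hc0, map_pow]
      rfl)
  refine ⟨bc K Kb (modularFunctionFieldFull N) ψ, ?_⟩
  have := congrArg (bc K Kb (modularFunctionFieldFull N)) hψ
  rw [map_mul, map_pow, hg₁, hg₂] at this
  exact this

end Fermat.Agent.ESlib
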