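import Mathlib
import Fermat.Agent.ES.C.PSRoot

/-!
# ES, modular side, row M-K3: `m`-th roots in `K((q))`, `K` not algebraically closed
-/

set_option autoImplicit false

namespace Fermat.Agent.ESlib

/-- **M-K3.** `f ∈ K((q))` nonzero, `m ∣ ord f`, the leading coefficient is an `m`-th power in `K`,
`m ≠ 0` in `K`: then `f` is an `m`-th power in `K((q))`.
(`f = single (m k) 1 * ofPowerSeries (powerSeriesPart f)`; `exists_pow_eq_of_constantCoeff` of
PSRoot.lean; same proof as `laurent_exists_pow_eq`.) -/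
theorem laurent_exists_pow_eq_of_leadingCoeff {K : Type*} [Field K] {m : ℕ} (hm : (m : K) ≠ 0)
    (f : LaurentSeries K) (hf : f ≠ 0) (hord : (m : ℤ) ∣ f.order) (c : K)
    (hc : c ^ m = f.leadingCoeff) : ∃ y : LaurentSeries K, y ^ m = f := by
  have hM0 : m ≠ 0 := by rintro rfl; simp at hm
  obtain ⟨n, hn⟩ := hord
  have hlc : PowerSeries.constantCoeff f.powerSeriesPart = f.leadingCoeff := by
    rw [← PowerSeries.coeff_zero_eq_constantCoeff_apply, LaurentSeries.powerSeriesPart_coeff]
    simp [HahnSeries.leadingCoeff_eq]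
  have hc0 : f.leadingCoeff ≠ 0 := HahnSeries.leadingCoeff_ne_zero.mpr hf
  have hcne : c ≠ 0 := by
    rintro rfl
    rw [zero_pow hM0] at hc
    exact hc0 hc.symm
  obtain ⟨w, hw, -⟩ := exists_pow_eq_of_constantCoeff hm f.powerSeriesPart hcne (hc.trans hlc.symm)
  refine ⟨HahnSeries.single n 1 * HahnSeries.ofPowerSeries ℤ K w, ?_⟩
  rw [mul_pow, ← map_pow (HahnSeries.ofPowerSeries ℤ K), hw, HahnSeries.single_pow, one_pow,
    nsmul_eq_mul, ← hn]
  exact LaurentSeries.single_order_mul_powerSeriesPart f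

end Fermat.Agent.ESlib
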