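import Mathlib
import Fermat.Agent.ES.K.PlaceExist

/-!
# ES, (M-K) 1: a valuation subring of a finite extension lying over a discrete valuation is a DVR
-/

set_option autoImplicit false

namespace Fermat.Agent.ESlib

section val

variable {K₀ F : Type*} [Field K₀] [Field F] [Algebra K₀ F]
variable {Γ : Type*} [LinearOrderedCommGroupWithZero Γ] {v : Valuation F Γ}

/-- some bounded power of the valuation of `x` is a power of `c` -/
theorem exists_val_pow_eq_zpow_of_finite [FiniteDimensional K₀ F] {c : Γ} (hc : c ≠ 0)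
    (hbase : ∀ a : K₀, a ≠ 0 → ∃ k : ℤ, v (algebraMap K₀ F a) = c ^ k) {x : F} (hx : x ≠ 0) :
    ∃ e : ℕ, 0 < e ∧ e ≤ Module.finrank K₀ F ∧ ∃ k : ℤ, v x ^ e = c ^ k := by
  classical
  set n := Module.finrank K₀ F with hn
  have hdep : ¬ LinearIndependent K₀ (fun i : Fin (n + 1) => x ^ (i : ℕ)) := by
    intro h
    have := h.fintype_card_le_finrank
    rw [Fintype.card_fin] at this
    omega
  rw [Fintype.not_linearIndependent_iff] at hdep
  obtain ⟨g, hsum, i₁, hi₁⟩ := hdep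
  obtain ⟨i, j, hij, hi, hj, hv⟩ := exists_val_eq_of_sum_eq_zero v
    (fun i : Fin (n + 1) => g i • x ^ (i : ℕ)) hsum
    ⟨i₁, smul_ne_zero hi₁ (pow_ne_zero _ hx)⟩
  have hvx0 : v x ≠ 0 := (v.ne_zero_iff).2 hx
  have key : ∀ i j : Fin (n + 1), (j : ℕ) < i → g i • x ^ (i : ℕ) ≠ 0 → g j • x ^ (j : ℕ) ≠ 0 →
      v (g i • x ^ (i : ℕ)) = v (g j • x ^ (j : ℕ)) →
      ∃ e : ℕ, 0 < e ∧ e ≤ n ∧ ∃ k : ℤ, v x ^ e = c ^ k := by
    intro i j hlt hi hj hv
    have hgi : g i ≠ 0 := fun h => hi (by rw [h, zero_smul])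
    have hgj : g j ≠ 0 := fun h => hj (by rw [h, zero_smul])
    obtain ⟨ki, hki⟩ := hbase (g i) hgi
    obtain ⟨kj, hkj⟩ := hbase (g j) hgj
    refine ⟨i - j, by omega, by omega, kj - ki, ?_⟩
    rw [Algebra.smul_def, Algebra.smul_def, map_mul, map_mul, map_pow, map_pow, hki, hkj] at hv
    have hsplit : v x ^ (i : ℕ) = v x ^ ((i : ℕ) - j) * v x ^ (j : ℕ) := by
      rw [← pow_add]; congr 1; omega
    rw [hsplit] at hv
    have h3 : c ^ ki * v x ^ ((i : ℕ) - j) = c ^ kj := by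
      apply mul_right_cancel₀ (pow_ne_zero (j : ℕ) hvx0)
      rw [mul_assoc]; exact hv
    rw [zpow_sub₀ hc, ← h3]
    field_simp
  rcases lt_or_gt_of_ne (fun h => hij (Fin.ext h) : (i : ℕ) ≠ j) with h | h
  · exact key j i h hj hi hv.symm
  · exact key i j h hi hj hv

end val

section dvr

variable {K₀ F : Type*} [Field K₀] [Field F] [Algebra K₀ F]

/-- A valuation subring `V` of a finite extension `F / K₀` such that the valuations of the elements
of `K₀` are the powers of `v u < 1` is a discrete valuation ring. -/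
theorem isDiscreteValuationRing_of_finite [FiniteDimensional K₀ F] (V : ValuationSubring F)
    (u : F) (hu0 : u ≠ 0) (hu : V.valuation u < 1)
    (hbase : ∀ a : K₀, a ≠ 0 → ∃ k : ℤ, V.valuation (algebraMap K₀ F a) = V.valuation u ^ k) :
    IsDiscreteValuationRing V := by
  classical
  set v := V.valuation with hv
  have hvu0 : v u ≠ 0 := (v.ne_zero_iff).2 hu0
  set n := Module.finrank K₀ F with hn
  have hfac : 0 < n.factorial := n.factorial_pos
  have hpow : ∀ x : F, x ≠ 0 → ∃ k : ℤ, v x ^ n.factorial = v u ^ k := by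
    intro x hx
    obtain ⟨e, he0, hen, k, hk⟩ := exists_val_pow_eq_zpow_of_finite hvu0 hbase hx
    obtain ⟨c, hc⟩ := Nat.dvd_factorial he0 hen
    refine ⟨k * c, ?_⟩
    rw [hc, pow_mul, hk, zpow_mul, zpow_natCast]
  have hinj : ∀ a b : ℤ, v u ^ a = v u ^ b → a = b := by
    intro a b hab
    exact zpow_right_injective₀ (zero_lt_iff.2 hvu0) hu.ne hab
  have hle : ∀ a b : ℤ, v u ^ a ≤ v u ^ b ↔ b ≤ a := by
    intro a b
    exact zpow_le_zpow_iff_right_of_lt_one₀ (zero_lt_iff.2 hvu0) hu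
  let w : F → ℤ := fun x => if hx : x = 0 then 0 else (hpow x hx).choose
  have hw : ∀ x : F, x ≠ 0 → v x ^ n.factorial = v u ^ w x := by
    intro x hx
    simp only [w, dif_neg hx]
    exact (hpow x hx).choose_spec
  have hwmul : ∀ f g : F, f ≠ 0 → g ≠ 0 → w (f * g) = w f + w g := by
    intro f g hf hg
    apply hinj
    rw [← hw _ (mul_ne_zero hf hg), map_mul, mul_pow, hw f hf, hw g hg, zpow_add₀ hvu0]
  have hwone : w 1 = 0 := by
    have := hwmul 1 1 one_ne_zero one_ne_zero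
    rw [mul_one] at this; omega
  have hwinv : ∀ f : F, f ≠ 0 → w f⁻¹ = - w f := by
    intro f hf
    have := hwmul f f⁻¹ hf (inv_ne_zero hf)
    rw [mul_inv_cancel₀ hf, hwone] at this; omega
  have hwpow : ∀ (f : F) (k : ℕ), f ≠ 0 → w (f ^ k) = k * w f := by
    intro f k hf
    induction k with
    | zero => simp [hwone]
    | succ k ih => rw [pow_succ, hwmul _ _ (pow_ne_zero _ hf) hf, ih]; push_cast; ring
  -- `0 ≤ w x ↔ v x ≤ 1`
  have hwnonneg : ∀ x : F, x ≠ 0 → (0 ≤ w x ↔ v x ≤ 1) := by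
    intro x hx
    rw [← hle, zpow_zero, ← hw x hx]
    exact pow_le_one_iff hfac.ne'
  have hwzero : ∀ x : F, x ≠ 0 → w x = 0 → v x = 1 := by
    intro x hx h0
    have h1 := (hwnonneg x hx).1 h0.ge
    have h2 := (hwnonneg x⁻¹ (inv_ne_zero hx)).1 (by rw [hwinv x hx, h0, neg_zero])
    rw [map_inv₀] at h2
    exact le_antisymm h1 ((inv_le_one₀ (zero_lt_iff.2 ((v.ne_zero_iff).2 hx))).1 h2)
  have hwu : w u = n.factorial := by
    apply hinj
    rw [← hw u hu0, zpow_natCast]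
  -- the minimal positive value
  have hex : ∃ d : ℕ, 0 < d ∧ ∃ x : F, x ≠ 0 ∧ w x = d := ⟨n.factorial, hfac, u, hu0, hwu⟩
  obtain ⟨hd0, ϖ, hϖ0, hϖ⟩ := Nat.find_spec hex
  set d := Nat.find hex with hd
  have hmin : ∀ x : F, x ≠ 0 → 0 < w x → (d : ℤ) ≤ w x := by
    intro x hx hpos
    by_contra hlt
    push Not at hlt
    have := Nat.find_min hex (m := (w x).toNat) (by omega)
    exact this ⟨by omega, x, hx, by omega⟩
  have hdvd : ∀ x : F, x ≠ 0 → 0 ≤ w x → ∃ k : ℕ, w x = k * d := by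
    intro x hx hnn
    refine ⟨(w x / d).toNat, ?_⟩
    have hq : 0 ≤ w x / d := Int.ediv_nonneg hnn (by positivity)
    rw [Int.toNat_of_nonneg hq]
    have hy0 : x * (ϖ ^ (w x / d).toNat)⁻¹ ≠ 0 := mul_ne_zero hx (inv_ne_zero (pow_ne_zero _ hϖ0))
    have hwy : w (x * (ϖ ^ (w x / d).toNat)⁻¹) = w x % d := by
      rw [hwmul _ _ hx (inv_ne_zero (pow_ne_zero _ hϖ0)), hwinv _ (pow_ne_zero _ hϖ0),
        hwpow _ _ hϖ0, hϖ, Int.toNat_of_nonneg hq]
      have := Int.emod_add_mul_ediv (w x) d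
      linarith
    have hr0 : 0 ≤ w x % d := Int.emod_nonneg _ (by positivity)
    have hr1 : w x % d < d := Int.emod_lt_of_pos _ (by positivity)
    have hr : w x % d = 0 := by
      by_contra hne
      have := hmin _ hy0 (by rw [hwy]; omega)
      rw [hwy] at this
      omega
    have := Int.emod_add_mul_ediv (w x) d
    rw [hr] at this
    linarith
  have hϖV : ϖ ∈ V := (V.valuation_le_one_iff ϖ).1 ((hwnonneg ϖ hϖ0).1 (by rw [hϖ]; positivity))
  have hunit : ∀ a : V, a ≠ 0 → w (a : F) = 0 → IsUnit a := by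
    intro a ha h0
    rw [V.valuation_eq_one_iff]
    exact hwzero _ (by simpa using ha) h0
  have hVnn : ∀ a : V, a ≠ 0 → 0 ≤ w (a : F) := by
    intro a ha
    exact (hwnonneg _ (by simpa using ha)).2 (V.valuation_le_one a)
  apply IsDiscreteValuationRing.ofHasUnitMulPowIrreducibleFactorization
  refine ⟨⟨ϖ, hϖV⟩, ⟨?_, ?_⟩, ?_⟩
  · intro hun
    rw [V.valuation_eq_one_iff] at hun
    have h1 := hw ϖ hϖ0
    have h2 : v ϖ = 1 := hun
    rw [h2, one_pow, ← zpow_zero (v u)] at h1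
    have := hinj _ _ h1
    omega
  · intro a b hab
    have hab' : ϖ = (a : F) * (b : F) := congrArg Subtype.val hab
    have ha0 : a ≠ 0 := by
      rintro rfl
      apply hϖ0
      rw [hab']; simp
    have hb0 : b ≠ 0 := by
      rintro rfl
      apply hϖ0
      rw [hab']; simp
    have ha0' : (a : F) ≠ 0 := by simpa using ha0
    have hb0' : (b : F) ≠ 0 := by simpa using hb0
    have hsum : w (a : F) + w (b : F) = d := by rw [← hwmul _ _ ha0' hb0', ← hab', hϖ]
    have hann := hVnn a ha0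
    have hbnn := hVnn b hb0
    rcases hann.eq_or_lt with h | h
    · exact Or.inl (hunit a ha0 h.symm)
    · right
      apply hunit b hb0
      have := hmin _ ha0' h
      omega
  · intro x hx
    have hx' : (x : F) ≠ 0 := by simpa using hx
    obtain ⟨k, hk⟩ := hdvd _ hx' (hVnn x hx)
    refine ⟨k, ?_⟩
    have hy0 : (x : F) * (ϖ ^ k)⁻¹ ≠ 0 := mul_ne_zero hx' (inv_ne_zero (pow_ne_zero _ hϖ0))
    have hwy : w ((x : F) * (ϖ ^ k)⁻¹) = 0 := by
      rw [hwmul _ _ hx' (inv_ne_zero (pow_ne_zero _ hϖ0)), hwinv _ (pow_ne_zero _ hϖ0),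
        hwpow _ _ hϖ0, hϖ, hk]
      ring
    have hyV : (x : F) * (ϖ ^ k)⁻¹ ∈ V :=
      (V.valuation_le_one_iff _).1 (hwzero _ hy0 hwy).le
    have hyu : IsUnit (⟨_, hyV⟩ : V) := hunit _ (by
      intro h
      exact hy0 (congrArg Subtype.val h)) hwy
    refine ⟨hyu.unit, Subtype.ext ?_⟩
    rw [IsUnit.unit_spec]
    show ϖ ^ k * ((x : F) * (ϖ ^ k)⁻¹) = x
    field_simp

end dvr

end Fermat.Agent.ESlib
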