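import Mathlib
import Fermat.Prelude.Def_FLTPrelim_Ramification
import Fermat.Prelude.Def_ModularCurve_LaurentCoeff
import Fermat.Agent.S28.Descent
import Fermat.Agent.ES.M.NFVal

/-!
# ES, (M-K) 2: the discrete valuation ring `A ∩ K` of a number field `K ⊆ ℚ̄`
-/

set_option autoImplicit false
set_option linter.unusedSectionVars false

open ModularCurve

namespace Fermat.Agent.ESlib

section rat

variable {F : Type*} [Field F] [CharZero F]

theorem valuation_natCast_eq_one (V : ValuationSubring F) {ℓ : ℕ} (hℓ : ℓ.Prime)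
    (hV : V.valuation (ℓ : F) < 1) {n : ℕ} (hn : ¬ ℓ ∣ n) : V.valuation (n : F) = 1 := by
  have hle : V.valuation (n : F) ≤ 1 := (V.valuation_le_one_iff _).2 (natCast_mem V n)
  refine le_antisymm hle (not_lt.1 fun hlt => ?_)
  have hcop : IsCoprime (ℓ : ℤ) (n : ℤ) :=
    Nat.isCoprime_iff_coprime.2 ((Nat.Prime.coprime_iff_not_dvd hℓ).2 hn)
  obtain ⟨a, b, hab⟩ := hcop
  have h1 : ((a : F) * (ℓ : F) + (b : F) * (n : F)) = 1 := by exact_mod_cast congrArg (Int.cast : ℤ → F) hab
  have ha : V.valuation (a : F) ≤ 1 := (V.valuation_le_one_iff _).2 (intCast_mem V a)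
  have hb : V.valuation (b : F) ≤ 1 := (V.valuation_le_one_iff _).2 (intCast_mem V b)
  have h2 : V.valuation ((a : F) * (ℓ : F) + (b : F) * (n : F)) < 1 := by
    refine V.valuation.map_add_lt ?_ ?_
    · rw [map_mul]; exact lt_of_le_of_lt (mul_le_of_le_one_left' ha) hV
    · rw [map_mul]; exact lt_of_le_of_lt (mul_le_of_le_one_left' hb) hlt
  rw [h1, map_one] at h2
  exact lt_irrefl _ h2

theorem exists_valuation_natCast_eq_pow (V : ValuationSubring F) {ℓ : ℕ} (hℓ : ℓ.Prime)
    (hV : V.valuation (ℓ : F) < 1) {n : ℕ} (hn : n ≠ 0) :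
    ∃ k : ℕ, V.valuation (n : F) = V.valuation (ℓ : F) ^ k := by
  obtain ⟨k, n', hn', rfl⟩ := Nat.exists_eq_pow_mul_and_not_dvd hn ℓ hℓ.ne_one
  refine ⟨k, ?_⟩
  rw [Nat.cast_mul, Nat.cast_pow, map_mul, map_pow, valuation_natCast_eq_one V hℓ hV hn', mul_one]

theorem exists_valuation_ratCast_eq_zpow [Algebra ℚ F] (V : ValuationSubring F) {ℓ : ℕ}
    (hℓ : ℓ.Prime) (hV : V.valuation (ℓ : F) < 1) {a : ℚ} (ha : a ≠ 0) :
    ∃ k : ℤ, V.valuation (algebraMap ℚ F a) = V.valuation (ℓ : F) ^ k := by
  have hnum : a.num.natAbs ≠ 0 := by simpa using ha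
  obtain ⟨k₁, h₁⟩ := exists_valuation_natCast_eq_pow V hℓ hV hnum
  obtain ⟨k₂, h₂⟩ := exists_valuation_natCast_eq_pow V hℓ hV a.den_ne_zero
  refine ⟨k₁ - k₂, ?_⟩
  have hℓ0 : V.valuation (ℓ : F) ≠ 0 :=
    (V.valuation.ne_zero_iff).2 (by exact_mod_cast hℓ.ne_zero)
  have h3 : V.valuation ((a.num : ℤ) : F) = V.valuation ((a.num.natAbs : ℕ) : F) := by
    rcases Int.natAbs_eq a.num with h | h
    · conv_lhs => rw [h]
      simp
    · conv_lhs => rw [h]
      simp
  rw [eq_ratCast, Rat.cast_def, map_div₀, h3, h₁, h₂, zpow_sub₀ hℓ0, zpow_natCast, zpow_natCast]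

/-- A valuation subring of a number field lying over a prime number is a DVR. -/
theorem isDiscreteValuationRing_of_numberField [Algebra ℚ F] [FiniteDimensional ℚ F]
    (V : ValuationSubring F) {ℓ : ℕ} (hℓ : ℓ.Prime) (hV : V.valuation (ℓ : F) < 1) :
    IsDiscreteValuationRing V :=
  isDiscreteValuationRing_of_finite (K₀ := ℚ) V (ℓ : F) (by exact_mod_cast hℓ.ne_zero) hV
    (fun _ ha => exists_valuation_ratCast_eq_zpow V hℓ hV ha)

end rat

section dvr

variable {R K : Type*} [CommRing R] [IsDomain R] [IsDiscreteValuationRing R] [Field K]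
  [Algebra R K] [IsFractionRing R K]

/-- the reduction setup of a DVR -/
theorem redSetup_dvr {π : R} (hπ : Irreducible π) :
    S28lib.RedSetup (algebraMap R K) (IsLocalRing.residue R) π where
  inj := IsFractionRing.injective R K
  scale c := by
    obtain ⟨a, b, hb, rfl⟩ := IsFractionRing.div_surjective (A := R) c
    have hb0 : b ≠ 0 := nonZeroDivisors.ne_zero hb
    obtain ⟨n, u, rfl⟩ := IsDiscreteValuationRing.eq_unit_mul_pow_irreducible hb0 hπ
    refine ⟨n, a * ((u⁻¹ : Rˣ) : R), ?_⟩
    have hπ0 : algebraMap R K π ≠ 0 := by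
      simpa using hπ.ne_zero
    have hu0 : algebraMap R K (u : R) ≠ 0 := by
      simp
    have hu1 : algebraMap R K (u : R) * algebraMap R K ((u⁻¹ : Rˣ) : R) = 1 := by
      rw [← map_mul, Units.mul_inv, map_one]
    rw [map_mul, map_mul, map_pow]
    field_simp
    linear_combination (algebraMap R K a) * hu1
  ker x hx := by
    rw [IsLocalRing.residue_eq_zero_iff, (IsDiscreteValuationRing.irreducible_iff_uniformizer π).1 hπ,
      Ideal.mem_span_singleton] at hx
    exact hx
  red_unif := by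
    rw [IsLocalRing.residue_eq_zero_iff, IsLocalRing.mem_maximalIdeal]
    exact hπ.not_isUnit
  reg c hc := by
    have hπ0 : algebraMap R K π ≠ 0 := by
      simpa using hπ.ne_zero
    exact (mul_eq_zero.1 hc).resolve_left hπ0

end dvr

section RK

variable {L : Type*} [Field L] [CharZero L] [Algebra ℚ L]

/-- `A ∩ K` -/
abbrev RK (A : ValuationSubring L) (K : IntermediateField ℚ L) : ValuationSubring K :=
  A.comap (algebraMap K L)

variable (A : ValuationSubring L) (K : IntermediateField ℚ L)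

theorem mem_RK {x : K} : x ∈ RK A K ↔ (x : L) ∈ A := Iff.rfl

theorem valuation_RK_lt_one_iff (x : K) : (RK A K).valuation x < 1 ↔ A.valuation (x : L) < 1 := by
  rw [← ValuationSubring.mem_nonunits_iff, ← ValuationSubring.mem_nonunits_iff,
    ValuationSubring.mem_nonunits_iff_or, ValuationSubring.mem_nonunits_iff_or, mem_RK]
  simp

/-- the inclusion `A ∩ K → A` -/
def RKtoA : RK A K →+* A where
  toFun x := ⟨((x : K) : L), x.2⟩
  map_one' := rfl
  map_mul' _ _ := rfl
  map_zero' := rfl
  map_add' _ _ := rfl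

@[simp]
theorem coe_RKtoA (x : RK A K) : ((RKtoA A K x : A) : L) = ((x : K) : L) := rfl

theorem RKtoA_injective : Function.Injective (RKtoA A K) := by
  intro x y h
  apply Subtype.ext
  apply Subtype.ext
  exact congrArg (fun z : A => (z : L)) h

theorem residue_RKtoA_eq_zero_iff (x : RK A K) :
    IsLocalRing.residue A (RKtoA A K x) = 0 ↔ IsLocalRing.residue (RK A K) x = 0 := by
  rw [IsLocalRing.residue_eq_zero_iff, IsLocalRing.residue_eq_zero_iff,
    ValuationSubring.valuation_lt_one_iff, ValuationSubring.valuation_lt_one_iff,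
    valuation_RK_lt_one_iff]
  rfl

theorem subtype_comp_RKtoA :
    A.subtype.comp (RKtoA A K) = (algebraMap K L).comp (algebraMap (RK A K) K) := rfl

variable {A} in
theorem isDiscreteValuationRing_RK [FiniteDimensional ℚ K] {ℓ : ℕ} (hℓ : ℓ.Prime)
    (hA : A.LiesOverPrime ℓ) : IsDiscreteValuationRing (RK A K) := by
  have hfd : @Module.Finite ℚ K _ _ (@Algebra.toModule ℚ K _ _ DivisionRing.toRatAlgebra) := by
    convert ‹FiniteDimensional ℚ K›
    exact Subsingleton.elim _ _
  apply isDiscreteValuationRing_of_numberField (RK A K) hℓ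
  rw [valuation_RK_lt_one_iff]
  exact hA

variable {A} in
theorem isUnit_natCast_RK {ℓ : ℕ} (hℓ : ℓ.Prime) (hA : A.LiesOverPrime ℓ) {n : ℕ}
    (hn : ¬ ℓ ∣ n) : IsUnit (n : RK A K) := by
  rw [ValuationSubring.valuation_eq_one_iff]
  have : (RK A K).valuation ((ℓ : ℕ) : K) < 1 := by
    rw [valuation_RK_lt_one_iff]
    exact hA
  exact valuation_natCast_eq_one (RK A K) hℓ this hn

variable {A} in
theorem residue_natCast_RK {ℓ : ℕ} (hA : A.LiesOverPrime ℓ) :
    ((ℓ : ℕ) : IsLocalRing.ResidueField (RK A K)) = 0 := by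
  rw [← map_natCast (IsLocalRing.residue (RK A K)), IsLocalRing.residue_eq_zero_iff,
    ValuationSubring.valuation_lt_one_iff, valuation_RK_lt_one_iff]
  exact hA

/-- a series over `A` whose coefficients lie in `K` comes from `A ∩ K` -/
theorem exists_coeffMap_RKtoA_eq (y : LaurentSeries A) (h : ∀ n, ((y.coeff n : A) : L) ∈ K) :
    ∃ Y : LaurentSeries (RK A K), coeffMap (RKtoA A K) Y = y := by
  refine ⟨{ coeff := fun n => ⟨⟨_, h n⟩, (y.coeff n).2⟩
            isPWO_support' := y.isPWO_support.mono fun n hn => by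
              intro h0
              apply hn
              apply Subtype.ext
              apply Subtype.ext
              show ((y.coeff n : A) : L) = 0
              rw [h0]; rfl }, ?_⟩
  ext n
  rw [coeffMap_coeff]
  rfl

theorem coeffMap_residue_RK_eq_iff (Y₁ Y₂ : LaurentSeries (RK A K)) :
    coeffMap (IsLocalRing.residue (RK A K)) Y₁ = coeffMap (IsLocalRing.residue (RK A K)) Y₂ ↔
      coeffMap (IsLocalRing.residue A) (coeffMap (RKtoA A K) Y₁)
        = coeffMap (IsLocalRing.residue A) (coeffMap (RKtoA A K) Y₂) := by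
  have key : ∀ n, (IsLocalRing.residue (RK A K) (Y₁.coeff n) = IsLocalRing.residue (RK A K) (Y₂.coeff n)
      ↔ IsLocalRing.residue A (RKtoA A K (Y₁.coeff n))
        = IsLocalRing.residue A (RKtoA A K (Y₂.coeff n))) := by
    intro n
    rw [← sub_eq_zero, ← map_sub, ← residue_RKtoA_eq_zero_iff, map_sub, map_sub, sub_eq_zero]
  constructor
  · intro h
    ext n
    have := congrArg (fun z => z.coeff n) h
    simp only [coeffMap_coeff] at this ⊢
    exact (key n).1 this
  · intro h
    ext n
    have := congrArg (fun z => z.coeff n) h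
    simp only [coeffMap_coeff] at this ⊢
    exact (key n).2 this

theorem coeffMap_residue_RK_eq_zero_iff (Y : LaurentSeries (RK A K)) :
    coeffMap (IsLocalRing.residue (RK A K)) Y = 0 ↔
      coeffMap (IsLocalRing.residue A) (coeffMap (RKtoA A K) Y) = 0 := by
  have := coeffMap_residue_RK_eq_iff A K Y 0
  simpa using this

end RK

end Fermat.Agent.ESlib
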