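import Mathlib
import Fermat.Agent.ES.B.Rational
import Fermat.Agent.ES.C.PSRoot
import Fermat.Agent.S24.PlaceBasic

/-!
# ES, (M-K) 3: Laurent series over a number field

* `exists_algebraMap_eq_of_isIntegral_laurent` : `k` is algebraically closed in `k((q))`;
* `exists_finiteDimensional_coeff_mem` : the coefficients of an element of `F_L` (`L / ℚ` algebraic)
  lie in a finite extension of `ℚ`;
* `laurent_exists_pow_eq_of_coeff` : `M`-th roots in `k((q))`;
* `dvd_order_of_forall_place` : `m ∣ div f` implies `m ∣ ord_q f`.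
-/

set_option autoImplicit false
set_option linter.unusedSectionVars false

open AlgebraicCurve ModularCurve

namespace Fermat.Agent.ESlib

section closed

variable {k : Type*} [Field k]

theorem exists_ofPowerSeries_eq_of_order_nonneg (z : LaurentSeries k) (hz : 0 ≤ z.order) :
    ∃ Z : PowerSeries k, HahnSeries.ofPowerSeries ℤ k Z = z := by
  refine ⟨PowerSeries.X ^ z.order.toNat * z.powerSeriesPart, ?_⟩
  rw [map_mul, HahnSeries.ofPowerSeries_X_pow, Int.toNat_of_nonneg hz]
  exact LaurentSeries.single_order_mul_powerSeriesPart z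

theorem ofPowerSeries_aeval (Z : PowerSeries k) (p : Polynomial k) :
    HahnSeries.ofPowerSeries ℤ k (Polynomial.aeval Z p)
      = Polynomial.aeval (HahnSeries.ofPowerSeries ℤ k Z) p := by
  have h : ∀ c : k, HahnSeries.ofPowerSeries ℤ k (algebraMap k (PowerSeries k) c)
      = algebraMap k (LaurentSeries k) c := fun c => by
    rw [HahnSeries.algebraMap_apply']
  induction p using Polynomial.induction_on' with
  | add p q hp hq => rw [map_add, map_add, map_add, hp, hq]
  | monomial n a =>
    rw [Polynomial.aeval_monomial, Polynomial.aeval_monomial, map_mul, map_pow, h]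

theorem eq_zero_of_isIntegral_of_constantCoeff (Z : PowerSeries k)
    (hZ : IsIntegral k (HahnSeries.ofPowerSeries ℤ k Z)) (h0 : PowerSeries.constantCoeff Z = 0) :
    Z = 0 := by
  set z := HahnSeries.ofPowerSeries ℤ k Z with hz
  have h1 : Polynomial.aeval Z (minpoly k z) = 0 := by
    apply HahnSeries.ofPowerSeries_injective (Γ := ℤ)
    rw [ofPowerSeries_aeval, map_zero]
    exact minpoly.aeval k z
  have h2 : (minpoly k z).coeff 0 = 0 := by
    have h3 := congrArg (PowerSeries.constantCoeff (R := k)) h1
    rw [map_zero, Polynomial.aeval_def, Polynomial.hom_eval₂, h0] at h3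
    have h4 : (PowerSeries.constantCoeff (R := k)).comp (algebraMap k (PowerSeries k))
        = RingHom.id k := by
      ext c
      simp
    rw [h4, Polynomial.eval₂_id, ← Polynomial.coeff_zero_eq_eval_zero] at h3
    exact h3
  have h5 : z = 0 := (minpoly.coeff_zero_eq_zero hZ).1 h2
  apply HahnSeries.ofPowerSeries_injective (Γ := ℤ)
  rw [map_zero]
  exact h5

theorem exists_algebraMap_eq_of_isIntegral_of_order_nonneg (z : LaurentSeries k)
    (hz : IsIntegral k z) (h0 : 0 ≤ z.order) : ∃ c : k, algebraMap k (LaurentSeries k) c = z := by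
  obtain ⟨Z, rfl⟩ := exists_ofPowerSeries_eq_of_order_nonneg z h0
  refine ⟨PowerSeries.constantCoeff Z, ?_⟩
  have hc : algebraMap k (LaurentSeries k) (PowerSeries.constantCoeff Z)
      = HahnSeries.ofPowerSeries ℤ k (PowerSeries.C (PowerSeries.constantCoeff Z)) := by
    rw [HahnSeries.algebraMap_apply']
    rfl
  have h1 : Z - PowerSeries.C (PowerSeries.constantCoeff Z) = 0 := by
    apply eq_zero_of_isIntegral_of_constantCoeff
    · rw [map_sub, ← hc]
      exact hz.sub isIntegral_algebraMap
    · simp
  rw [hc, ← sub_eq_zero.1 h1]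

/-- **`k` is algebraically closed in `k((q))`.** -/
theorem exists_algebraMap_eq_of_isIntegral_laurent (z : LaurentSeries k) (hz : IsIntegral k z) :
    ∃ c : k, algebraMap k (LaurentSeries k) c = z := by
  by_cases h0 : 0 ≤ z.order
  · exact exists_algebraMap_eq_of_isIntegral_of_order_nonneg z hz h0
  · have hz0 : z ≠ 0 := by
      rintro rfl
      simp at h0
    have h1 : z.order + z⁻¹.order = 0 := by
      rw [← HahnSeries.order_mul hz0 (inv_ne_zero hz0), mul_inv_cancel₀ hz0, HahnSeries.order_one]
    have hinv : IsIntegral k z⁻¹ := (hz.isAlgebraic.inv).isIntegral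
    obtain ⟨c, hc⟩ := exists_algebraMap_eq_of_isIntegral_of_order_nonneg z⁻¹ hinv (by omega)
    exact ⟨c⁻¹, by rw [map_inv₀, hc, inv_inv]⟩

/-- the same for a subfield `E` of `k((q))` (hypothesis `hK` of `abstract_KIL`) -/
theorem exists_algebraMap_eq_of_isIntegral_subfield {E : Type*} [Field E] [Algebra k E]
    (φ : E →ₐ[k] LaurentSeries k) (z : E) (hz : IsIntegral k z) :
    ∃ c : k, algebraMap k E c = z := by
  obtain ⟨c, hc⟩ := exists_algebraMap_eq_of_isIntegral_laurent (φ z)
    ((isIntegral_algHom_iff φ (φ : E →+* LaurentSeries k).injective).2 hz)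
  refine ⟨c, (φ : E →+* LaurentSeries k).injective ?_⟩
  show φ (algebraMap k E c) = φ z
  rw [AlgHom.commutes, hc]

end closed

section root

variable {k : Type*} [Field k]

/-- `M`-th roots of Laurent series whose order is divisible by `M` and whose leading coefficient is
an `M`-th power. -/
theorem laurent_exists_pow_eq_of_coeff {M : ℕ} (hM : (M : k) ≠ 0) (a : LaurentSeries k)
    (h : (M : ℤ) ∣ a.order) {c : k} (hc : c ^ M = a.coeff a.order) :
    ∃ w : LaurentSeries k, w ^ M = a := by
  have hM0 : M ≠ 0 := by rintro rfl; simp at hM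
  by_cases ha : a = 0
  · exact ⟨0, by rw [ha, zero_pow hM0]⟩
  obtain ⟨n, hn⟩ := h
  have hcc : PowerSeries.constantCoeff a.powerSeriesPart = a.coeff a.order := by
    rw [← PowerSeries.coeff_zero_eq_constantCoeff_apply, LaurentSeries.powerSeriesPart_coeff]
    simp
  have hc0 : a.coeff a.order ≠ 0 := (HahnSeries.coeff_order_eq_zero (x := a)).not.mpr ha
  have hcne : c ≠ 0 := by
    rintro rfl
    rw [zero_pow hM0] at hc
    exact hc0 hc.symm
  obtain ⟨w, hw, -⟩ := exists_pow_eq_of_constantCoeff hM a.powerSeriesPart hcne (hc.trans hcc.symm)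
  refine ⟨HahnSeries.single n 1 * HahnSeries.ofPowerSeries ℤ k w, ?_⟩
  rw [mul_pow, ← map_pow (HahnSeries.ofPowerSeries ℤ k), hw, HahnSeries.single_pow, one_pow,
    nsmul_eq_mul, ← hn]
  exact LaurentSeries.single_order_mul_powerSeriesPart a

end root

section place

variable {k : Type*} [Field k]

/-- `m ∣ div f` implies `m ∣ ord_q f`. -/
theorem dvd_order_of_forall_place (F : IntermediateField k (LaurentSeries k))
    (hnt : ∃ g : F, g ≠ 0 ∧ (g : LaurentSeries k).order ≠ 0) (m : ℕ) (f : F) (hf : f ≠ 0)
    (h : ∀ P : Place k F, (m : ℤ) ∣ P.ord f) : (m : ℤ) ∣ (f : LaurentSeries k).order := by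
  have hne : ∀ g : F, g ≠ 0 → (g : LaurentSeries k) ≠ 0 := fun g hg h0 => hg (Subtype.ext h0)
  obtain ⟨v, e, -, hv⟩ := S24lib.exists_place_of_valuation (K := k) (F := F)
    (fun g => (g : LaurentSeries k).order)
    (fun f g hf hg => HahnSeries.order_mul (hne f hf) (hne g hg))
    (fun f g _ _ hfg => HahnSeries.min_order_le_order_add (hne _ hfg))
    (fun a ha => by
      show (algebraMap k (LaurentSeries k) a).order = 0
      rw [algebraMap_laurentSeries_eq_single, HahnSeries.order_single ha])
    hnt
  rw [hv f hf]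
  exact Dvd.dvd.mul_left (h v) _

theorem exists_order_ne_zero_laurentBaseChange (L : Type*) [Field L] [Algebra ℚ L] (N : ℕ)
    [NeZero N] : ∃ g : laurentBaseChange L (modularFunctionFieldFull N),
      g ≠ 0 ∧ (g : LaurentSeries L).order ≠ 0 := by
  have hmem : jq ∈ modularFunctionFieldFull N := by
    have h := jqd_mem_full N (one_dvd N)
    rwa [qExpand_one_apply] at h
  have hc : (coeffEmb L jq).coeff (-1) = 1 := by
    rw [coeffEmb_coeff, coeff_jq_neg_one, map_one]
  have hc0 : (coeffEmb L jq).coeff (-1) ≠ 0 := by rw [hc]; exact one_ne_zero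
  refine ⟨⟨coeffEmb L jq, coeffEmb_mem_laurentBaseChange L hmem⟩, ?_, ?_⟩
  · intro h
    apply hc0
    have h' : coeffEmb L jq = 0 := congrArg Subtype.val h
    rw [h']
    rfl
  · have := HahnSeries.order_le_of_coeff_ne_zero hc0
    show (coeffEmb L jq).order ≠ 0
    omega

end place

section finite

variable {L : Type*} [Field L] [Algebra ℚ L]

/-- the subfield of the Laurent series with coefficients in `K` -/
noncomputable def coeffField (K : IntermediateField ℚ L) : Subfield (LaurentSeries L) :=
  (coeffMap (algebraMap K L)).fieldRange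

theorem mem_coeffField_iff {K : IntermediateField ℚ L} {x : LaurentSeries L} :
    x ∈ coeffField K ↔ ∀ n, x.coeff n ∈ K := by
  constructor
  · rintro ⟨X, rfl⟩ n
    rw [coeffMap_coeff]
    exact (X.coeff n).2
  · intro h
    refine ⟨{ coeff := fun n => ⟨_, h n⟩
              isPWO_support' := x.isPWO_support.mono fun n hn => by
                intro h0
                exact hn (Subtype.ext h0) }, ?_⟩
    ext n
    rw [coeffMap_coeff]
    rfl

theorem coeffField_mono {K K' : IntermediateField ℚ L} (h : K ≤ K') :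
    coeffField K ≤ coeffField K' := by
  intro x hx
  rw [mem_coeffField_iff] at hx ⊢
  exact fun n => h (hx n)

variable [Algebra.IsAlgebraic ℚ L] (F₀ : IntermediateField ℚ (LaurentSeries ℚ))

/-- the coefficients of an element of `F_L` lie in a finite extension of `ℚ` -/
theorem exists_finiteDimensional_coeff_mem {x : LaurentSeries L}
    (hx : x ∈ laurentBaseChange L F₀) :
    ∃ K : IntermediateField ℚ L, FiniteDimensional ℚ K ∧ ∀ n, x.coeff n ∈ K := by
  suffices h : ∃ K : IntermediateField ℚ L, FiniteDimensional ℚ K ∧ x ∈ coeffField K by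
    obtain ⟨K, hK, hx⟩ := h
    exact ⟨K, hK, mem_coeffField_iff.1 hx⟩
  rw [mem_laurentBaseChange_iff] at hx
  induction hx using Subfield.closure_induction with
  | mem y hy =>
      rcases hy with ⟨a, rfl⟩ | ⟨z, hz, rfl⟩
      · refine ⟨IntermediateField.adjoin ℚ {a},
          IntermediateField.adjoin.finiteDimensional (Algebra.IsIntegral.isIntegral a), ?_⟩
        rw [mem_coeffField_iff]
        intro n
        rw [algebraMap_laurentSeries_eq_single]
        by_cases hn : n = 0
        · subst hn
          rw [HahnSeries.coeff_single_same]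
          exact IntermediateField.mem_adjoin_simple_self ℚ a
        · rw [HahnSeries.coeff_single_of_ne hn]
          exact zero_mem _
      · refine ⟨⊥, inferInstance, ?_⟩
        rw [mem_coeffField_iff]
        intro n
        rw [coeffEmb_coeff]
        exact IntermediateField.algebraMap_mem _ _
  | one => exact ⟨⊥, inferInstance, one_mem _⟩
  | add x y _ _ hx hy =>
      obtain ⟨K₁, h₁, hx⟩ := hx
      obtain ⟨K₂, h₂, hy⟩ := hy
      exact ⟨K₁ ⊔ K₂, IntermediateField.finiteDimensional_sup K₁ K₂,
        add_mem (coeffField_mono le_sup_left hx) (coeffField_mono le_sup_right hy)⟩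
  | neg x _ hx =>
      obtain ⟨K₁, h₁, hx⟩ := hx
      exact ⟨K₁, h₁, neg_mem hx⟩
  | inv x _ hx =>
      obtain ⟨K₁, h₁, hx⟩ := hx
      exact ⟨K₁, h₁, inv_mem hx⟩
  | mul x y _ _ hx hy =>
      obtain ⟨K₁, h₁, hx⟩ := hx
      obtain ⟨K₂, h₂, hy⟩ := hy
      exact ⟨K₁ ⊔ K₂, IntermediateField.finiteDimensional_sup K₁ K₂,
        mul_mem (coeffField_mono le_sup_left hx) (coeffField_mono le_sup_right hy)⟩

/-- a finite set of elements lies in a finite extension of `ℚ` -/
theorem exists_finiteDimensional_finset_mem (S : Finset L) :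
    ∃ K : IntermediateField ℚ L, FiniteDimensional ℚ K ∧ ∀ s ∈ S, s ∈ K :=
  ⟨IntermediateField.adjoin ℚ (S : Set L),
    IntermediateField.finiteDimensional_adjoin (fun x _ => Algebra.IsIntegral.isIntegral x),
    fun _ hs => IntermediateField.subset_adjoin ℚ _ hs⟩

end finite

end Fermat.Agent.ESlib
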