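import Fermat.Agent.ES.M.Base
import Fermat.Agent.ES.Dict.Avatar
import Fermat.Agent.ES.C.AKDefs

/-!
# ES, modular side, row M-h1: all the embeddings of `F_K(N)` over `j ↦ j(τ₀ + τ)` resp.
`j ↦ j(q_N^N)` are restrictions of chart embeddings, hence land in `ℂ((τ))`, and the order of the
image of `f` is divisible by `m` if all the orders of `f` along the charts are.
-/

set_option autoImplicit false
set_option linter.unusedSectionVars false
set_option linter.style.haveILetI false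

open UpperHalfPlane hiding I
open ModularCurve IntermediateField MatrixGroups CongruenceSubgroup
open Fermat.Agent.S24lib

namespace Fermat.Agent.ESlib

/-- `SplitAt` together with `m ∣ ord (σ f)`; `HhAtF K Ch T f m b M` is by definition
`∃ w, (w - C b).order = M ∧ SplitAtF K Ch T f m w`. -/
def SplitAtF (K : Type*) {F : Type*} (Ch : Type*) [Field K] [Field F] [Algebra K F] [Field Ch]
    [Algebra K Ch] (T f : F) (m : ℕ) (w : LaurentSeries Ch) : Prop :=
  ∀ σ : F →ₐ[K] AlgebraicClosure (LaurentSeries Ch),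
    σ T = algebraMap (LaurentSeries Ch) (AlgebraicClosure (LaurentSeries Ch)) w →
    (∀ x, σ x ∈ (algebraMap (LaurentSeries Ch) (AlgebraicClosure (LaurentSeries Ch))).range) ∧
    ∃ g : LaurentSeries Ch,
      σ f = algebraMap (LaurentSeries Ch) (AlgebraicClosure (LaurentSeries Ch)) g ∧
        (m : ℤ) ∣ g.order

theorem hhAtF_iff {K F Ch : Type*} [Field K] [Field F] [Algebra K F] [Field Ch]
    [Algebra K Ch] (T f : F) (m : ℕ) (b : Ch) (M : ℕ) :
    HhAtF K Ch T f m b M ↔
      ∃ w : LaurentSeries Ch, (w - HahnSeries.C b).order = (M : ℤ) ∧ SplitAtF K Ch T f m w :=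
  Iff.rfl

/-- two embeddings which agree on a generating set are equal -/
theorem algHom_ext_of_adjoin_eq_top {K F Ω : Type*} [Field K] [Field F] [Algebra K F] [Field Ω]
    [Algebra K Ω] {S : Set F} (hS : IntermediateField.adjoin K S = ⊤) {φ₁ φ₂ : F →ₐ[K] Ω}
    (h : ∀ x ∈ S, φ₁ x = φ₂ x) : φ₁ = φ₂ := by
  ext x
  have hx : x ∈ IntermediateField.adjoin K S := hS ▸ IntermediateField.mem_top
  induction hx using IntermediateField.adjoin_induction with
  | mem x hx => exact h x hx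
  | algebraMap c => rw [AlgHom.commutes, AlgHom.commutes]
  | add x y _ _ hx hy => rw [map_add, map_add, hx, hy]
  | inv x _ hx => rw [map_inv₀, map_inv₀, hx]
  | mul x y _ _ hx hy => rw [map_mul, map_mul, hx, hy]

variable (K : Type) [Field K] [CharZero K] [Algebra ℚ K] [Algebra K ℂ] [IsScalarTower ℚ K ℂ]
variable (N : ℕ) [NeZero N]

/-- restriction to `F_K(N)` of an embedding of `F_ℂ(N)` -/
noncomputable def resEmbC (θ : FK ℂ N →ₐ[ℂ] LaurentSeries ℂ) : FK K N →ₐ[K] LaurentSeries ℂ :=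
  { θ.toRingHom.comp (bc K ℂ (modularFunctionFieldFull N)) with
    commutes' := fun a => by
      have h := bc_algebraMap K ℂ (modularFunctionFieldFull N) a
      show θ (bc K ℂ (modularFunctionFieldFull N) (algebraMap K (FK K N) a)) = _
      rw [h, AlgHom.commutes]
      rw [HahnSeries.algebraMap_apply', HahnSeries.algebraMap_apply', PowerSeries.algebraMap_apply,
        PowerSeries.algebraMap_apply]
      rfl }

theorem resEmbC_apply (θ : FK ℂ N →ₐ[ℂ] LaurentSeries ℂ) (f : FK K N) :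
    resEmbC K N θ f = θ (bc K ℂ (modularFunctionFieldFull N) f) := rfl

/-- **M-h1a.** `θ ↦ resEmbC θ` is injective (`F_ℂ(N)` is generated over `ℂ` by the `Jgen d`, which
are in the image of `bc`: `adjoin_range_Jgen`, `bc_Jgen`, `IntermediateField.algHom_ext_of_eq_adjoin`
or `AlgHom.ext_of_adjoin_eq_top`-like lemmas). -/
theorem resEmbC_injective : Function.Injective (resEmbC K N) := by
  intro θ θ' h
  have hJ : ∀ d : Dv N, θ (Jgen ℂ N d) = θ' (Jgen ℂ N d) := fun d => by
    have h1 := DFunLike.congr_fun h (Jgen K N d)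
    rwa [resEmbC_apply, resEmbC_apply, bc_Jgen] at h1
  apply algHom_ext_of_adjoin_eq_top (adjoin_range_Jgen (K := ℂ) N)
  rintro _ ⟨d, rfl⟩
  exact hJ d

/-- **M-h1b (abstract core).**  `F / K(J)` of degree `≤ n`, `θ : X → (F →ₐ[K] M)` an injective
family of `n` embeddings with the same value `w` at `J`.  Then every embedding `σ` of `F` in an
extension `Ω` of `M` with `σ J = w` is one of the `θ x`; in particular it lands in `M`.

Proof.  Make `Ω` a `K⟮J⟯`-algebra through `σ` restricted to `K⟮J⟯`; the `θ x` (composed with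
`M → Ω`) and `σ` are `K⟮J⟯`-algebra homs (they agree with `σ` on `K` and on `J`, hence on `K⟮J⟯`:
`IntermediateField.adjoin_induction` / `AlgHom.ext_of_adjoin_eq_top`...).
`Fintype.card (F →ₐ[K⟮J⟯] Ω) ≤ finrank` (`card_algHom_le_finrank`) `≤ n`, and the `θ x` are `n`
distinct elements: they are all of them. -/
theorem mem_range_of_card_embeddings {K F M Ω X : Type*} [Field K] [Field F] [Algebra K F]
    [Field M] [Algebra K M] [Field Ω] [Algebra K Ω] [Algebra M Ω] [IsScalarTower K M Ω]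
    [Finite X] (J : F) [FiniteDimensional K⟮J⟯ F]
    (hn : Module.finrank K⟮J⟯ F ≤ Nat.card X) (θ : X → F →ₐ[K] M) (hθ : Function.Injective θ)
    (w : M) (hw : ∀ x, θ x J = w) (σ : F →ₐ[K] Ω) (hσ : σ J = algebraMap M Ω w) :
    ∃ x, ∀ f, σ f = algebraMap M Ω (θ x f) := by
  classical
  haveI := Fintype.ofFinite X
  letI : Algebra K⟮J⟯ Ω := (σ.toRingHom.comp (algebraMap K⟮J⟯ F)).toAlgebra
  have hcomm : ∀ τ : F →ₐ[K] Ω, τ J = algebraMap M Ω w → ∀ z : K⟮J⟯,
      τ (algebraMap K⟮J⟯ F z) = algebraMap K⟮J⟯ Ω z := by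
    intro τ hτ z
    have h1 : τ.comp (K⟮J⟯).val = σ.comp (K⟮J⟯).val := by
      apply IntermediateField.adjoin_algHom_ext
      intro x hx
      rw [Set.mem_singleton_iff] at hx
      subst hx
      show τ x = σ x
      rw [hτ, hσ]
    exact DFunLike.congr_fun h1 z
  let up : {τ : F →ₐ[K] Ω // τ J = algebraMap M Ω w} → (F →ₐ[K⟮J⟯] Ω) := fun τ =>
    { τ.1.toRingHom with commutes' := hcomm τ.1 τ.2 }
  have hup : Function.Injective up := by
    intro τ τ' h
    apply Subtype.ext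
    ext x
    exact DFunLike.congr_fun h x
  let ι : M →ₐ[K] Ω := IsScalarTower.toAlgHom K M Ω
  have hι : ∀ y, ι y = algebraMap M Ω y := fun _ => rfl
  let g : X → (F →ₐ[K⟮J⟯] Ω) := fun x => up ⟨ι.comp (θ x), by
    show ι (θ x J) = _
    rw [hw, hι]⟩
  have hg : Function.Injective g := by
    intro x y h
    apply hθ
    have h1 : ι.comp (θ x) = ι.comp (θ y) := congrArg Subtype.val (hup h)
    ext f
    apply (algebraMap M Ω).injective
    exact DFunLike.congr_fun h1 f
  have hle : Fintype.card (F →ₐ[K⟮J⟯] Ω) ≤ Fintype.card X := by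
    rw [← Nat.card_eq_fintype_card (α := X)]
    refine le_trans ?_ hn
    rw [← Module.finrank_linearMap_self K⟮J⟯ Ω F]
    exact (linearIndependent_toLinearMap K⟮J⟯ F Ω).fintype_card_le_finrank
  have hsurj : Function.Surjective g :=
    (Function.Injective.bijective_of_nat_card_le hg (by
      rw [Nat.card_eq_fintype_card, Nat.card_eq_fintype_card]; exact hle)).2
  obtain ⟨x, hx⟩ := hsurj (up ⟨σ, hσ⟩)
  refine ⟨x, fun f => ?_⟩
  have h1 : ι.comp (θ x) = σ := congrArg Subtype.val (hup hx)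
  rw [← h1]
  rfl

/-- **M-h1c (interior).** (`mem_range_of_card_embeddings` with `X = SL(2,ℤ) ⧸ Γ₀(N)`,
`S20lib.card_quot_Gamma0`, `finrank_J1K_le`, `θ x = resEmbC (embInt ℂ N τ₀ x)`, `embInt_injective`,
`resEmbC_injective`, `bc_Jgen`, `chartEmb_J1`.) -/
theorem exists_embInt_of_J1 (τ₀ : ℍ) (x : SL(2, ℤ) ⧸ Gamma0 N)
    (σ : FK K N →ₐ[K] AlgebraicClosure (LaurentSeries ℂ))
    (hσ : σ (J1 K N) = algebraMap (LaurentSeries ℂ) _ (embInt ℂ N τ₀ x (J1 ℂ N))) :
    ∃ x' : SL(2, ℤ) ⧸ Gamma0 N, ∀ f : FK K N, σ f = algebraMap (LaurentSeries ℂ) _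
      (embInt ℂ N τ₀ x' (bc K ℂ (modularFunctionFieldFull N) f)) := by
  haveI := (finrank_J1K_le K N).1
  have hJ : bc K ℂ (modularFunctionFieldFull N) (J1 K N) = J1 ℂ N := bc_Jgen K N ℂ _
  exact mem_range_of_card_embeddings (J1 K N)
    (by rw [S20lib.card_quot_Gamma0]; exact (finrank_J1K_le K N).2)
    (fun x' => resEmbC K N (embInt ℂ N τ₀ x'))
    (fun a b hab => embInt_injective N τ₀ (resEmbC_injective K N hab))
    (embInt ℂ N τ₀ x (J1 ℂ N))
    (fun x' => by
      rw [resEmbC_apply, hJ]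
      show chartEmb ℂ _ _ = chartEmb ℂ _ _
      rw [chartEmb_cInt_J1, chartEmb_cInt_J1]) σ hσ

/-- **M-h1d (cusps).** -/
theorem exists_embCusp_of_J1 (x : SL(2, ℤ) ⧸ Gamma0 N)
    (σ : FK K N →ₐ[K] AlgebraicClosure (LaurentSeries ℂ))
    (hσ : σ (J1 K N) = algebraMap (LaurentSeries ℂ) _ (embCusp ℂ N x (J1 ℂ N))) :
    ∃ x' : SL(2, ℤ) ⧸ Gamma0 N, ∀ f : FK K N, σ f = algebraMap (LaurentSeries ℂ) _
      (embCusp ℂ N x' (bc K ℂ (modularFunctionFieldFull N) f)) := by
  haveI := (finrank_J1K_le K N).1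
  have hJ : bc K ℂ (modularFunctionFieldFull N) (J1 K N) = J1 ℂ N := bc_Jgen K N ℂ _
  exact mem_range_of_card_embeddings (J1 K N)
    (by rw [S20lib.card_quot_Gamma0]; exact (finrank_J1K_le K N).2)
    (fun x' => resEmbC K N (embCusp ℂ N x'))
    (fun a b hab => embCusp_injective N (resEmbC_injective K N hab))
    (embCusp ℂ N x (J1 ℂ N))
    (fun x' => by
      rw [resEmbC_apply, hJ]
      show chartEmb ℂ _ _ = chartEmb ℂ _ _
      rw [chartEmb_cCusp_J1, chartEmb_cCusp_J1]) σ hσ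

/-- all the orders of `f` along the charts are divisible by `m` -/
def ChartDiv (f : FK K N) (m : ℕ) : Prop :=
  ∀ (c : ℂ → ℍ) (hc : IsChart N c),
    (m : ℤ) ∣ (chartEmb ℂ hc (bc K ℂ (modularFunctionFieldFull N) f)).order

variable {K N} in
theorem splitAtF_J1_int {f : FK K N} {m : ℕ} (hdiv : ChartDiv K N f m) (τ₀ : ℍ)
    (x : SL(2, ℤ) ⧸ Gamma0 N) :
    SplitAtF K ℂ (J1 K N) f m (embInt ℂ N τ₀ x (J1 ℂ N)) := by
  intro σ hσ
  obtain ⟨x', hx'⟩ := exists_embInt_of_J1 K N τ₀ x σ hσ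
  exact ⟨fun y => ⟨_, (hx' y).symm⟩, _, hx' f, hdiv _ _⟩

variable {K N} in
theorem splitAtF_J1_cusp {f : FK K N} {m : ℕ} (hdiv : ChartDiv K N f m)
    (x : SL(2, ℤ) ⧸ Gamma0 N) :
    SplitAtF K ℂ (J1 K N) f m (embCusp ℂ N x (J1 ℂ N)) := by
  intro σ hσ
  obtain ⟨x', hx'⟩ := exists_embCusp_of_J1 K N x σ hσ
  exact ⟨fun y => ⟨_, (hx' y).symm⟩, _, hx' f, hdiv _ _⟩

/-- **M-h1e.** compatibility of the chart embeddings with the base change `K' → ℂ`, `K'`
algebraically closed (both sides are `K'`-algebra homs which agree on the `Jgen d`: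
`chartEmb_Jgen`, `bc_Jgen`, `adjoin_range_Jgen`). -/
theorem chartEmb_bc (K' : Type) [Field K'] [CharZero K'] [Algebra ℚ K'] [IsAlgClosed K']
    [Algebra K' ℂ] [IsScalarTower ℚ K' ℂ] {c : ℂ → ℍ} (hc : IsChart N c) (f : FK K' N) :
    chartEmb ℂ hc (bc K' ℂ (modularFunctionFieldFull N) f) = chartEmb K' hc f := by
  have h : resEmbC K' N (chartEmb ℂ hc) = chartEmb K' hc := by
    apply algHom_ext_of_adjoin_eq_top (adjoin_range_Jgen (K := K') N)
    rintro _ ⟨d, rfl⟩
    rw [resEmbC_apply, bc_Jgen, chartEmb_Jgen, chartEmb_Jgen]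
  exact DFunLike.congr_fun h f

/-- **M-h1f.** `ChartDiv` from the divisibility of the divisor over an algebraically closed
intermediate field `K'` (`chartEmb_bc`, `dvd_order_chartEmb`; `bc K' ℂ (bc K K' f) = bc K ℂ f` by
`coe_bc`, `coeffMap_coeffMap`, `IsScalarTower.algebraMap_eq`). -/
theorem chartDiv_of_places (K' : Type) [Field K'] [CharZero K'] [Algebra ℚ K'] [IsAlgClosed K']
    [Algebra K' ℂ] [IsScalarTower ℚ K' ℂ] [Algebra K K'] [IsScalarTower ℚ K K']
    [IsScalarTower K K' ℂ] (f : FK K N) (m : ℕ)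
    (h : ∀ v : AlgebraicCurve.Place K' (FK K' N),
      (m : ℤ) ∣ v.ord (bc K K' (modularFunctionFieldFull N) f)) : ChartDiv K N f m := by
  intro c hc
  have h1 : bc K ℂ (modularFunctionFieldFull N) f =
      bc K' ℂ (modularFunctionFieldFull N) (bc K K' (modularFunctionFieldFull N) f) := by
    apply Subtype.ext
    rw [coe_bc, coe_bc, coe_bc, coeffMap_coeffMap, ← IsScalarTower.algebraMap_eq]
  rw [h1, chartEmb_bc]
  exact dvd_order_chartEmb hc h

end Fermat.Agent.ESlib
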