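import Mathlib

/-!
# ES, modular side (M-h), abstract part: classification of embeddings by counting
-/

set_option autoImplicit false
set_option linter.unusedSectionVars false
set_option linter.style.haveILetI false

open IntermediateField

namespace Fermat.Agent.ESlib

/-- **(MH0)** If `emb i`, `i ∈ I`, are `[F : K(u)]` distinct `K`-embeddings `F → Ω` with the same
value at `u`, then every `K`-embedding with this value at `u` is one of them. -/
theorem exists_eq_emb_of_card {K F Ω I : Type*} [Field K] [Field F] [Field Ω] [Algebra K F]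
    [Algebra K Ω] (u : F) [FiniteDimensional K⟮u⟯ F] [Finite I] (emb : I → F →ₐ[K] Ω)
    (hinj : Function.Injective emb) (hcard : Nat.card I = Module.finrank K⟮u⟯ F)
    (w : Ω) (hw : ∀ i, emb i u = w) (σ : F →ₐ[K] Ω) (hσ : σ u = w) : ∃ i, σ = emb i := by
  classical
  haveI := Fintype.ofFinite I
  have hpos : 0 < Module.finrank K⟮u⟯ F := Module.finrank_pos
  have hI : Nonempty I := by
    rw [← hcard] at hpos
    exact (Nat.card_pos_iff.1 hpos).1
  obtain ⟨i₀⟩ := hI
  letI : Algebra K⟮u⟯ Ω := ((emb i₀).toRingHom.comp (algebraMap K⟮u⟯ F)).toAlgebra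
  have hcomm : ∀ τ : F →ₐ[K] Ω, τ u = w → ∀ z : K⟮u⟯, τ (algebraMap K⟮u⟯ F z) =
      algebraMap K⟮u⟯ Ω z := by
    intro τ hτ z
    have h1 : τ.comp (K⟮u⟯).val = (emb i₀).comp (K⟮u⟯).val := by
      apply IntermediateField.adjoin_algHom_ext
      intro x hx
      rw [Set.mem_singleton_iff] at hx
      subst hx
      show τ x = emb i₀ x
      rw [hτ, hw]
    exact DFunLike.congr_fun h1 z
  let up : {τ : F →ₐ[K] Ω // τ u = w} → (F →ₐ[K⟮u⟯] Ω) := fun τ =>
    { τ.1.toRingHom with commutes' := hcomm τ.1 τ.2 }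
  have hup : Function.Injective up := by
    intro τ τ' h
    apply Subtype.ext
    ext x
    exact DFunLike.congr_fun h x
  let g : I → (F →ₐ[K⟮u⟯] Ω) := fun i => up ⟨emb i, hw i⟩
  have hg : Function.Injective g := fun i j h => hinj (congrArg Subtype.val (hup h))
  have hle : Fintype.card (F →ₐ[K⟮u⟯] Ω) ≤ Fintype.card I := by
    rw [← Nat.card_eq_fintype_card (α := I), hcard,
      ← Module.finrank_linearMap_self K⟮u⟯ Ω F]
    exact (linearIndependent_toLinearMap K⟮u⟯ F Ω).fintype_card_le_finrank
  have hsurj : Function.Surjective g :=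
    (Function.Injective.bijective_of_nat_card_le hg (by
      rw [Nat.card_eq_fintype_card, Nat.card_eq_fintype_card]; exact hle)).2
  obtain ⟨i, hi⟩ := hsurj (up ⟨σ, hσ⟩)
  exact ⟨i, (congrArg Subtype.val (hup hi)).symm⟩

end Fermat.Agent.ESlib
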