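import Fermat.Agent.ES.B.Extend

/-!
# ES, modular side (M-h): extension of embeddings along an algebraic extension of constants

`exists_extend_algHom` : for `L'/L` algebraic, every `L`-embedding `σ : F_L → Ω` into an
`L'`-algebra `Ω` extends to an `L'`-embedding `F_{L'} → Ω`.
-/

set_option autoImplicit false
set_option linter.unusedSectionVars false
set_option linter.style.haveILetI false

open AlgebraicCurve ModularCurve

namespace Fermat.Agent.ESlib

section abstract

open TensorProduct

/-- variant of `exists_extend_abstract`: if `L'/L` is algebraic then the linear disjointness in the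
target is automatic. -/
theorem exists_extend_of_isAlgebraic {L L' E Ω₁ Ω₂ ι : Type*} [Field L] [Field L'] [Field E]
    [Field Ω₁] [Field Ω₂] [Algebra L L'] [Algebra.IsAlgebraic L L'] [Algebra L E] [Algebra L' Ω₁]
    [Algebra L' Ω₂]
    (a : E →+* Ω₁) (b : E →+* Ω₂)
    (ha : ∀ c : L, a (algebraMap L E c) = algebraMap L' Ω₁ (algebraMap L L' c))
    (hb : ∀ c : L, b (algebraMap L E c) = algebraMap L' Ω₂ (algebraMap L L' c))
    (β : Module.Basis ι L L')
    (hia : ∀ m : ι →₀ E, (m.sum fun i x => algebraMap L' Ω₁ (β i) * a x) = 0 → m = 0) :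
    ∃ ε' : IntermediateField.adjoin L' (Set.range a) →ₐ[L'] Ω₂,
      ∀ (x : E) (hx : a x ∈ IntermediateField.adjoin L' (Set.range a)), ε' ⟨a x, hx⟩ = b x := by
  classical
  refine exists_extend_abstract a b ha hb β hia ?_
  let _ : Algebra L Ω₁ := ((algebraMap L' Ω₁).comp (algebraMap L L')).toAlgebra
  have : IsScalarTower L L' Ω₁ := IsScalarTower.of_algebraMap_eq fun _ => rfl
  let _ : Algebra L Ω₂ := ((algebraMap L' Ω₂).comp (algebraMap L L')).toAlgebra
  have : IsScalarTower L L' Ω₂ := IsScalarTower.of_algebraMap_eq fun _ => rfl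
  let a' : E →ₐ[L] Ω₁ := { a with commutes' := ha }
  let b' : E →ₐ[L] Ω₂ := { b with commutes' := hb }
  let α : L' ⊗[L] E →ₐ[L'] Ω₁ :=
    Algebra.TensorProduct.lift (Algebra.ofId L' Ω₁) a' (fun _ _ => Commute.all _ _)
  let γ : L' ⊗[L] E →ₐ[L'] Ω₂ :=
    Algebra.TensorProduct.lift (Algebra.ofId L' Ω₂) b' (fun _ _ => Commute.all _ _)
  have hα : ∀ (c : L') (x : E), α (c ⊗ₜ x) = algebraMap L' Ω₁ c * a x := fun c x =>
    Algebra.TensorProduct.lift_tmul _ _ _ _ _
  have hγ : ∀ (c : L') (x : E), γ (c ⊗ₜ x) = algebraMap L' Ω₂ c * b x := fun c x =>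
    Algebra.TensorProduct.lift_tmul _ _ _ _ _
  let e := TensorProduct.equivFinsuppOfBasisLeft (N := E) β
  have hαinj : Function.Injective α := by
    rw [injective_iff_map_eq_zero]
    intro z hz
    obtain ⟨m, rfl⟩ := e.symm.surjective z
    rw [TensorProduct.equivFinsuppOfBasisLeft_symm_apply, map_finsuppSum] at hz
    simp only [hα] at hz
    rw [hia m hz, map_zero]
  have hdom : IsDomain (L' ⊗[L] E) := Function.Injective.isDomain α.toRingHom hαinj
  have hdom' : IsDomain (E ⊗[L] L') :=
    (Algebra.TensorProduct.comm L E L').toMulEquiv.isDomain (L' ⊗[L] E)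
  have hint : Algebra.IsIntegral L L' := Algebra.IsAlgebraic.isIntegral
  have hfield : IsField (E ⊗[L] L') :=
    isField_of_isIntegral_of_isField' (R := E) (Field.toIsField E)
  have hfield' : IsField (L' ⊗[L] E) :=
    MulEquiv.isField hfield (Algebra.TensorProduct.comm L L' E).toMulEquiv
  have hγinj : Function.Injective γ := by
    letI := hfield'.toField
    exact γ.toRingHom.injective
  intro m hm
  have h1 : γ (e.symm m) = 0 := by
    rw [TensorProduct.equivFinsuppOfBasisLeft_symm_apply, map_finsuppSum]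
    simp only [hγ]
    exact hm
  have h2 : e.symm m = 0 := hγinj (h1.trans (map_zero γ).symm)
  simpa using congrArg e h2

end abstract

variable (L L' : Type*) [Field L] [Field L'] [Algebra ℚ L] [Algebra ℚ L'] [Algebra L L']
  [IsScalarTower ℚ L L'] [Algebra.IsAlgebraic L L']
variable (F₀ : IntermediateField ℚ (LaurentSeries ℚ))

/-- **(MH1)** extension of an embedding of `F_L` to `F_{L'}` when `L'/L` is algebraic. -/
theorem exists_extend_algHom {Ω : Type*} [Field Ω] [Algebra L Ω] [Algebra L' Ω]
    [IsScalarTower L L' Ω] (σ : laurentBaseChange L F₀ →ₐ[L] Ω) :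
    ∃ σ' : laurentBaseChange L' F₀ →ₐ[L'] Ω,
      ∀ f : laurentBaseChange L F₀, σ' (bc L L' F₀ f) = σ f := by
  let a : laurentBaseChange L F₀ →+* LaurentSeries L' :=
    (coeffMap (algebraMap L L')).comp (laurentBaseChange L F₀).val.toRingHom
  obtain ⟨ε'', hε''⟩ := exists_extend_of_isAlgebraic (L := L) (L' := L') a σ.toRingHom
    (fun c => coeffMap_algebraMap_algebraMap L L' c)
    (fun c => by
      change σ (algebraMap L _ c) = _
      rw [AlgHom.commutes, ← IsScalarTower.algebraMap_apply])
    (Module.Basis.ofVectorSpace L L')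
    (fun m hm => eq_zero_of_sum_basis_mul_coeffMap (laurentBaseChange L F₀).val.toRingHom _ m hm)
  have hle : laurentBaseChange L' F₀ ≤ IntermediateField.adjoin L' (Set.range a) := by
    apply IntermediateField.adjoin.mono
    rintro _ ⟨x, hx, rfl⟩
    exact ⟨⟨coeffEmb L x, coeffEmb_mem_laurentBaseChange L hx⟩,
      coeffMap_coeffEmb_algebraMap L L' x⟩
  refine ⟨ε''.comp (IntermediateField.inclusion hle), fun f => ?_⟩
  exact hε'' f _

end Fermat.Agent.ESlib
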