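import Fermat.Agent.ES.M.Orders
import Fermat.Agent.ES.M.PiSide
import Fermat.Agent.ES.M.Root
import Fermat.Agent.ES.C.AK12

/-!
# ES, modular side, row M-K4 (a): instantiation of `abstract_KIL` over a DVR `R` with fraction
field `K ⊆ ℂ`
-/

set_option autoImplicit false
set_option linter.unusedSectionVars false

open ModularCurve IntermediateField
open Fermat.Agent.S24lib

namespace Fermat.Agent.ESlib

theorem isUnit_a0 {R : Type*} [CommRing R] {r : ℕ} (hr : r = 2 ∨ r = 3) (h : IsUnit (r : R)) :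
    IsUnit ((a0 r : ℤ) : R) := by
  rcases hr with rfl | rfl
  · have : (((a0 2 : ℤ)) : R) = -((2 : ℕ) : R) ^ 6 := by
      simp only [a0, if_true]; push_cast; norm_num
    rw [this]
    exact (h.pow 6).neg
  · have : (((a0 3 : ℤ)) : R) = -((3 : ℕ) : R) ^ 3 := by
      simp only [a0]; push_cast; norm_num
    rw [this]
    exact (h.pow 3).neg

theorem adjoin_simple_gen_eq_top {F L : Type*} [Field F] [Field L] [Algebra F L] (y : L) :
    IntermediateField.adjoin F
      {(⟨y, IntermediateField.mem_adjoin_simple_self F y⟩ : F⟮y⟯)} = ⊤ := by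
  apply IntermediateField.map_injective (F⟮y⟯).val
  rw [IntermediateField.adjoin_map, Set.image_singleton, ← AlgHom.fieldRange_eq_map,
    IntermediateField.fieldRange_val]
  rfl

section level

variable {R K : Type} [CommRing R] [IsDomain R] [IsDiscreteValuationRing R] [Field K] [Algebra R K]
  [IsFractionRing R K] [CharZero K] [Algebra ℚ K] [Algebra K ℂ] [IsScalarTower ℚ K ℂ]
  [Algebra R ℂ] [IsScalarTower R K ℂ] (N : ℕ) [NeZero N]

/-- **KIL over a DVR `R ⊆ K ⊆ ℂ`.** -/
theorem kil_level {π : R} (hπ : Irreducible π) (hN : IsUnit (N : R)) (r : ℕ) [NeZero r]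
    (hr : r = 2 ∨ r = 3) (hrN : r ∣ N) (m : ℕ) (hm : IsUnit (m : R)) (ζ : R)
    (hζ : IsPrimitiveRoot ζ m) (hζN : ∃ z : K, IsPrimitiveRoot z N)
    (g₁ g₂ : FK K N) (y₁ y₂ : LaurentSeries R)
    (h₁ : coeffMap (algebraMap R K) y₁ = (g₁ : LaurentSeries K))
    (h₂ : coeffMap (algebraMap R K) y₂ = (g₂ : LaurentSeries K))
    (hred : coeffMap (IsLocalRing.residue R) y₁ = coeffMap (IsLocalRing.residue R) y₂)
    (hne : coeffMap (IsLocalRing.residue R) y₁ ≠ 0)
    (hdiv : ChartDiv K N (g₁ / g₂) m)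
    (hord : (m : ℤ) ∣ ((g₁ / g₂ : FK K N) : LaurentSeries K).order)
    (c : K) (hc : c ^ m = ((g₁ / g₂ : FK K N) : LaurentSeries K).leadingCoeff) :
    ∃ ψ : FK K N, ψ ^ m * g₂ = g₁ := by
  classical
  letI : Algebra R (FK K N) := ((algebraMap K (FK K N)).comp (algebraMap R K)).toAlgebra
  haveI : IsScalarTower R K (FK K N) := IsScalarTower.of_algebraMap_eq fun _ => rfl
  -- nonvanishing
  have hg₁ : g₁ ≠ 0 := by
    rintro rfl
    apply hne
    have : y₁ = 0 := by
      apply coeffMap_injective (algebraMap R K) (IsFractionRing.injective R K)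
      rw [h₁, map_zero]; rfl
    rw [this, map_zero]
  have hg₂ : g₂ ≠ 0 := by
    rintro rfl
    apply hne
    rw [hred]
    have : y₂ = 0 := by
      apply coeffMap_injective (algebraMap R K) (IsFractionRing.injective R K)
      rw [h₂, map_zero]; rfl
    rw [this, map_zero]
  set f : FK K N := g₁ / g₂ with hf
  have hf0 : f ≠ 0 := div_ne_zero hg₁ hg₂
  have hmK : (m : K) ≠ 0 := by
    have := hm.map (algebraMap R K)
    rw [map_natCast] at this
    exact this.ne_zero
  -- the root in `K((q))`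
  obtain ⟨y, hy⟩ := laurent_exists_pow_eq_of_leadingCoeff hmK (f : LaurentSeries K)
    (by simpa using hf0) hord c hc
  -- the field `E = F(y)`
  let E : IntermediateField (FK K N) (LaurentSeries K) := IntermediateField.adjoin (FK K N) {y}
  letI : Algebra R E := ((algebraMap K E).comp (algebraMap R K)).toAlgebra
  haveI : IsScalarTower R K E := IsScalarTower.of_algebraMap_eq fun _ => rfl
  haveI : IsScalarTower R (FK K N) E := IsScalarTower.of_algebraMap_eq fun _ => rfl
  let yE : E := ⟨y, IntermediateField.mem_adjoin_simple_self _ y⟩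
  have hfd := (finiteDimensional_tF K N r hr hrN).1
  obtain ⟨z, hz⟩ := hζN
  obtain ⟨k, hk⟩ := hrN
  have hr0 : 0 < r := Nat.pos_of_ne_zero (NeZero.ne r)
  have hk0 : 0 < k := by
    rcases Nat.eq_zero_or_pos k with rfl | h
    · exact absurd hk (by simpa using NeZero.ne N)
    · exact h
  have hNr : N / r = k := by rw [hk, Nat.mul_div_cancel_left _ hr0]
  have hrk : IsUnit ((r : R) * (k : R)) := by
    have := hN; rw [hk] at this; push_cast at this; exact this
  have hrU : IsUnit (r : R) := isUnit_of_mul_isUnit_left hrk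
  have hkU : IsUnit (k : R) := isUnit_of_mul_isUnit_right hrk
  have hrN' : r ∣ N := ⟨k, hk⟩
  have key := abstract_KIL (R := R) (K := K) (F := FK K N) (E := E) (Ch := ℂ) hπ
    (tF K N r hr hrN') (transcendental_tF K N r hr hrN') (unitDiff_tF N hπ hN r hr hrN')
    m hm ζ hζ f (piInt_tF_of_red_eq N hπ hN r hr hrN' g₁ g₂ y₁ y₂ h₁ h₂ hred hne)
    ((a0 r : ℤ) : R) (isUnit_a0 hr hrU) (N / r) r N (by rw [hNr]; exact hkU) hrU hN
    ⟨z ^ r, by rw [hNr]; exact hz.pow (Nat.pos_of_ne_zero (NeZero.ne N)) hk⟩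
    ⟨z ^ k, hz.pow (Nat.pos_of_ne_zero (NeZero.ne N)) (by rw [hk, mul_comm])⟩
    ⟨z, hz⟩
    (hhAtF_tF_zero r hr hrN' hdiv)
    (by rw [map_intCast]; exact hhAtF_tF_a0 r hr hrN' hdiv)
    (hhAtF_tF_inv_zero r hr hrN' hdiv)
    (fun b hb0 hb => hhAtF_tF r hr hrN' hdiv b hb0 (by rwa [map_intCast] at hb))
    yE (Subtype.ext hy) ?_ ?_
  · obtain ⟨x, hx⟩ := key
    refine ⟨x, ?_⟩
    have h3 : (x : LaurentSeries K) = y := congrArg Subtype.val hx
    have h4 : x ^ m = f := by
      apply Subtype.ext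
      show (x : LaurentSeries K) ^ m = _
      rw [h3, hy]
    rw [h4, hf, div_mul_cancel₀ _ hg₂]
  · exact adjoin_simple_gen_eq_top y
  · intro w hw
    have h5 : IsIntegral K (w : LaurentSeries K) := by
      obtain ⟨p, hp, hp0⟩ := hw
      refine ⟨p, hp, ?_⟩
      have h6 := congrArg E.val hp0
      rw [Polynomial.eval₂_eq_sum_range, map_sum, map_zero] at h6
      rw [Polynomial.eval₂_eq_sum_range, ← h6]
      rfl
    obtain ⟨a, ha⟩ := exists_eq_C_of_isAlgebraic (w : LaurentSeries K) h5.isAlgebraic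
    refine ⟨a, Subtype.ext ?_⟩
    rw [ha]
    show algebraMap K (LaurentSeries K) a = _
    rw [algebraMap_laurentSeries_eq_single]
    rfl

end level

end Fermat.Agent.ESlib
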