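import Mathlib
import Fermat.Agent.ES.C.AKDefs

/-!
# ES library, part M, (M-G) 3: the relation property `HasRelR` and `π`-integrality.

`HasRelR ρ L b t`: every `z` in the subring `L` of the field `F` satisfies
`g(t) z = ∑ G_i(t) b_i` with `g, G_i ∈ R[X]`, `g ≠ 0` modulo `ker ρ`.
It implies that every element of `L` is integral over the Gauss ring `R[t]_(π)` (`PiInt π t`),
and it is stable under `t ↦ 1/t` and under `j ↦ t` when `j t^e = A(t)`.
Port of `S28/FKernel.lean`.
-/

set_option autoImplicit false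

open Polynomial

namespace Fermat.Agent.ESlib

variable {R κ F : Type*} [CommRing R] [Field κ] [Field F] [Algebra R F]

/-- The relation property: every `z ∈ L` satisfies `g(t) z = ∑ G_i(t) b_i` with `g, G_i ∈ R[X]`,
`g ≠ 0` after applying `ρ`. -/
def HasRelR (ρ : R →+* κ) (L : Subring F) {n : ℕ} (bF : Fin n → F) (t : F) : Prop :=
  ∀ z ∈ L, ∃ (g : R[X]) (G : Fin n → R[X]), g.map ρ ≠ 0 ∧
    aeval t g * z = ∑ i, aeval t (G i) * bF i

theorem HasRelR.inv {ρ : R →+* κ} {L : Subring F} {n : ℕ} {bF : Fin n → F} {t : F}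
    (ht : t ≠ 0) (H : HasRelR ρ L bF t) : HasRelR ρ L bF t⁻¹ := by
  intro z hz
  obtain ⟨g, G, hg, hrel⟩ := H z hz
  set m : ℕ := g.natDegree + ∑ i, (G i).natDegree with hm
  have hgm : g.natDegree ≤ m := Nat.le_add_right _ _
  have hGm : ∀ i, (G i).natDegree ≤ m := fun i =>
    (Finset.single_le_sum (f := fun i => (G i).natDegree) (fun _ _ => Nat.zero_le _)
      (Finset.mem_univ i)).trans (Nat.le_add_left _ _)
  have key : ∀ f : R[X], f.natDegree ≤ m → aeval t⁻¹ (f.reflect m) * t ^ m = aeval t f := by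
    intro f hf
    let _ : Invertible t := invertibleOfNonzero ht
    have := eval₂_reflect_mul_pow (algebraMap R F) t m f hf
    rwa [invOf_eq_inv] at this
  refine ⟨g.reflect m, fun i => (G i).reflect m, ?_, ?_⟩
  · rw [← reflect_map]
    exact fun h => hg (reflect_eq_zero_iff.mp h)
  · have htm : t ^ m ≠ 0 := pow_ne_zero _ ht
    apply mul_right_cancel₀ htm
    rw [Finset.sum_mul]
    calc aeval t⁻¹ (g.reflect m) * z * t ^ m = (aeval t⁻¹ (g.reflect m) * t ^ m) * z := by ring
      _ = ∑ i, aeval t (G i) * bF i := by rw [key g hgm, hrel]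
      _ = ∑ i, aeval t⁻¹ ((G i).reflect m) * bF i * t ^ m := by
        refine Finset.sum_congr rfl fun i _ => ?_
        rw [← key (G i) (hGm i)]; ring

/-- the homogenisation `∑_k g_k A^k X^(e (D - k))` of `g` with respect to `A / X^e` -/
noncomputable def hauptSubst {S : Type*} [CommRing S] (A : S[X]) (e D : ℕ) (g : S[X]) : S[X] :=
  ∑ k ∈ Finset.range (D + 1), C (g.coeff k) * (A ^ k * X ^ (e * (D - k)))

theorem hauptSubst_map {S S' : Type*} [CommRing S] [CommRing S'] (f : S →+* S') (A : S[X])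
    (e D : ℕ) (g : S[X]) :
    (hauptSubst A e D g).map f = hauptSubst (A.map f) e D (g.map f) := by
  unfold hauptSubst
  rw [Polynomial.map_sum]
  refine Finset.sum_congr rfl fun k _ => ?_
  simp [Polynomial.map_mul, Polynomial.map_pow, coeff_map]

theorem aeval_hauptSubst {j t : F} {A : R[X]} {e : ℕ} (hrel : j * t ^ e = aeval t A) {D : ℕ}
    {g : R[X]} (hg : g.natDegree ≤ D) :
    aeval t (hauptSubst A e D g) = t ^ (e * D) * aeval j g := by
  unfold hauptSubst
  rw [map_sum, aeval_eq_sum_range' (Nat.lt_succ_of_le hg), Finset.mul_sum]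
  refine Finset.sum_congr rfl fun k hk => ?_
  have hk' : k ≤ D := Nat.lt_succ_iff.mp (Finset.mem_range.mp hk)
  rw [map_mul, map_mul, map_pow, map_pow, aeval_C, aeval_X, ← hrel, Algebra.smul_def]
  have : e * D = e * k + e * (D - k) := by rw [← Nat.mul_add, Nat.add_sub_cancel' hk']
  rw [this, pow_add, mul_pow, ← pow_mul]
  ring

theorem hauptSubst_ne_zero {A : κ[X]} (hA : A.Monic) {e : ℕ} (he : e < A.natDegree) {D : ℕ}
    {g : κ[X]} (hg : g.natDegree ≤ D) (hg0 : g ≠ 0) : hauptSubst A e D g ≠ 0 := by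
  intro h0
  set k₀ := g.natDegree with hk₀
  have hmon : ∀ k, (A ^ k * X ^ (e * (D - k))).Monic := fun k => (hA.pow k).mul (monic_X_pow _)
  have hdeg : ∀ k, (A ^ k * X ^ (e * (D - k))).natDegree = k * A.natDegree + e * (D - k) := by
    intro k
    rw [(hA.pow k).natDegree_mul (monic_X_pow _), hA.natDegree_pow, natDegree_X_pow]
  have hc := congrArg (fun P => P.coeff (k₀ * A.natDegree + e * (D - k₀))) h0
  simp only [hauptSubst, finsetSum_coeff, coeff_C_mul, coeff_zero] at hc
  rw [Finset.sum_eq_single k₀] at hc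
  · rw [← hdeg k₀, (hmon k₀).coeff_natDegree, mul_one] at hc
    exact hg0 (leadingCoeff_eq_zero.mp hc)
  · intro k hk hne
    have hk' : k ≤ D := Nat.lt_succ_iff.mp (Finset.mem_range.mp hk)
    rcases lt_or_gt_of_ne hne with hlt | hgt
    · rw [coeff_eq_zero_of_natDegree_lt (p := A ^ k * X ^ (e * (D - k))), mul_zero]
      rw [hdeg]
      obtain ⟨c, hc'⟩ : ∃ c, k₀ = k + (c + 1) := ⟨k₀ - k - 1, by omega⟩
      obtain ⟨D', hD'⟩ : ∃ D', D = k + (c + 1) + D' := ⟨D - (k + (c + 1)), by omega⟩
      have e1 : D - k = c + 1 + D' := by omega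
      have e2 : D - k₀ = D' := by omega
      rw [e1, e2, hc']
      have : e * (c + 1) < A.natDegree * (c + 1) := Nat.mul_lt_mul_of_pos_right he (Nat.succ_pos c)
      nlinarith
    · rw [coeff_eq_zero_of_natDegree_lt hgt, zero_mul]
  · intro hk
    exact absurd (Finset.mem_range.mpr (Nat.lt_succ_of_le hg)) hk

/-- change of the parameter: `j = A(t) / t^e`, `A` monic of degree `> e` -/
theorem HasRelR.haupt {ρ : R →+* κ} {L : Subring F} {n : ℕ} {bF : Fin n → F} {j t : F}
    {A : R[X]} (hA : A.Monic) {e : ℕ} (he : e < A.natDegree) (hrel : j * t ^ e = aeval t A)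
    (H : HasRelR ρ L bF j) : HasRelR ρ L bF t := by
  intro z hz
  obtain ⟨g, G, hg, hgG⟩ := H z hz
  set D : ℕ := g.natDegree + ∑ i, (G i).natDegree with hD
  have hgD : g.natDegree ≤ D := Nat.le_add_right _ _
  have hGD : ∀ i, (G i).natDegree ≤ D := fun i =>
    (Finset.single_le_sum (f := fun i => (G i).natDegree) (fun _ _ => Nat.zero_le _)
      (Finset.mem_univ i)).trans (Nat.le_add_left _ _)
  refine ⟨hauptSubst A e D g, fun i => hauptSubst A e D (G i), ?_, ?_⟩
  · rw [hauptSubst_map]
    refine hauptSubst_ne_zero (hA.map ρ) ?_ (natDegree_map_le.trans hgD) hg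
    rwa [hA.natDegree_map]
  · rw [aeval_hauptSubst hrel hgD, mul_assoc, hgG, Finset.mul_sum]
    refine Finset.sum_congr rfl fun i _ => ?_
    rw [aeval_hauptSubst hrel (hGD i), mul_assoc]

/-- **`π`-integrality.**  If `L` contains the `b_i` and has the relation property then every element
of `L` is integral over the Gauss ring `R[t]_(π)`: `σ(t) y` stabilises the `R[t]`-module spanned by
the `b_i`. -/
theorem HasRelR.piInt {ρ : R →+* κ} {π : R} (hπ : ρ π = 0) {L : Subring F} {n : ℕ}
    {bF : Fin n → F} (hbL : ∀ i, bF i ∈ L) {t : F} (ht : Transcendental R t)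
    (H : HasRelR ρ L bF t) {y : F} (hy : y ∈ L) : PiInt π t y := by
  classical
  choose g G hg hrel using fun k => H (y * bF k) (L.mul_mem hy (hbL k))
  set σ : R[X] := ∏ k, g k with hσ
  have hσmap : σ.map ρ ≠ 0 := by
    rw [hσ, Polynomial.map_prod]
    exact Finset.prod_ne_zero_iff.mpr fun k _ => hg k
  refine ⟨σ, ?_, ?_⟩
  · rintro ⟨c, hc⟩
    apply hσmap
    rw [hc, Polynomial.map_mul, Polynomial.map_C, hπ, C_0, zero_mul]
  set M : Submodule ↥(Algebra.adjoin R {t}) F := Submodule.span _ (Set.range bF) with hM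
  have hMne : M ≠ ⊥ := by
    intro hbot
    obtain ⟨g₁, G₁, hg₁, hrel₁⟩ := H 1 L.one_mem
    have hb0 : ∀ i, bF i = 0 := fun i => by
      have : bF i ∈ M := Submodule.subset_span ⟨i, rfl⟩
      rwa [hbot, Submodule.mem_bot] at this
    simp only [hb0, mul_zero, Finset.sum_const_zero, mul_one] at hrel₁
    have h3 := (transcendental_iff.mp ht) _ hrel₁
    apply hg₁
    rw [h3, Polynomial.map_zero]
  have hMfg : M.FG := Submodule.fg_span (Set.finite_range bF)
  refine isIntegral_of_smul_mem_submodule M hMne hMfg (aeval t σ * y) ?_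
  intro m hm
  induction hm using Submodule.span_induction with
  | mem x hx =>
    obtain ⟨k, rfl⟩ := hx
    have h1 : (aeval t σ * y) • bF k =
        ∑ i, (⟨aeval t ((∏ k' ∈ Finset.univ.erase k, g k') * G k i),
          aeval_mem_adjoin_singleton _ _⟩ : ↥(Algebra.adjoin R {t})) • bF i := by
      have h2 : σ = (∏ k' ∈ Finset.univ.erase k, g k') * g k := by
        rw [hσ, Finset.prod_erase_mul _ _ (Finset.mem_univ k)]
      calc (aeval t σ * y) • bF k = aeval t σ * (y * bF k) := by
            rw [smul_eq_mul]; ring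
        _ = aeval t (∏ k' ∈ Finset.univ.erase k, g k') * (aeval t (g k) * (y * bF k)) := by
            rw [h2, map_mul]; ring
        _ = _ := by
            rw [hrel k, Finset.mul_sum]
            refine Finset.sum_congr rfl fun i _ => ?_
            rw [Algebra.smul_def]
            show _ = aeval t ((∏ k' ∈ Finset.univ.erase k, g k') * G k i) * bF i
            rw [map_mul]; ring
    rw [h1]
    exact Submodule.sum_mem _ fun i _ => Submodule.smul_mem _ _ (Submodule.subset_span ⟨i, rfl⟩)
  | zero => rw [smul_zero]; exact Submodule.zero_mem _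
  | add x x' _ _ hx hx' => rw [smul_add]; exact Submodule.add_mem _ hx hx'
  | smul a x _ hx =>
    rw [smul_comm]
    exact Submodule.smul_mem _ _ hx

end Fermat.Agent.ESlib
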