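import Fermat.Agent.ES.M.Rel
import Fermat.Agent.ES.M.HasRel
import Fermat.Agent.ES.Dict.Defs

/-!
# ES library, part M, (M-G) 4: the Gauss valuation ring of `F_K(N)` for a DVR `R` with fraction
field `K` of characteristic zero and residue characteristic prime to `N`.

* `redSetup_of_dvr` : a DVR gives a reduction setup;
* `gaussSub R K N : Subring (FK K N)` : the elements of `F_K(N) ⊆ K((q))` of the form `y / s`,
  `y, s ∈ R((q))`, `s ≠ 0` mod `π`;
* `piInt_J1`, `piInt_haupt` : every element of `gaussSub` is integral over the Gauss ring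
  `R[j]_(π)`, resp. `R[t]_(π)` if `j t^e = A(t)`;
* `piInt_div_sub_one` : the hypothesis (Hf) of the abstract KIL.
-/

set_option autoImplicit false
set_option linter.unusedSectionVars false

open ModularCurve Polynomial

namespace Fermat.Agent.ESlib

open Fermat.Agent.S28lib (RedSetup JIndep evY jA jAd jSet ModData)
open Fermat.Agent.S24lib (Dv)

noncomputable section

section dvr

variable {R K : Type*} [CommRing R] [IsDomain R] [IsDiscreteValuationRing R] [Field K]
  [Algebra R K] [IsFractionRing R K]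

theorem redSetup_of_dvr {π : R} (hπ : Irreducible π) :
    RedSetup (algebraMap R K) (IsLocalRing.residue R) π where
  inj := IsFractionRing.injective R K
  scale c := by
    obtain ⟨a, b, hb, rfl⟩ := IsFractionRing.div_surjective (A := R) c
    have hb0 : b ≠ 0 := nonZeroDivisors.ne_zero hb
    obtain ⟨n, u, hu⟩ := IsDiscreteValuationRing.eq_unit_mul_pow_irreducible hb0 hπ
    refine ⟨n, ((u⁻¹ : Rˣ) : R) * a, ?_⟩
    have hπ' : algebraMap R K π ≠ 0 := by
      rw [Ne, map_eq_zero_iff _ (IsFractionRing.injective R K)]; exact hπ.ne_zero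
    have hu' : algebraMap R K ((u⁻¹ : Rˣ) : R) * algebraMap R K (u : R) = 1 := by
      rw [← map_mul, Units.inv_mul, map_one]
    have hu0 : algebraMap R K (u : R) ≠ 0 := right_ne_zero_of_mul_eq_one hu'
    rw [hu, map_mul, map_mul, map_pow, eq_comm, mul_div_assoc', div_eq_iff
      (mul_ne_zero hu0 (pow_ne_zero n hπ'))]
    linear_combination (- algebraMap R K a * algebraMap R K π ^ n) * hu'
  ker x hx := by
    rw [IsLocalRing.residue_eq_zero_iff, hπ.maximalIdeal_eq, Ideal.mem_span_singleton] at hx
    exact hx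
  red_unif := by
    rw [IsLocalRing.residue_eq_zero_iff, hπ.maximalIdeal_eq]
    exact Ideal.mem_span_singleton_self π
  reg c hc := by
    have : algebraMap R K π ≠ 0 := by
      rw [Ne, map_eq_zero_iff _ (IsFractionRing.injective R K)]; exact hπ.ne_zero
    exact (mul_eq_zero.1 hc).resolve_left this

end dvr

section field

variable (K : Type) [Field K] [Algebra ℚ K] (N : ℕ)

theorem FK_le_fullC :
    laurentBaseChange K (modularFunctionFieldFull N) ≤ modularFunctionFieldFullC K N := by
  unfold laurentBaseChange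
  rw [IntermediateField.adjoin_le_iff]
  rintro _ ⟨x, hx, rfl⟩
  exact S28lib.coeffMap_mem_full (algebraMap ℚ K) N hx

variable [NeZero N]

theorem coe_Jgen_jAd (d : Dv N) : ((Jgen K N d : FK K N) : LaurentSeries K) = jAd K d.1 :=
  S28lib.coeffMap_jAd (algebraMap ℚ K) d.1

theorem coe_J1_jA : ((J1 K N : FK K N) : LaurentSeries K) = jA K := by
  rw [J1, coe_Jgen_jAd]; exact qExpand_one_apply _

theorem jAd_mem_FK {d : ℕ} [NeZero d] (hd : d ∣ N) :
    jAd K d ∈ laurentBaseChange K (modularFunctionFieldFull N) := by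
  have := (Jgen K N ⟨d, hd⟩).2
  rwa [coe_Jgen_jAd] at this

theorem coeffMap_int_mem_FK {b : LaurentSeries ℤ} (hb : b ∈ Algebra.adjoin ℤ (jSet ℤ N)) :
    coeffMap (Int.castRingHom K) b ∈ laurentBaseChange K (modularFunctionFieldFull N) := by
  induction hb using Algebra.adjoin_induction with
  | mem x hx =>
    obtain ⟨d, hd0, hd, rfl⟩ := hx
    have := S28lib.coeffMap_jAd (Int.castRingHom K) d
    rw [show qExpand ℤ d (jqModC ℤ) = jAd ℤ d from rfl, this]
    exact jAd_mem_FK K N hd
  | algebraMap a =>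
    rw [eq_intCast, map_intCast]
    exact intCast_mem _ a
  | add x y _ _ hx hy => rw [map_add]; exact add_mem hx hy
  | mul x y _ _ hx hy => rw [map_mul]; exact mul_mem hx hy

end field

section gauss

variable (R K : Type) [CommRing R] [IsDomain R] [IsDiscreteValuationRing R] [Field K]
  [Algebra R K] [IsFractionRing R K] [Algebra ℚ K] (N : ℕ) [NeZero N]

include K in
/-- the modular data of prime level over the residue field -/
theorem nonempty_modData_residue {p : ℕ} [NeZero p] (hp : p.Prime)
    (hpk : (p : IsLocalRing.ResidueField R) ≠ 0) :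
    Nonempty (ModData (IsLocalRing.ResidueField R) p) := by
  obtain ⟨π, hπ⟩ := IsDiscreteValuationRing.exists_irreducible R
  obtain ⟨D⟩ := S28lib.nonempty_modData_rat (S28lib.nonempty_modData_complex hp)
  exact (redSetup_of_dvr (K := K) hπ).nonempty_modData hp hpk (D.map (algebraMap ℚ K))

/-- the `S28` basis: integral, independent modulo `π` -/
theorem exists_basisR (hN : (N : IsLocalRing.ResidueField R) ≠ 0) :
    ∃ b : Fin (dedekindPsi N) → LaurentSeries R,
      (∀ i, coeffMap (algebraMap R K) (b i) ∈ laurentBaseChange K (modularFunctionFieldFull N)) ∧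
      JIndep (IsLocalRing.ResidueField R) (fun i => coeffMap (IsLocalRing.residue R) (b i)) := by
  set κ := IsLocalRing.ResidueField R
  have hN' : (N : AlgebraicClosure κ) ≠ 0 := by
    rw [← map_natCast (algebraMap κ (AlgebraicClosure κ))]
    exact (map_ne_zero_iff _ (algebraMap κ (AlgebraicClosure κ)).injective).2 hN
  obtain ⟨b, hb, hind⟩ := S28lib.exists_JIndep (K := AlgebraicClosure κ) N hN' (fun p hp hpN => by
    have : NeZero p := ⟨hp.ne_zero⟩
    have hpk : (p : κ) ≠ 0 := by
      intro h0
      obtain ⟨c, rfl⟩ := hpN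
      exact hN (by rw [Nat.cast_mul, h0, zero_mul])
    obtain ⟨D⟩ := nonempty_modData_residue R K hp hpk
    exact ⟨D.map (algebraMap κ (AlgebraicClosure κ))⟩)
  refine ⟨fun i => coeffMap (Int.castRingHom R) (b i), fun i => ?_, ?_⟩
  · rw [coeffMap_coeffMap, coeffMap_congr (RingHom.ext_int _ (Int.castRingHom K))]
    exact coeffMap_int_mem_FK K N (hb i)
  · refine (JIndep.map_iff (algebraMap κ (AlgebraicClosure κ)) _).mp ?_
    convert hind using 2 with i
    rw [coeffMap_coeffMap, coeffMap_coeffMap]
    exact coeffMap_congr (RingHom.ext_int _ _) _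

/-- The Gauss valuation ring of `F_K(N)`: the elements `y / s`, `y, s ∈ R((q))`, `s ≠ 0` mod `π`. -/
def gaussSub : Subring (FK K N) :=
  (LamR (algebraMap R K) (IsLocalRing.residue R)).comap
    (algebraMap (FK K N) (LaurentSeries K))

variable {R K N}

theorem mem_gaussSub_iff {x : FK K N} :
    x ∈ gaussSub R K N ↔ (x : LaurentSeries K) ∈ LamR (algebraMap R K) (IsLocalRing.residue R) :=
  Iff.rfl

theorem mem_gaussSub_of_eq_coeffMap {x : FK K N} (y : LaurentSeries R)
    (h : (x : LaurentSeries K) = coeffMap (algebraMap R K) y) : x ∈ gaussSub R K N := by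
  rw [mem_gaussSub_iff, h]; exact coeffMap_mem_LamR y

theorem Jgen_mem_gaussSub (d : Dv N) : Jgen K N d ∈ gaussSub R K N :=
  mem_gaussSub_of_eq_coeffMap (jAd R d.1) (by rw [coe_Jgen_jAd, S28lib.coeffMap_jAd])

theorem inv_mem_gaussSub_of_eq_coeffMap {x : FK K N} (y : LaurentSeries R)
    (h : (x : LaurentSeries K) = coeffMap (algebraMap R K) y)
    (hy : coeffMap (IsLocalRing.residue R) y ≠ 0) : x⁻¹ ∈ gaussSub R K N := by
  rw [mem_gaussSub_iff]
  show ((x : LaurentSeries K))⁻¹ ∈ _
  rw [h]
  exact inv_coeffMap_mem_LamR (IsFractionRing.injective R K) hy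

variable [Algebra R (FK K N)] [IsScalarTower R K (FK K N)]

theorem coe_algebraMap_R (a : R) :
    ((algebraMap R (FK K N) a : FK K N) : LaurentSeries K) = HahnSeries.C (algebraMap R K a) := by
  rw [IsScalarTower.algebraMap_apply R K (FK K N)]
  show algebraMap K (LaurentSeries K) _ = _
  rw [algebraMap_laurentSeries_eq_single, HahnSeries.C_apply]

theorem coe_aeval_J1 (P : R[X]) :
    ((aeval (J1 K N) P : FK K N) : LaurentSeries K) = coeffMap (algebraMap R K) (evR P) := by
  have : ((algebraMap (FK K N) (LaurentSeries K)).comp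
      (aeval (J1 K N) : R[X] →ₐ[R] FK K N).toRingHom) =
      (coeffMap (algebraMap R K)).comp (evY R (jA R)) := by
    apply Polynomial.ringHom_ext
    · intro a
      simp only [RingHom.comp_apply, AlgHom.toRingHom_eq_coe, RingHom.coe_coe, aeval_C,
        S28lib.evY_C, coeffMap_C']
      exact coe_algebraMap_R a
    · simp only [RingHom.comp_apply, AlgHom.toRingHom_eq_coe, RingHom.coe_coe, aeval_X,
        S28lib.evY_X, S28lib.coeffMap_jA]
      exact coe_J1_jA K N
  exact congrArg (fun g => g P) this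

variable (R K N) in
theorem transcendental_R_J1 : Transcendental R (J1 K N) := by
  rw [transcendental_iff]
  intro p hp
  have h1 := coe_aeval_J1 (R := R) (K := K) (N := N) p
  rw [hp, coeffMap_evR] at h1
  have h2 : p.map (algebraMap R K) = 0 :=
    S28lib.evY_jA_injective (K := K) (by rw [← h1, map_zero]; rfl)
  exact Polynomial.map_injective _ (IsFractionRing.injective R K)
    (by rw [h2, Polynomial.map_zero])

variable (R K N) in
/-- the relation property of the Gauss ring with respect to `j` -/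
theorem exists_hasRel_J1 [CharZero K] (hN : (N : IsLocalRing.ResidueField R) ≠ 0) :
    ∃ bF : Fin (dedekindPsi N) → FK K N, (∀ i, bF i ∈ gaussSub R K N) ∧
      HasRelR (IsLocalRing.residue R) (gaussSub R K N) bF (J1 K N) := by
  obtain ⟨π, hπ⟩ := IsDiscreteValuationRing.exists_irreducible R
  obtain ⟨b, hbF, hind⟩ := exists_basisR R K N hN
  refine ⟨fun i => ⟨_, hbF i⟩, fun i => mem_gaussSub_of_eq_coeffMap (b i) rfl, ?_⟩
  intro z hz
  obtain ⟨P, Q, hP, hrel⟩ := exists_rel_of_mem_LamR (redSetup_of_dvr (K := K) hπ)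
    (fun i => FK_le_fullC K N (hbF i)) hind (FK_le_fullC K N z.2) hz
  refine ⟨P, Q, hP, Subtype.ext ?_⟩
  have h1 : ((aeval (J1 K N) P * z : FK K N) : LaurentSeries K) =
      coeffMap (algebraMap R K) (evR P) * (z : LaurentSeries K) := by
    rw [← coe_aeval_J1 (N := N)]; rfl
  have h2 : ((∑ i, aeval (J1 K N) (Q i) * (⟨_, hbF i⟩ : FK K N) : FK K N) : LaurentSeries K) =
      coeffMap (algebraMap R K) (∑ i, evR (Q i) * b i) := by
    rw [map_sum]
    rw [← IntermediateField.algebraMap_apply, map_sum]
    refine Finset.sum_congr rfl fun i _ => ?_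
    rw [map_mul, map_mul, ← coe_aeval_J1 (N := N)]; rfl
  rw [h1, h2, hrel]

/-- every element of the Gauss ring is integral over `R[j]_(π)` -/
theorem piInt_J1 [CharZero K] (hN : (N : IsLocalRing.ResidueField R) ≠ 0) {π : R}
    (hπ : IsLocalRing.residue R π = 0) {x : FK K N} (hx : x ∈ gaussSub R K N) :
    PiInt π (J1 K N) x := by
  obtain ⟨bF, hbL, H⟩ := exists_hasRel_J1 R K N hN
  exact H.piInt hπ hbL (transcendental_R_J1 R K N) hx

/-- a "Hauptmodul" `t` with `j t^e = A(t)` is transcendental -/
theorem transcendental_R_haupt {t : FK K N} (ht0 : t ≠ 0) {A : R[X]} {e : ℕ}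
    (hrel : J1 K N * t ^ e = aeval t A) : Transcendental R t := by
  intro halg
  apply transcendental_R_J1 R K N
  refine IsAlgebraic.of_mul (y := t ^ e) (mem_nonZeroDivisors_of_ne_zero (pow_ne_zero e ht0))
    (halg.pow e) ?_
  rw [mul_comm, hrel]
  exact Algebra.isAlgebraic_adjoin_singleton_iff.mpr halg _ (aeval_mem_adjoin_singleton _ _)

theorem transcendental_K_of_R {t : FK K N} (ht : Transcendental R t) : Transcendental K t :=
  fun h => ht ((IsFractionRing.isAlgebraic_iff R K (FK K N)).mpr h)

/-- every element of the Gauss ring is integral over `R[t]_(π)` if `j t^e = A(t)` -/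
theorem piInt_haupt [CharZero K] (hN : (N : IsLocalRing.ResidueField R) ≠ 0) {π : R}
    (hπ : IsLocalRing.residue R π = 0) {t : FK K N} (ht0 : t ≠ 0) {A : R[X]} (hA : A.Monic)
    {e : ℕ} (he : e < A.natDegree) (hrel : J1 K N * t ^ e = aeval t A)
    {x : FK K N} (hx : x ∈ gaussSub R K N) : PiInt π t x := by
  obtain ⟨bF, hbL, H⟩ := exists_hasRel_J1 R K N hN
  exact (H.haupt hA he hrel).piInt hπ hbL (transcendental_R_haupt ht0 hrel) hx

/-- **(Hf)**: if `f = y₁ / y₂` with `y₁ ≡ y₂ ≢ 0` mod `π` then `(f - 1) / π` lies in the Gauss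
ring. -/
theorem div_sub_one_mem_gaussSub {π : R} (hπ : Irreducible π) {f : FK K N}
    {y₁ y₂ : LaurentSeries R}
    (hf : (f : LaurentSeries K) * coeffMap (algebraMap R K) y₂ = coeffMap (algebraMap R K) y₁)
    (hred : coeffMap (IsLocalRing.residue R) y₁ = coeffMap (IsLocalRing.residue R) y₂)
    (hne : coeffMap (IsLocalRing.residue R) y₂ ≠ 0) :
    (f - 1) / algebraMap R (FK K N) π ∈ gaussSub R K N := by
  have hS := redSetup_of_dvr (K := K) hπ
  obtain ⟨y₃, hy₃⟩ := exists_eq_C_mul_of_coeffMap_eq_zero hS (y := y₁ - y₂)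
    (by rw [map_sub, hred, sub_self])
  rw [mem_gaussSub_iff]
  refine ⟨y₂, y₃, hne, ?_⟩
  have hc : (((f - 1) / algebraMap R (FK K N) π : FK K N) : LaurentSeries K) =
      ((f : LaurentSeries K) - 1) / HahnSeries.C (algebraMap R K π) := by
    rw [← coe_algebraMap_R (N := N)]; rfl
  have h3 := congrArg (coeffMap (algebraMap R K)) hy₃
  rw [map_sub, map_mul, coeffMap_C', ← hf] at h3
  rw [hc, mul_div_assoc', div_eq_iff (redSetup_C_unif_ne_zero hS)]
  linear_combination h3

end gauss

end

end Fermat.Agent.ESlib
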