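import Fermat.Agent.ES.M.Sep
import Fermat.Agent.ES.M.FinDim
import Fermat.Agent.ES.H.Alg

/-!
# ES library, part M: the parameters `t` of the abstract KIL for `F = F_K(N)`

`HauptData R K N`: an element `t ≠ 0` of `F_K(N)` with `j t^e = A(t)`, `A ∈ R[X]` monic of degree
`> e`.  All the hypotheses of `abstract_KIL` concerning only `t` (and `(Hf)`) follow.
Instances: `hauptDataJ` (`t = j`), `hauptData2` (`2 ∣ N`, `t = t₂`), `hauptData3` (`3 ∣ N`,
`t = t₃`).
-/

set_option autoImplicit false
set_option linter.unusedSectionVars false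

open ModularCurve Polynomial

namespace Fermat.Agent.ESlib

noncomputable section

variable (R K : Type) [CommRing R] [IsDomain R] [IsDiscreteValuationRing R] [Field K]
  [Algebra R K] [IsFractionRing R K] [Algebra ℚ K] [CharZero K] (N : ℕ) [NeZero N]
  [Algebra R (FK K N)] [IsScalarTower R K (FK K N)]

/-- a parameter `t` with `j t^e = A(t)` -/
structure HauptData where
  t : FK K N
  ne_zero : t ≠ 0
  A : R[X]
  e : ℕ
  monic : A.Monic
  lt : e < A.natDegree
  rel : J1 K N * t ^ e = aeval t A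

variable {R K N}

namespace HauptData

variable (H : HauptData R K N)

theorem transcendental : Transcendental K H.t :=
  transcendental_K_of_R (transcendental_R_haupt H.ne_zero H.rel)

theorem rel_K : J1 K N * H.t ^ H.e = aeval H.t (H.A.map (algebraMap R K)) := by
  rw [aeval_map_algebraMap]; exact H.rel

theorem finiteDimensional : FiniteDimensional (IntermediateField.adjoin K {H.t}) (FK K N) :=
  finiteDimensional_adjoin_of_rel H.ne_zero H.rel_K

theorem J1_mem : J1 K N ∈ IntermediateField.adjoin K {H.t} :=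
  J1_mem_adjoin_of_rel H.ne_zero H.rel_K

theorem piInt (hN : (N : IsLocalRing.ResidueField R) ≠ 0) {π : R}
    (hπ : IsLocalRing.residue R π = 0) {x : FK K N} (hx : x ∈ gaussSub R K N) : PiInt π H.t x :=
  piInt_haupt hN hπ H.ne_zero H.monic H.lt H.rel hx

theorem unitDiff (hN : (N : IsLocalRing.ResidueField R) ≠ 0) {π : R}
    (hπ : IsLocalRing.residue R π = 0) : UnitDiff K π H.t :=
  unitDiff_haupt hN hπ H.ne_zero H.monic H.lt H.rel

/-- **(Hf)** -/
theorem piInt_div_sub_one (hN : (N : IsLocalRing.ResidueField R) ≠ 0) {π : R}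
    (hπ : Irreducible π) {f : FK K N} {y₁ y₂ : LaurentSeries R}
    (hf : (f : LaurentSeries K) * coeffMap (algebraMap R K) y₂ = coeffMap (algebraMap R K) y₁)
    (hred : coeffMap (IsLocalRing.residue R) y₁ = coeffMap (IsLocalRing.residue R) y₂)
    (hne : coeffMap (IsLocalRing.residue R) y₂ ≠ 0) :
    PiInt π H.t ((f - 1) / algebraMap R (FK K N) π) :=
  H.piInt hN (redSetup_of_dvr (K := K) hπ).red_unif (div_sub_one_mem_gaussSub hπ hf hred hne)

end HauptData

variable (R K N)

/-- `t = j` -/
def hauptDataJ : HauptData R K N where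
  t := J1 K N
  ne_zero := fun h => transcendental_K_J1 K N (h ▸ isAlgebraic_zero)
  A := X
  e := 0
  monic := monic_X
  lt := by rw [natDegree_X]; exact Nat.zero_lt_one
  rel := by rw [pow_zero, mul_one, aeval_X]

/-- `t₂` as an element of `F_K(N)`, `2 ∣ N` -/
def t2F (h : 2 ∣ N) : FK K N :=
  ⟨haupt K 2 24, (FK_eq_adjoin K N).ge (haupt2_mem_of_dvd K two_ne_zero N h)⟩

/-- `t₃` as an element of `F_K(N)`, `3 ∣ N` -/
def t3F (h : 3 ∣ N) : FK K N :=
  ⟨haupt K 3 12, (FK_eq_adjoin K N).ge (haupt3_mem_of_dvd K three_ne_zero N h)⟩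

/-- `t = t₂`, `j t² = (t + 256)³` -/
def hauptData2 (h : 2 ∣ N) : HauptData R K N where
  t := t2F K N h
  ne_zero := fun h0 => haupt2_ne_zero K two_ne_zero (congrArg Subtype.val h0)
  A := (X + C 256) ^ 3
  e := 2
  monic := (monic_X_add_C 256).pow 3
  lt := by rw [natDegree_pow, natDegree_X_add_C]; norm_num
  rel := by
    rw [map_pow, map_add, aeval_X, aeval_C, map_ofNat]
    apply Subtype.ext
    show ((J1 K N : FK K N) : LaurentSeries K) * haupt K 2 24 ^ 2 = (haupt K 2 24 + 256) ^ 3
    rw [coe_J1_jA]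
    exact haupt2_rel_one K

/-- `t = t₃`, `j t³ = (t + 27) (t + 243)³` -/
def hauptData3 (h : 3 ∣ N) : HauptData R K N where
  t := t3F K N h
  ne_zero := fun h0 => haupt3_ne_zero K three_ne_zero (congrArg Subtype.val h0)
  A := (X + C 27) * (X + C 243) ^ 3
  e := 3
  monic := (monic_X_add_C 27).mul ((monic_X_add_C 243).pow 3)
  lt := by
    rw [(monic_X_add_C 27).natDegree_mul ((monic_X_add_C 243).pow 3), natDegree_pow,
      natDegree_X_add_C, natDegree_X_add_C]
    norm_num
  rel := by
    rw [map_mul, map_pow, map_add, map_add, aeval_X, aeval_C, aeval_C, map_ofNat, map_ofNat]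
    apply Subtype.ext
    show ((J1 K N : FK K N) : LaurentSeries K) * haupt K 3 12 ^ 3 =
      (haupt K 3 12 + 27) * (haupt K 3 12 + 243) ^ 3
    rw [coe_J1_jA]
    exact haupt3_rel_one K

end

end Fermat.Agent.ESlib
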