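import Mathlib

/-!
# ES, modular side, (M-h)-abstract: orders of `w`, `w - b` from the order of `j`

`w, jc : LaurentSeries k` (`k` a field of characteristic zero) satisfy the relation of the
Hauptmodul of level `2` : `jc * w ^ 2 = (w + 256) ^ 3`, resp. of level `3` :
`jc * w ^ 3 = (w + 27) * (w + 243) ^ 3`.  We compute the order of `w` (at the cusps) and of
`w - b` (at the interior points) from the order of `jc`, resp. `jc - j_b`.
-/

set_option autoImplicit false

namespace Fermat.Agent.ESlib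

open HahnSeries

variable {k : Type*} [Field k]

theorem hauptOrd_nonneg_C (c : k) : 0 ≤ (C c : LaurentSeries k).orderTop := orderTop_single_le

theorem hauptOrd_nonneg_add {x y : LaurentSeries k} (hx : 0 ≤ x.orderTop) (hy : 0 ≤ y.orderTop) :
    0 ≤ (x + y).orderTop := le_trans (le_min hx hy) min_orderTop_le_orderTop_add

theorem hauptOrd_nonneg_mul {x y : LaurentSeries k} (hx : 0 ≤ x.orderTop) (hy : 0 ≤ y.orderTop) :
    0 ≤ (x * y).orderTop := by
  rw [orderTop_mul]
  exact add_nonneg hx hy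

/-- `c + u z` is a unit of `k[[τ]]` -/
theorem hauptOrd_unit {c : k} (hc : c ≠ 0) {u z : LaurentSeries k} (hu : 0 < u.orderTop)
    (hz : 0 ≤ z.orderTop) : (C c + u * z).orderTop = 0 := by
  have h0 : (C c : LaurentSeries k).orderTop = 0 := orderTop_single hc
  have h1 : 0 < (u * z).orderTop := by
    rw [orderTop_mul]
    exact add_pos_of_pos_of_nonneg hu hz
  rw [orderTop_add_eq_left (by rw [h0]; exact h1), h0]

theorem hauptOrd_of_orderTop {x : LaurentSeries k} (h : x.orderTop = 0) :
    x ≠ 0 ∧ x.order = 0 := by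
  have hx : x ≠ 0 := by
    rintro rfl
    simp at h
  refine ⟨hx, ?_⟩
  have := order_eq_orderTop_of_ne_zero hx
  rw [h] at this
  exact_mod_cast this

theorem hauptOrd_orderTop_pow {x : LaurentSeries k} (h : x.orderTop = 0) (n : ℕ) :
    (x ^ n).orderTop = 0 := by
  induction n with
  | zero => simp
  | succ n ih => rw [pow_succ, orderTop_mul, ih, h, add_zero]

/-- the basic computation -/
theorem hauptOrd_main {A V u G : LaurentSeries k} (μ : ℕ) (h : A * V = u ^ μ * G)
    (hV : V.orderTop = 0) (hG : G.orderTop = 0) (hu : u ≠ 0) : A.order = μ * u.order := by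
  obtain ⟨hV0, hV1⟩ := hauptOrd_of_orderTop hV
  obtain ⟨hG0, hG1⟩ := hauptOrd_of_orderTop hG
  have hA : A ≠ 0 := by
    rintro rfl
    rw [zero_mul] at h
    exact mul_ne_zero (pow_ne_zero _ hu) hG0 h.symm
  have := congrArg order h
  rw [order_mul hA hV0, order_mul (pow_ne_zero _ hu) hG0, order_pow, hV1, hG1] at this
  simpa using this

/-- Taylor expansion: the order of `A` is the multiplicity times the order of `u` -/
theorem hauptOrd_taylor {A V u z : LaurentSeries k} {c1 c2 c3 : k}
    (h : A * V = u * (C c1 + u * (C c2 + u * (C c3 + u * z))))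
    (hV : V.orderTop = 0) (hu : 0 < u.order) (hz : 0 ≤ z.orderTop) :
    (c1 ≠ 0 → A.order = u.order) ∧ (c1 = 0 → c2 ≠ 0 → A.order = 2 * u.order) ∧
      (c1 = 0 → c2 = 0 → c3 ≠ 0 → A.order = 3 * u.order) := by
  have hu0 : u ≠ 0 := by
    rintro rfl
    simp at hu
  have hut : 0 < u.orderTop := zero_lt_orderTop_of_order hu
  have n3 : 0 ≤ (C c3 + u * z).orderTop :=
    hauptOrd_nonneg_add (hauptOrd_nonneg_C _) (hauptOrd_nonneg_mul hut.le hz)
  have n2 : 0 ≤ (C c2 + u * (C c3 + u * z)).orderTop :=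
    hauptOrd_nonneg_add (hauptOrd_nonneg_C _) (hauptOrd_nonneg_mul hut.le n3)
  refine ⟨fun h1 => ?_, fun h1 h2 => ?_, fun h1 h2 h3 => ?_⟩
  · have := hauptOrd_main 1 (by rw [h, pow_one]) hV (hauptOrd_unit h1 hut n2) hu0
    simpa using this
  · subst h1
    have := hauptOrd_main 2 (by rw [h, map_zero]; ring) hV (hauptOrd_unit h2 hut n3) hu0
    simpa using this
  · subst h1 h2
    have := hauptOrd_main 3 (by rw [h, map_zero]; ring) hV (hauptOrd_unit h3 hut hz) hu0
    simpa using this

theorem hauptOrd_add_of_neg {w : LaurentSeries k} (hw : w.order < 0) (c : k) :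
    w + C c ≠ 0 ∧ (w + C c).order = w.order := by
  have hw0 : w ≠ 0 := by
    rintro rfl
    simp at hw
  have h1 : w.orderTop < (C c : LaurentSeries k).orderTop := by
    refine lt_of_lt_of_le ?_ (hauptOrd_nonneg_C c)
    rw [← order_eq_orderTop_of_ne_zero hw0]
    exact_mod_cast hw
  have h2 := orderTop_add_eq_left h1
  have h3 : w + C c ≠ 0 := by
    intro h
    rw [h, orderTop_zero] at h2
    exact hw0 (orderTop_eq_top.1 h2.symm)
  refine ⟨h3, ?_⟩
  rw [← order_eq_orderTop_of_ne_zero h3, ← order_eq_orderTop_of_ne_zero hw0] at h2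
  exact_mod_cast h2

theorem hauptOrd_add_of_pos {w : LaurentSeries k} (hw : 0 < w.order) {c : k} (hc : c ≠ 0) :
    (w + C c).orderTop = 0 := by
  have := hauptOrd_unit hc (zero_lt_orderTop_of_order hw) (z := 1) (by simp)
  rwa [mul_one, add_comm] at this

theorem hauptOrd_ofNat (n : ℕ) [n.AtLeastTwo] :
    (OfNat.ofNat n : LaurentSeries k) = C (OfNat.ofNat n : k) := (map_ofNat C n).symm

/-- `jc` behaves like `j` along a chart centred at an interior point: `j - c` has order `3`, `2`, `1`
at a zero according to `c = 0`, `c = 1728`, or neither. -/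
def IsJChart (jc : LaurentSeries k) : Prop :=
  ∀ c : k, 0 < (jc - C c).order → (c = 0 → (jc - C c).order = 3) ∧
    (c = 1728 → (jc - C c).order = 2) ∧ (c ≠ 0 → c ≠ 1728 → (jc - C c).order = 1)

section Two

variable {w jc : LaurentSeries k}

/-- level `2`, cusp `∞` -/
theorem haupt2_order_of_neg (h : jc * w ^ 2 = (w + 256) ^ 3) (hw : w.order < 0) :
    w.order = jc.order := by
  have hw0 : w ≠ 0 := by
    rintro rfl
    simp at hw
  rw [hauptOrd_ofNat] at h
  obtain ⟨h1, h2⟩ := hauptOrd_add_of_neg hw (256 : k)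
  have hj : jc ≠ 0 := by
    rintro rfl
    rw [zero_mul] at h
    exact pow_ne_zero _ h1 h.symm
  have := congrArg order h
  rw [order_mul hj (pow_ne_zero _ hw0), order_pow, order_pow, h2] at this
  simp only [nsmul_eq_mul, Nat.cast_ofNat] at this
  linarith

variable [CharZero k]

/-- level `2`, cusp `0` -/
theorem haupt2_order_of_pos (h : jc * w ^ 2 = (w + 256) ^ 3) (hw : 0 < w.order) :
    2 * w.order = -jc.order := by
  have hw0 : w ≠ 0 := by
    rintro rfl
    simp at hw
  rw [hauptOrd_ofNat] at h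
  obtain ⟨h1, h2⟩ := hauptOrd_of_orderTop (hauptOrd_add_of_pos hw (c := (256 : k)) (by norm_num))
  have hj : jc ≠ 0 := by
    rintro rfl
    rw [zero_mul] at h
    exact pow_ne_zero _ h1 h.symm
  have := congrArg order h
  rw [order_mul hj (pow_ne_zero _ hw0), order_pow, order_pow, h2] at this
  simp only [nsmul_eq_mul, Nat.cast_ofNat] at this
  linarith

/-- level `2`, interior points: `ord (j - j_b) = mult_b * ord (t - b)` -/
theorem haupt2_order_rel (h : jc * w ^ 2 = (w + 256) ^ 3) {b : k} (hb : b ≠ 0)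
    (hw : 0 < (w - C b).order) :
    (b = -256 → (jc - C ((b + 256) ^ 3 / b ^ 2)).order = 3 * (w - C b).order) ∧
    (b = 512 → (jc - C ((b + 256) ^ 3 / b ^ 2)).order = 2 * (w - C b).order) ∧
    (b ≠ -256 → b ≠ 512 → (jc - C ((b + 256) ^ 3 / b ^ 2)).order = (w - C b).order) := by
  set u := w - C b with hu
  set jb : k := (b + 256) ^ 3 / b ^ 2 with hjb
  have hwu : w = C b + u * 1 := by rw [hu]; ring
  have hw1 : w.orderTop = 0 := by
    rw [hwu]
    exact hauptOrd_unit hb (zero_lt_orderTop_of_order hw) (by simp)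
  have hV : (w ^ 2).orderTop = 0 := hauptOrd_orderTop_pow hw1 2
  have hJ : jb * b ^ 2 = (b + 256) ^ 3 := by
    rw [hjb]; field_simp
  have hJ' : (C jb : LaurentSeries k) * C b ^ 2 = (C b + C 256) ^ 3 := by
    rw [← map_pow, ← map_mul, hJ, map_pow, map_add]
  rw [hauptOrd_ofNat] at h
  have key : (jc - C jb) * w ^ 2 = u * (C (3 * (b + 256) ^ 2 - 2 * jb * b) +
      u * (C (3 * (b + 256) - jb) + u * (C 1 + u * 0))) := by
    have e3 : (C (3 : k) : LaurentSeries k) = 3 := map_ofNat C 3
    have e2 : (C (2 : k) : LaurentSeries k) = 2 := map_ofNat C 2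
    simp only [map_sub, map_mul, map_pow, map_add, map_one, e3, e2]
    have hw' : w = C b + u := by rw [hu]; ring
    rw [hw'] at h ⊢
    linear_combination h - hJ'
  obtain ⟨t1, t2, t3⟩ := hauptOrd_taylor key hV hw (by simp)
  have hc1 : (3 * (b + 256) ^ 2 - 2 * jb * b) * b = (b + 256) ^ 2 * (b - 512) := by
    linear_combination (-2 : k) * hJ
  refine ⟨fun h1 => ?_, fun h2 => ?_, fun h1 h2 => ?_⟩
  · have hjb0 : jb = 0 := by
      have : jb * b ^ 2 = 0 := by rw [hJ, h1]; norm_num
      exact (mul_eq_zero.1 this).resolve_right (pow_ne_zero _ hb)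
    exact t3 (by rw [hjb0, h1]; norm_num) (by rw [hjb0, h1]; norm_num) one_ne_zero
  · have hjb0 : jb = 1728 := by
      have : jb * b ^ 2 = 1728 * b ^ 2 := by rw [hJ, h2]; norm_num
      exact mul_right_cancel₀ (pow_ne_zero _ hb) this
    exact t2 (by rw [hjb0, h2]; norm_num) (by rw [hjb0, h2]; norm_num)
  · apply t1
    intro h0
    rw [h0, zero_mul] at hc1
    rcases mul_eq_zero.1 hc1.symm with h | h
    · exact h1 (by linear_combination (pow_eq_zero_iff two_ne_zero).1 h)
    · exact h2 (by linear_combination h)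

/-- level `2`, interior points, final form: `jc` is `j` along a chart at an interior point. -/
theorem haupt2_order_sub (h : jc * w ^ 2 = (w + 256) ^ 3) {b : k} (hb : b ≠ 0)
    (hw : 0 < (w - C b).order) (hj : IsJChart jc) :
    (b = -64 → (w - C b).order = 2) ∧ (b ≠ -64 → (w - C b).order = 1) := by
  obtain ⟨r1, r2, r3⟩ := haupt2_order_rel h hb hw
  set jb : k := (b + 256) ^ 3 / b ^ 2 with hjb
  have hJ : jb * b ^ 2 = (b + 256) ^ 3 := by
    rw [hjb]; field_simp
  have hpos : 0 < (jc - C jb).order := by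
    by_cases h1 : b = -256
    · rw [r1 h1]; linarith
    by_cases h2 : b = 512
    · rw [r2 h2]; linarith
    rw [r3 h1 h2]; exact hw
  obtain ⟨j0, j1, j2⟩ := hj jb hpos
  have h1728 : (jb - 1728) * b ^ 2 = (b + 64) * (b - 512) ^ 2 := by
    linear_combination hJ
  have e0 : jb = 0 ↔ b = -256 := by
    constructor
    · intro h0
      rw [h0, zero_mul] at hJ
      linear_combination (pow_eq_zero_iff three_ne_zero).1 hJ.symm
    · intro h1
      have : jb * b ^ 2 = 0 := by rw [hJ, h1]; norm_num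
      exact (mul_eq_zero.1 this).resolve_right (pow_ne_zero _ hb)
  have e1 : jb = 1728 ↔ b = -64 ∨ b = 512 := by
    constructor
    · intro h0
      rw [h0, sub_self, zero_mul] at h1728
      rcases mul_eq_zero.1 h1728.symm with h | h
      · exact Or.inl (by linear_combination h)
      · exact Or.inr (by linear_combination (pow_eq_zero_iff two_ne_zero).1 h)
    · intro h1
      have : (jb - 1728) * b ^ 2 = 0 := by
        rw [h1728]
        rcases h1 with h1 | h1 <;> rw [h1] <;> norm_num
      have := (mul_eq_zero.1 this).resolve_right (pow_ne_zero _ hb)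
      linear_combination this
  refine ⟨fun h3 => ?_, fun h3 => ?_⟩
  · rw [← r3 (by rw [h3]; norm_num) (by rw [h3]; norm_num)]
    exact j1 (e1.2 (Or.inl h3))
  · by_cases h1 : b = -256
    · have a1 := r1 h1
      have a2 := j0 (e0.2 h1)
      linarith
    by_cases h2 : b = 512
    · have a1 := r2 h2
      have a2 := j1 (e1.2 (Or.inr h2))
      linarith
    rw [← r3 h1 h2]
    exact j2 (fun h0 => h1 (e0.1 h0)) (fun h0 => (e1.1 h0).elim h3 h2)

end Two

section Three

variable {w jc : LaurentSeries k}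

/-- level `3`, cusp `∞` -/
theorem haupt3_order_of_neg (h : jc * w ^ 3 = (w + 27) * (w + 243) ^ 3) (hw : w.order < 0) :
    w.order = jc.order := by
  have hw0 : w ≠ 0 := by
    rintro rfl
    simp at hw
  rw [hauptOrd_ofNat, hauptOrd_ofNat] at h
  obtain ⟨h1, h2⟩ := hauptOrd_add_of_neg hw (27 : k)
  obtain ⟨h3, h4⟩ := hauptOrd_add_of_neg hw (243 : k)
  have hj : jc ≠ 0 := by
    rintro rfl
    rw [zero_mul] at h
    exact mul_ne_zero h1 (pow_ne_zero _ h3) h.symm
  have := congrArg order h
  rw [order_mul hj (pow_ne_zero _ hw0), order_mul h1 (pow_ne_zero _ h3), order_pow, order_pow,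
    h2, h4] at this
  simp only [nsmul_eq_mul, Nat.cast_ofNat] at this
  linarith

variable [CharZero k]

/-- level `3`, cusp `0` -/
theorem haupt3_order_of_pos (h : jc * w ^ 3 = (w + 27) * (w + 243) ^ 3) (hw : 0 < w.order) :
    3 * w.order = -jc.order := by
  have hw0 : w ≠ 0 := by
    rintro rfl
    simp at hw
  rw [hauptOrd_ofNat, hauptOrd_ofNat] at h
  obtain ⟨h1, h2⟩ := hauptOrd_of_orderTop (hauptOrd_add_of_pos hw (c := (27 : k)) (by norm_num))
  obtain ⟨h3, h4⟩ := hauptOrd_of_orderTop (hauptOrd_add_of_pos hw (c := (243 : k)) (by norm_num))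
  have hj : jc ≠ 0 := by
    rintro rfl
    rw [zero_mul] at h
    exact mul_ne_zero h1 (pow_ne_zero _ h3) h.symm
  have := congrArg order h
  rw [order_mul hj (pow_ne_zero _ hw0), order_mul h1 (pow_ne_zero _ h3), order_pow, order_pow,
    h2, h4] at this
  simp only [nsmul_eq_mul, Nat.cast_ofNat] at this
  linarith

/-- level `3`, interior points: `ord (j - j_b) = mult_b * ord (t - b)` -/
theorem haupt3_order_rel (h : jc * w ^ 3 = (w + 27) * (w + 243) ^ 3) {b : k} (hb : b ≠ 0)
    (hw : 0 < (w - C b).order) :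
    (b = -243 → (jc - C ((b + 27) * (b + 243) ^ 3 / b ^ 3)).order = 3 * (w - C b).order) ∧
    (b ^ 2 - 486 * b - 19683 = 0 →
      (jc - C ((b + 27) * (b + 243) ^ 3 / b ^ 3)).order = 2 * (w - C b).order) ∧
    (b ≠ -243 → b ^ 2 - 486 * b - 19683 ≠ 0 →
      (jc - C ((b + 27) * (b + 243) ^ 3 / b ^ 3)).order = (w - C b).order) := by
  set u := w - C b with hu
  set jb : k := (b + 27) * (b + 243) ^ 3 / b ^ 3 with hjb
  have hwu : w = C b + u * 1 := by rw [hu]; ring
  have hw1 : w.orderTop = 0 := by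
    rw [hwu]
    exact hauptOrd_unit hb (zero_lt_orderTop_of_order hw) (by simp)
  have hV : (w ^ 3).orderTop = 0 := hauptOrd_orderTop_pow hw1 3
  have hJ : jb * b ^ 3 = (b + 27) * (b + 243) ^ 3 := by
    rw [hjb]; field_simp
  have hJ' : (C jb : LaurentSeries k) * C b ^ 3 = (C b + C 27) * (C b + C 243) ^ 3 := by
    rw [← map_pow, ← map_mul, hJ, map_mul, map_pow, map_add, map_add]
  rw [hauptOrd_ofNat, hauptOrd_ofNat] at h
  have key : (jc - C jb) * w ^ 3 =
      u * (C ((b + 243) ^ 3 + 3 * (b + 27) * (b + 243) ^ 2 - 3 * jb * b ^ 2) +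
      u * (C (3 * (b + 243) ^ 2 + 3 * (b + 27) * (b + 243) - 3 * jb * b) +
      u * (C (3 * (b + 243) + (b + 27) - jb) + u * 1))) := by
    have e3 : (C (3 : k) : LaurentSeries k) = 3 := map_ofNat C 3
    simp only [map_sub, map_mul, map_pow, map_add, e3]
    have hw' : w = C b + u := by rw [hu]; ring
    rw [hw'] at h ⊢
    linear_combination h - hJ'
  obtain ⟨t1, t2, t3⟩ := hauptOrd_taylor key hV hw (by simp)
  have hc1 : ((b + 243) ^ 3 + 3 * (b + 27) * (b + 243) ^ 2 - 3 * jb * b ^ 2) * b =
      (b + 243) ^ 2 * (b ^ 2 - 486 * b - 19683) := by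
    linear_combination (-3 : k) * hJ
  have h1728 : (jb - 1728) * b ^ 3 = (b ^ 2 - 486 * b - 19683) ^ 2 := by
    linear_combination hJ
  refine ⟨fun h1 => ?_, fun h2 => ?_, fun h1 h2 => ?_⟩
  · have hjb0 : jb = 0 := by
      have : jb * b ^ 3 = 0 := by rw [hJ, h1]; norm_num
      exact (mul_eq_zero.1 this).resolve_right (pow_ne_zero _ hb)
    exact t3 (by rw [hjb0, h1]; norm_num) (by rw [hjb0, h1]; norm_num)
      (by rw [hjb0, h1]; norm_num)
  · have hjb0 : jb = 1728 := by
      have : (jb - 1728) * b ^ 3 = 0 := by rw [h1728, h2]; norm_num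
      have := (mul_eq_zero.1 this).resolve_right (pow_ne_zero _ hb)
      linear_combination this
    refine t2 ?_ ?_
    · have : ((b + 243) ^ 3 + 3 * (b + 27) * (b + 243) ^ 2 - 3 * jb * b ^ 2) * b = 0 := by
        rw [hc1, h2, mul_zero]
      exact (mul_eq_zero.1 this).resolve_right hb
    · rw [hjb0]
      have : 3 * (b + 243) ^ 2 + 3 * (b + 27) * (b + 243) - 3 * 1728 * b = 314928 := by
        linear_combination (6 : k) * h2
      rw [this]
      norm_num
  · apply t1
    intro h0
    rw [h0, zero_mul] at hc1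
    rcases mul_eq_zero.1 hc1.symm with h | h
    · exact h1 (by linear_combination (pow_eq_zero_iff two_ne_zero).1 h)
    · exact h2 h

/-- level `3`, interior points, final form: `jc` is `j` along a chart at an interior point. -/
theorem haupt3_order_sub (h : jc * w ^ 3 = (w + 27) * (w + 243) ^ 3) {b : k} (hb : b ≠ 0)
    (hw : 0 < (w - C b).order) (hj : IsJChart jc) :
    (b = -27 → (w - C b).order = 3) ∧ (b ≠ -27 → (w - C b).order = 1) := by
  obtain ⟨r1, r2, r3⟩ := haupt3_order_rel h hb hw
  set jb : k := (b + 27) * (b + 243) ^ 3 / b ^ 3 with hjb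
  have hJ : jb * b ^ 3 = (b + 27) * (b + 243) ^ 3 := by
    rw [hjb]; field_simp
  have hpos : 0 < (jc - C jb).order := by
    by_cases h1 : b = -243
    · rw [r1 h1]; linarith
    by_cases h2 : b ^ 2 - 486 * b - 19683 = 0
    · rw [r2 h2]; linarith
    rw [r3 h1 h2]; exact hw
  obtain ⟨j0, j1, j2⟩ := hj jb hpos
  have h1728 : (jb - 1728) * b ^ 3 = (b ^ 2 - 486 * b - 19683) ^ 2 := by
    linear_combination hJ
  have e0 : jb = 0 ↔ b = -27 ∨ b = -243 := by
    constructor
    · intro h0
      rw [h0, zero_mul] at hJ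
      rcases mul_eq_zero.1 hJ.symm with h | h
      · exact Or.inl (by linear_combination h)
      · exact Or.inr (by linear_combination (pow_eq_zero_iff three_ne_zero).1 h)
    · intro h1
      have : jb * b ^ 3 = 0 := by
        rw [hJ]
        rcases h1 with h1 | h1 <;> rw [h1] <;> norm_num
      exact (mul_eq_zero.1 this).resolve_right (pow_ne_zero _ hb)
  have e1 : jb = 1728 ↔ b ^ 2 - 486 * b - 19683 = 0 := by
    constructor
    · intro h0
      rw [h0, sub_self, zero_mul] at h1728
      exact (pow_eq_zero_iff two_ne_zero).1 h1728.symm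
    · intro h1
      have : (jb - 1728) * b ^ 3 = 0 := by rw [h1728, h1]; norm_num
      have := (mul_eq_zero.1 this).resolve_right (pow_ne_zero _ hb)
      linear_combination this
  refine ⟨fun h3 => ?_, fun h3 => ?_⟩
  · rw [← r3 (by rw [h3]; norm_num) (by rw [h3]; norm_num)]
    exact j0 (e0.2 (Or.inl h3))
  · by_cases h1 : b = -243
    · have a1 := r1 h1
      have a2 := j0 (e0.2 (Or.inr h1))
      linarith
    by_cases h2 : b ^ 2 - 486 * b - 19683 = 0
    · have a1 := r2 h2
      have a2 := j1 (e1.2 h2)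
      linarith
    rw [← r3 h1 h2]
    exact j2 (fun h0 => (e0.1 h0).elim h3 h1) (fun h0 => h2 (e1.1 h0))

end Three

end Fermat.Agent.ESlib
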