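import Mathlib
import Fermat.Agent.ES.M.HauptOrd

/-!
# ES, (M-h)-abstract, complements to `HauptOrd.lean`: zero / pole / finite dichotomy

`w, jc ∈ Ch((τ))` with `jc * w ^ 2 = (w + 256) ^ 3` (level 2) or
`jc * w ^ 3 = (w + 27) * (w + 243) ^ 3` (level 3).
-/

set_option autoImplicit false
set_option linter.unusedSectionVars false

namespace Fermat.Agent.ESlib

section laurent

variable {Ch : Type*} [Field Ch]

theorem order_add_C_of_neg {x : LaurentSeries Ch} (hx : x.order < 0) (c : Ch) :
    (x + HahnSeries.C c).order = x.order := by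
  have hx0 : x ≠ 0 := by
    rintro rfl
    simp at hx
  have hc : (x + HahnSeries.C c).coeff x.order ≠ 0 := by
    rw [HahnSeries.coeff_add, HahnSeries.C_apply, HahnSeries.coeff_single_of_ne hx.ne, add_zero]
    exact (HahnSeries.coeff_order_eq_zero).not.2 hx0
  have hne : x + HahnSeries.C c ≠ 0 := by
    intro h
    rw [h] at hc
    simp at hc
  apply le_antisymm (HahnSeries.order_le_of_coeff_ne_zero hc)
  have := HahnSeries.min_order_le_order_add hne
  rwa [HahnSeries.order_C, min_eq_left hx.le] at this

theorem order_add_C_of_pos {x : LaurentSeries Ch} (hx : 0 < x.order) {c : Ch} (hc : c ≠ 0) :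
    (x + HahnSeries.C c).order = 0 := by
  have hc' : (x + HahnSeries.C c).coeff 0 ≠ 0 := by
    rw [HahnSeries.coeff_add, HahnSeries.coeff_eq_zero_of_lt_order hx, zero_add,
      HahnSeries.C_apply, HahnSeries.coeff_single_same]
    exact hc
  have hne : x + HahnSeries.C c ≠ 0 := by
    intro h
    rw [h] at hc'
    simp at hc'
  apply le_antisymm (HahnSeries.order_le_of_coeff_ne_zero hc')
  have := HahnSeries.min_order_le_order_add hne
  rwa [HahnSeries.order_C, min_eq_right hx.le] at this

theorem ne_zero_of_order_ne_zero {x : LaurentSeries Ch} (hx : x.order ≠ 0) : x ≠ 0 := by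
  rintro rfl
  simp at hx

theorem ofNat_eq_C (n : ℕ) [n.AtLeastTwo] :
    (OfNat.ofNat n : LaurentSeries Ch) = HahnSeries.C (OfNat.ofNat n : Ch) :=
  (map_ofNat (HahnSeries.C : Ch →+* LaurentSeries Ch) n).symm

variable [CharZero Ch] {w jc : LaurentSeries Ch}

theorem laurent_ofNat_ne_zero (n : ℕ) [n.AtLeastTwo] : (OfNat.ofNat n : LaurentSeries Ch) ≠ 0 := by
  rw [ofNat_eq_C]
  intro h
  have h2 : (OfNat.ofNat n : Ch) = 0 := HahnSeries.C_injective (by rw [h, map_zero])
  exact OfNat.ofNat_ne_zero n h2

theorem order_eq_zero_of_order_sub_pos {b : Ch} (hb : b ≠ 0)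
    (hw : 0 < (w - HahnSeries.C b).order) : w.order = 0 := by
  have := order_add_C_of_pos hw hb
  rwa [sub_add_cancel] at this

theorem order_add_C_nonneg {x : LaurentSeries Ch} (hx : x.order = 0) (c : Ch) :
    0 ≤ (x + HahnSeries.C c).order := by
  by_cases h : x + HahnSeries.C c = 0
  · rw [h, HahnSeries.order_zero]
  · have := HahnSeries.min_order_le_order_add h
    rwa [hx, HahnSeries.order_C, min_self] at this

/-- level 2: at a pole of `j` the Hauptmodul has a zero or a pole -/
theorem haupt2_order_ne_zero (hrel : jc * w ^ 2 = (w + 256) ^ 3) (hj : jc.order < 0) :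
    w.order ≠ 0 := by
  intro hw
  have hj0 : jc ≠ 0 := ne_zero_of_order_ne_zero hj.ne
  have hw0 : w ≠ 0 := by
    rintro rfl
    have h : (256 : LaurentSeries Ch) ^ 3 = 0 := by simpa using hrel.symm
    exact pow_ne_zero 3 (laurent_ofNat_ne_zero 256) h
  have h1 : 0 ≤ (w + 256).order := by rw [ofNat_eq_C]; exact order_add_C_nonneg hw _
  have := congrArg HahnSeries.order hrel
  rw [HahnSeries.order_mul hj0 (pow_ne_zero 2 hw0), HahnSeries.order_pow, HahnSeries.order_pow,
    hw] at this
  simp only [nsmul_eq_mul] at this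
  push_cast at this
  linarith

/-- level 3: at a pole of `j` the Hauptmodul has a zero or a pole -/
theorem haupt3_order_ne_zero (hrel : jc * w ^ 3 = (w + 27) * (w + 243) ^ 3) (hj : jc.order < 0) :
    w.order ≠ 0 := by
  intro hw
  have hj0 : jc ≠ 0 := ne_zero_of_order_ne_zero hj.ne
  have hw0 : w ≠ 0 := by
    rintro rfl
    have h : (27 : LaurentSeries Ch) * 243 ^ 3 = 0 := by simpa using hrel.symm
    exact mul_ne_zero (laurent_ofNat_ne_zero 27) (pow_ne_zero 3 (laurent_ofNat_ne_zero 243)) h
  have h1 : 0 ≤ (w + 27).order := by rw [ofNat_eq_C]; exact order_add_C_nonneg hw _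
  have h2 : 0 ≤ (w + 243).order := by rw [ofNat_eq_C]; exact order_add_C_nonneg hw _
  have hne : (w + 27) * (w + 243) ^ 3 ≠ 0 := by
    rw [← hrel]; exact mul_ne_zero hj0 (pow_ne_zero 3 hw0)
  have h10 : w + 27 ≠ 0 := left_ne_zero_of_mul hne
  have h20 : (w + 243) ^ 3 ≠ 0 := right_ne_zero_of_mul hne
  have := congrArg HahnSeries.order hrel
  rw [HahnSeries.order_mul hj0 (pow_ne_zero 3 hw0), HahnSeries.order_mul h10 h20,
    HahnSeries.order_pow, HahnSeries.order_pow, hw] at this
  simp only [nsmul_eq_mul] at this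
  push_cast at this
  linarith

/-- level 2: where `j` is finite the Hauptmodul is finite and nonzero -/
theorem haupt2_order_eq_zero (hrel : jc * w ^ 2 = (w + 256) ^ 3) (hj : 0 ≤ jc.order) :
    w.order = 0 := by
  rcases lt_trichotomy w.order 0 with h | h | h
  · have := haupt2_order_of_neg hrel h
    omega
  · exact h
  · have := haupt2_order_of_pos hrel h
    omega

/-- level 3: where `j` is finite the Hauptmodul is finite and nonzero -/
theorem haupt3_order_eq_zero (hrel : jc * w ^ 3 = (w + 27) * (w + 243) ^ 3) (hj : 0 ≤ jc.order) :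
    w.order = 0 := by
  rcases lt_trichotomy w.order 0 with h | h | h
  · have := haupt3_order_of_neg hrel h
    omega
  · exact h
  · have := haupt3_order_of_pos hrel h
    omega

end laurent

end Fermat.Agent.ESlib
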