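import Fermat.Agent.ES.Dict.Avatar
import Fermat.Agent.ES.C.AKDefs
import Fermat.Agent.ES.K.PlaceExist
import Fermat.Agent.ES.M.EmbClass
import Fermat.Agent.ES.M.ExtendAlg

/-!
# ES, modular side (M-h): the hypotheses `HhAtF` of the abstract KIL

* `IsFullFamily` : a family of `ψ(N)` chart embeddings with the same value at `j`
  (`embInt Kb N τ₀`, `embCusp Kb N`);
* `IsFullFamily.exists_eq` **(MH2)** : every embedding of `FK K N` into the algebraic closure of
  `ℂ((τ))` with the right value at `j` belongs to the family;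
* `IsFullFamily.hhAtF` **(MH3)** : the general criterion for `HhAtF`.
-/

set_option autoImplicit false
set_option linter.unusedSectionVars false
set_option linter.style.haveILetI false

open UpperHalfPlane hiding I
open ModularForm MatrixGroups Filter Topology ModularCurve Complex AlgebraicCurve IntermediateField
open CongruenceSubgroup Polynomial
open scoped Manifold Real
open Fermat.Agent.S24lib

namespace Fermat.Agent.ESlib

/-- the algebraic closure of `ℂ((τ))` -/
abbrev OmC : Type := AlgebraicClosure (LaurentSeries ℂ)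

theorem algebraMap_OmC {K : Type} [Field K] [Algebra K ℂ] (a : K) :
    algebraMap K OmC a = algebraMap (LaurentSeries ℂ) OmC (algebraMap K (LaurentSeries ℂ) a) := rfl

theorem algebraMap_laurentC {K : Type} [Field K] [Algebra K ℂ] (a : K) :
    algebraMap K (LaurentSeries ℂ) a = HahnSeries.C (algebraMap K ℂ a) := by
  rw [HahnSeries.algebraMap_apply', PowerSeries.algebraMap_apply, HahnSeries.ofPowerSeries_C]

theorem isScalarTower_OmC {K K' : Type} [Field K] [Field K'] [Algebra K K'] [Algebra K ℂ]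
    [Algebra K' ℂ] [IsScalarTower K K' ℂ] :
    @IsScalarTower K K' OmC Algebra.toSMul Algebra.toSMul Algebra.toSMul :=
  IsScalarTower.of_algebraMap_eq (fun a => by
    rw [algebraMap_OmC, algebraMap_OmC, algebraMap_laurentC, algebraMap_laurentC,
      ← IsScalarTower.algebraMap_apply])

/-- an embedding into `ℂ((τ))`, seen in the algebraic closure -/
noncomputable def toOm {K F : Type} [Field K] [Algebra K ℂ] [Field F] [Algebra K F]
    (e : F →ₐ[K] LaurentSeries ℂ) : F →ₐ[K] OmC :=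
  { (algebraMap (LaurentSeries ℂ) OmC).comp e.toRingHom with
    commutes' := fun a => by
      show algebraMap (LaurentSeries ℂ) OmC (e (algebraMap K F a)) = _
      rw [AlgHom.commutes, algebraMap_OmC] }

theorem toOm_apply {K F : Type} [Field K] [Algebra K ℂ] [Field F] [Algebra K F]
    (e : F →ₐ[K] LaurentSeries ℂ) (f : F) : toOm e f = algebraMap (LaurentSeries ℂ) OmC (e f) := rfl

theorem toOm_injective {K F : Type} [Field K] [Algebra K ℂ] [Field F] [Algebra K F] :
    Function.Injective (toOm : (F →ₐ[K] LaurentSeries ℂ) → (F →ₐ[K] OmC)) := by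
  intro e e' h
  ext1 f
  apply (algebraMap (LaurentSeries ℂ) OmC).injective
  exact DFunLike.congr_fun h f

section family

variable {K : Type} [Field K] [Algebra ℚ K] [IsAlgClosed K] [CharZero K] [Algebra K ℂ]
  [IsScalarTower ℚ K ℂ]

variable (N : ℕ) [NeZero N]

variable (K) in
/-- a full family of chart embeddings -/
structure IsFullFamily (emb : SL(2, ℤ) ⧸ Gamma0 N → FK K N →ₐ[K] LaurentSeries ℂ) : Prop where
  inj : Function.Injective emb
  agree : ∀ x y, emb x (J1 K N) = emb y (J1 K N)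
  chart : ∀ x, ∃ (c : ℂ → ℍ) (hc : IsChart N c), emb x = chartEmb K hc

theorem isFullFamily_embInt (τ₀ : ℍ) : IsFullFamily K N (embInt K N τ₀) where
  inj := embInt_injective N τ₀
  agree x y := by
    show chartEmb K _ _ = chartEmb K _ _
    rw [chartEmb_cInt_J1, chartEmb_cInt_J1]
  chart x := ⟨_, _, rfl⟩

theorem isFullFamily_embCusp : IsFullFamily K N (embCusp K N) where
  inj := embCusp_injective N
  agree x y := by
    show chartEmb K _ _ = chartEmb K _ _
    rw [chartEmb_cCusp_J1, chartEmb_cCusp_J1]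
  chart x := ⟨_, _, rfl⟩

variable {N}

/-- **(MH2)** -/
theorem IsFullFamily.exists_eq {emb : SL(2, ℤ) ⧸ Gamma0 N → FK K N →ₐ[K] LaurentSeries ℂ}
    (h : IsFullFamily K N emb) (x₀ : SL(2, ℤ) ⧸ Gamma0 N) (σ : FK K N →ₐ[K] OmC)
    (hσ : σ (J1 K N) = algebraMap (LaurentSeries ℂ) OmC (emb x₀ (J1 K N))) :
    ∃ x, ∀ f, σ f = algebraMap (LaurentSeries ℂ) OmC (emb x f) := by
  haveI := finiteDimensional_J1 (K := K) N
  obtain ⟨x, hx⟩ := exists_eq_emb_of_card (K := K) (J1 K N) (fun x => toOm (emb x))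
    (fun x y hxy => h.inj (toOm_injective hxy))
    (by rw [finrank_J1, S20lib.card_quot_Gamma0])
    (algebraMap (LaurentSeries ℂ) OmC (emb x₀ (J1 K N)))
    (fun x => by rw [toOm_apply, h.agree x x₀]) σ hσ
  exact ⟨x, fun f => by rw [hx, toOm_apply]⟩

theorem IsFullFamily.dvd_order {emb : SL(2, ℤ) ⧸ Gamma0 N → FK K N →ₐ[K] LaurentSeries ℂ}
    (h : IsFullFamily K N emb) (x : SL(2, ℤ) ⧸ Gamma0 N) {f : FK K N} {m : ℤ}
    (hm : ∀ v : Place K (FK K N), m ∣ v.ord f) : m ∣ (emb x f).order := by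
  obtain ⟨c, hc, hx⟩ := h.chart x
  rw [hx]
  exact dvd_order_chartEmb hc hm

end family

section criterion

variable {K₀ : Type} [Field K₀] [Algebra ℚ K₀] [Algebra K₀ Kb] [IsScalarTower ℚ K₀ Kb]
  [Algebra K₀ ℂ] [IsScalarTower K₀ Kb ℂ]

variable {N : ℕ} [NeZero N]

variable (K₀ N) in
/-- base change of functions from `K₀` to `ℚ̄` -/
noncomputable abbrev bcb : FK K₀ N →+* FK Kb N := bc K₀ Kb (modularFunctionFieldFull N)

theorem bcb_J1 : bcb K₀ N (J1 K₀ N) = J1 Kb N :=
  Subtype.ext (coeffMap_coeffEmb_algebraMap K₀ Kb _)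

/-- the restriction to `FK K₀ N` of an embedding of `FK Kb N` -/
noncomputable def resEmb {Ω : Type} [Field Ω] [Algebra K₀ Ω] [Algebra Kb Ω]
    (hΩ : ∀ a : K₀, algebraMap K₀ Ω a = algebraMap Kb Ω (algebraMap K₀ Kb a))
    (e : FK Kb N →ₐ[Kb] Ω) : FK K₀ N →ₐ[K₀] Ω :=
  { e.toRingHom.comp (bcb K₀ N) with
    commutes' := fun a => by
      show e (bcb K₀ N (algebraMap K₀ _ a)) = _
      rw [bc_algebraMap, AlgHom.commutes, hΩ] }

/-- **(MH3)** the general criterion for `HhAtF`. -/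
theorem IsFullFamily.hhAtF [Algebra.IsAlgebraic K₀ Kb]
    {emb : SL(2, ℤ) ⧸ Gamma0 N → FK Kb N →ₐ[Kb] LaurentSeries ℂ}
    (h : IsFullFamily Kb N emb) (x₀ : SL(2, ℤ) ⧸ Gamma0 N) (T f : FK K₀ N) (A B : K₀[X])
    (hA : aeval T A ≠ 0) (hrel : J1 K₀ N * aeval T A = aeval T B) (m : ℕ)
    (hdiv : ∀ v : Place Kb (FK Kb N), (m : ℤ) ∣ v.ord (bcb K₀ N f)) (b : ℂ) (M : ℕ)
    (hM : (emb x₀ (bcb K₀ N T) - HahnSeries.C b).order = (M : ℤ)) : HhAtF K₀ ℂ T f m b M := by
  refine ⟨emb x₀ (bcb K₀ N T), hM, fun σ hσ => ?_⟩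
  haveI : @IsScalarTower K₀ Kb OmC Algebra.toSMul Algebra.toSMul Algebra.toSMul :=
    isScalarTower_OmC
  obtain ⟨σ', hσ'⟩ := exists_extend_algHom K₀ Kb (modularFunctionFieldFull N) σ
  have hΩ : ∀ a : K₀, algebraMap K₀ OmC a = algebraMap Kb OmC (algebraMap K₀ Kb a) := fun a =>
    IsScalarTower.algebraMap_apply K₀ Kb OmC a
  let ρ : FK K₀ N →ₐ[K₀] OmC := resEmb hΩ (toOm (emb x₀))
  have hρ : ∀ g, ρ g = algebraMap (LaurentSeries ℂ) OmC (emb x₀ (bcb K₀ N g)) := fun g => rfl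
  have hT : σ T = ρ T := by rw [hσ, hρ]
  have hJ : σ (J1 K₀ N) = ρ (J1 K₀ N) := by
    have h1 : σ (J1 K₀ N) * σ (aeval T A) = σ (aeval T B) := by rw [← map_mul, hrel]
    have h2 : ρ (J1 K₀ N) * ρ (aeval T A) = ρ (aeval T B) := by rw [← map_mul, hrel]
    have h3 : σ (aeval T A) = ρ (aeval T A) := by
      rw [← Polynomial.aeval_algHom_apply, ← Polynomial.aeval_algHom_apply, hT]
    have h4 : σ (aeval T B) = ρ (aeval T B) := by
      rw [← Polynomial.aeval_algHom_apply, ← Polynomial.aeval_algHom_apply, hT]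
    have h5 : ρ (aeval T A) ≠ 0 := (map_ne_zero ρ.toRingHom).2 hA
    rw [h3, h4, ← h2] at h1
    exact mul_right_cancel₀ h5 h1
  obtain ⟨x, hx⟩ := h.exists_eq x₀ σ' (by
    rw [← bcb_J1 (K₀ := K₀), hσ', hJ, hρ])
  refine ⟨fun y => ⟨emb x (bcb K₀ N y), by rw [← hx, hσ']⟩, emb x (bcb K₀ N f), ?_, ?_⟩
  · rw [← hx, hσ']
  · exact h.dvd_order x hdiv

end criterion

end Fermat.Agent.ESlib
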