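import Fermat.Agent.ES.M.HhPoint

/-!
# ES, modular side (M-h): the four hypotheses `HhAtF` of the abstract KIL for the Hauptmoduln

`hhAtF_haupt2`, `hhAtF_haupt3` : for `T ∈ FK K₀ N` satisfying the relation of the Hauptmodul of level
`r = 2, 3` (`r ∣ N`) and `f` whose divisor over `ℚ̄` is divisible by `m`:
`HhAtF` at `T = 0` (index `N / r`), at `T = a₀` (index `r`), at `T⁻¹ = 0` (index `N`) and at all the
other points (index `1`).
-/

set_option autoImplicit false
set_option linter.unusedSectionVars false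
set_option linter.style.haveILetI false

open UpperHalfPlane hiding I
open ModularForm MatrixGroups Filter Topology ModularCurve Complex AlgebraicCurve IntermediateField
open CongruenceSubgroup
open scoped Manifold Real
open Fermat.Agent.S24lib

namespace Fermat.Agent.ESlib

theorem order_inv_laurentC (y : LaurentSeries ℂ) : (y⁻¹).order = -y.order := by
  by_cases hy0 : y = 0
  · simp [hy0]
  have h1 : (y * y⁻¹).order = y.order + (y⁻¹).order :=
    HahnSeries.order_mul hy0 (inv_ne_zero hy0)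
  rw [mul_inv_cancel₀ hy0, HahnSeries.order_one] at h1
  omega

/-- a function `T` with `J * A(T) = B(T)`, `J` non constant, `A`, `B` without common zero, is not
constant -/
theorem transcendental_of_rel {F : Type*} [Field F] [Algebra ℂ F] {J T : F}
    (hJ : Transcendental ℂ J) (A B : Polynomial ℂ)
    (hrel : J * Polynomial.aeval T A = Polynomial.aeval T B)
    (hAB : ∀ c : ℂ, A.eval c = 0 → B.eval c ≠ 0) : Transcendental ℂ T := by
  apply Fermat.Agent.S24RH.transcendental_of_not_mem_range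
  rintro ⟨c, rfl⟩
  rw [Polynomial.aeval_algebraMap_apply, Polynomial.aeval_algebraMap_apply,
    Polynomial.coe_aeval_eq_eval] at hrel
  by_cases hA : A.eval c = 0
  · rw [hA, map_zero, mul_zero] at hrel
    exact hAB c hA ((map_eq_zero (algebraMap ℂ F)).1 hrel.symm)
  · apply hJ
    have : J = algebraMap ℂ F (B.eval c / A.eval c) := by
      rw [map_div₀, eq_div_iff ((map_ne_zero (algebraMap ℂ F)).2 hA), hrel]
    rw [this]
    exact isAlgebraic_algebraMap _

section orders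

variable {N : ℕ} [NeZero N]

theorem order_embCusp_J1 (x : SL(2, ℤ) ⧸ Gamma0 N) :
    (embCusp Kb N x (J1 Kb N)).order = -(N : ℤ) := by
  have h := order_chartEmb_cCusp_J1_inv (K := Kb) N (x.out)⁻¹
  rw [map_inv₀, order_inv_laurentC] at h
  show (chartEmb Kb _ _).order = _
  omega

theorem embInt_J1_sub (τ₀ : ℍ) (x : SL(2, ℤ) ⧸ Gamma0 N) :
    embInt Kb N τ₀ x (J1 Kb N) - HahnSeries.C (jfun τ₀) =
      HahnSeries.ofPowerSeries ℤ ℂ (taylor (jgerm τ₀) - PowerSeries.C (jfun τ₀)) := by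
  rw [map_sub, HahnSeries.ofPowerSeries_C]
  congr 1
  exact chartEmb_cInt_J1 N _ τ₀

theorem order_embInt_J1_sub (τ₀ : ℍ) (x : SL(2, ℤ) ⧸ Gamma0 N) :
    0 < (embInt Kb N τ₀ x (J1 Kb N) - HahnSeries.C (jfun τ₀)).order ∧
    (jfun τ₀ = 0 → (embInt Kb N τ₀ x (J1 Kb N) - HahnSeries.C (jfun τ₀)).order = 3) ∧
    (jfun τ₀ = 1728 → (embInt Kb N τ₀ x (J1 Kb N) - HahnSeries.C (jfun τ₀)).order = 2) ∧
    (jfun τ₀ ≠ 0 → jfun τ₀ ≠ 1728 →
      (embInt Kb N τ₀ x (J1 Kb N) - HahnSeries.C (jfun τ₀)).order = 1) := by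
  rw [embInt_J1_sub]
  have h0 : jfun τ₀ = 0 → (HahnSeries.ofPowerSeries ℤ ℂ
      (taylor (jgerm τ₀) - PowerSeries.C (jfun τ₀))).order = 3 := fun h =>
    order_ofPowerSeries_eq (order_jgerm_of_zero τ₀ h)
  have h1 : jfun τ₀ = 1728 → (HahnSeries.ofPowerSeries ℤ ℂ
      (taylor (jgerm τ₀) - PowerSeries.C (jfun τ₀))).order = 2 := fun h =>
    order_ofPowerSeries_eq (order_jgerm_of_1728 τ₀ h)
  have h2 : jfun τ₀ ≠ 0 → jfun τ₀ ≠ 1728 → (HahnSeries.ofPowerSeries ℤ ℂ
      (taylor (jgerm τ₀) - PowerSeries.C (jfun τ₀))).order = 1 := fun h h' =>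
    order_ofPowerSeries_eq (order_jgerm_generic τ₀ h h')
  refine ⟨?_, h0, h1, h2⟩
  by_cases c0 : jfun τ₀ = 0
  · rw [h0 c0]; norm_num
  by_cases c1 : jfun τ₀ = 1728
  · rw [h1 c1]; norm_num
  rw [h2 c0 c1]; norm_num

theorem order_embInt_J1_nonneg (τ₀ : ℍ) (x : SL(2, ℤ) ⧸ Gamma0 N) :
    0 ≤ (embInt Kb N τ₀ x (J1 Kb N)).order := by
  have h := (order_embInt_J1_sub τ₀ x).1
  by_cases c0 : jfun τ₀ = 0
  · rw [c0, map_zero, sub_zero] at h
    exact h.le
  · have := order_add_C_of_pos h c0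
    rw [sub_add_cancel] at this
    exact this.ge

theorem isJChart_embInt_J1 (τ₀ : ℍ) (x : SL(2, ℤ) ⧸ Gamma0 N) :
    IsJChart (embInt Kb N τ₀ x (J1 Kb N)) := by
  intro c hc
  obtain ⟨o1, o2, o3, o4⟩ := order_embInt_J1_sub (N := N) τ₀ x
  have hcj : c = jfun τ₀ := by
    by_contra hne
    have h1 := order_add_C_of_pos o1 (c := jfun τ₀ - c) (sub_ne_zero.2 (Ne.symm hne))
    have h2 : embInt Kb N τ₀ x (J1 Kb N) - HahnSeries.C (jfun τ₀) + HahnSeries.C (jfun τ₀ - c) =
        embInt Kb N τ₀ x (J1 Kb N) - HahnSeries.C c := by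
      rw [map_sub]; ring
    rw [h2] at h1
    omega
  rw [hcj]
  exact ⟨o2, o3, o4⟩

end orders

section final

variable {K₀ : Type} [Field K₀] [Algebra ℚ K₀] [Algebra K₀ Kb] [IsScalarTower ℚ K₀ Kb]
  [Algebra K₀ ℂ] [IsScalarTower K₀ Kb ℂ] [Algebra.IsAlgebraic K₀ Kb]

variable {N : ℕ} [NeZero N]

/-- **(M-h), level 2.** -/
theorem hhAtF_haupt2 (hN : 2 ∣ N) (T f : FK K₀ N)
    (hrel : J1 K₀ N * T ^ 2 = (T + 256) ^ 3) (m : ℕ)
    (hdiv : ∀ v : Place Kb (FK Kb N), (m : ℤ) ∣ v.ord (bcb K₀ N f)) :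
    HhAtF K₀ ℂ T f m 0 (N / 2) ∧ HhAtF K₀ ℂ T f m (-64) 2 ∧ HhAtF K₀ ℂ T⁻¹ f m 0 N ∧
      ∀ b : ℂ, b ≠ 0 → b ≠ -64 → HhAtF K₀ ℂ T f m b 1 := by
  haveI : CharZero K₀ := algebraRat.charZero K₀
  haveI : CharZero (FK K₀ N) := charZero_of_injective_algebraMap (algebraMap K₀ (FK K₀ N)).injective
  have hT0 : T ≠ 0 := by
    rintro rfl
    norm_num at hrel
  -- the relation over `ℚ̄`, over `ℂ`, and along the charts
  have hrelb : J1 Kb N * (bcb K₀ N T) ^ 2 = (bcb K₀ N T + 256) ^ 3 := by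
    have := congrArg (bcb K₀ N) hrel
    rwa [map_mul, map_pow, map_pow, map_add, map_ofNat, bcb_J1] at this
  have hrelC : J1 ℂ N * (bcC N (bcb K₀ N T)) ^ 2 = (bcC N (bcb K₀ N T) + 256) ^ 3 := by
    have := congrArg (bcC N) hrelb
    rwa [map_mul, map_pow, map_pow, map_add, map_ofNat, bcC_J1] at this
  have hrele : ∀ e : FK Kb N →ₐ[Kb] LaurentSeries ℂ,
      e (J1 Kb N) * (e (bcb K₀ N T)) ^ 2 = (e (bcb K₀ N T) + 256) ^ 3 := by
    intro e
    have := congrArg e hrelb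
    rwa [map_mul, map_pow, map_pow, map_add, map_ofNat] at this
  have htr : Transcendental ℂ (bcC N (bcb K₀ N T)) := by
    refine transcendental_of_rel (transcendental_J1 (K := ℂ) N) (Polynomial.X ^ 2)
      ((Polynomial.X + 256) ^ 3) (by
        rw [map_pow, Polynomial.aeval_X, map_pow, map_add, Polynomial.aeval_X, map_ofNat]
        exact hrelC) ?_
    intro c hc
    have hc0 : c = 0 := by simpa using hc
    rw [hc0]
    norm_num
  have hA : Polynomial.aeval T (Polynomial.X ^ 2 : Polynomial K₀) ≠ 0 := by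
    rw [map_pow, Polynomial.aeval_X]
    exact pow_ne_zero 2 hT0
  have hAB : J1 K₀ N * Polynomial.aeval T (Polynomial.X ^ 2 : Polynomial K₀) =
      Polynomial.aeval T ((Polynomial.X + 256) ^ 3 : Polynomial K₀) := by
    rw [map_pow, Polynomial.aeval_X, map_pow, map_add, Polynomial.aeval_X, map_ofNat]
    exact hrel
  have hNpos : (0 : ℤ) < N := by exact_mod_cast Nat.pos_of_ne_zero (NeZero.ne N)
  -- no zero or pole along interior charts, no other value along cusp charts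
  have hint : ∀ τ₀ x, (embInt Kb N τ₀ x (bcb K₀ N T)).order = 0 := fun τ₀ x =>
    haupt2_order_eq_zero (hrele _) (order_embInt_J1_nonneg τ₀ x)
  have hcusp : ∀ x, (embCusp Kb N x (bcb K₀ N T)).order ≠ 0 := fun x =>
    haupt2_order_ne_zero (hrele _) (by rw [order_embCusp_J1]; omega)
  have hpt : ∀ b : ℂ, b ≠ 0 → ∃ τ₀ x, 0 < (embInt Kb N τ₀ x (bcb K₀ N T) - HahnSeries.C b).order := by
    intro b hb
    rcases exists_chart_order_sub_pos _ htr b with ⟨x, h⟩ | h
    · exact absurd (order_eq_zero_of_order_sub_pos hb h) (hcusp x)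
    · exact h
  refine ⟨?_, ?_, ?_, ?_⟩
  · rcases exists_chart_order_sub_pos _ htr 0 with ⟨x, h⟩ | ⟨τ₀, x, h⟩
    · refine (isFullFamily_embCusp N).hhAtF x T f _ _ hA hAB m hdiv 0 (N / 2) ?_
      rw [map_zero, sub_zero] at h ⊢
      have h1 := haupt2_order_of_pos (hrele _) h
      rw [order_embCusp_J1] at h1
      have h2 : ((N / 2 : ℕ) : ℤ) = (N : ℤ) / 2 := by push_cast; rfl
      have h3 : (2 : ℤ) ∣ N := by exact_mod_cast hN
      rw [h2]
      omega
    · rw [map_zero, sub_zero, hint] at h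
      exact absurd h (lt_irrefl _)
  · obtain ⟨τ₀, x, h⟩ := hpt (-64) (by norm_num)
    refine (isFullFamily_embInt N τ₀).hhAtF x T f _ _ hA hAB m hdiv (-64) 2 ?_
    exact (haupt2_order_sub (hrele _) (by norm_num) h (isJChart_embInt_J1 τ₀ x)).1 rfl
  · have hA' : Polynomial.aeval T⁻¹ (Polynomial.X : Polynomial K₀) ≠ 0 := by
      rw [Polynomial.aeval_X]
      exact inv_ne_zero hT0
    have hAB' : J1 K₀ N * Polynomial.aeval T⁻¹ (Polynomial.X : Polynomial K₀) =
        Polynomial.aeval T⁻¹ ((1 + 256 * Polynomial.X) ^ 3 : Polynomial K₀) := by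
      have : J1 K₀ N * T⁻¹ = (1 + 256 * T⁻¹) ^ 3 := by
        have h1 : (1 + 256 * T⁻¹) = (T + 256) * T⁻¹ := by
          field_simp
        rw [h1, mul_pow, ← hrel]
        field_simp
      rw [Polynomial.aeval_X, map_pow, map_add, map_one, map_mul, Polynomial.aeval_X, map_ofNat]
      exact this
    rcases exists_chart_order_neg _ htr with ⟨x, h⟩ | ⟨τ₀, x, h⟩
    · refine (isFullFamily_embCusp N).hhAtF x T⁻¹ f _ _ hA' hAB' m hdiv 0 N ?_
      rw [map_zero, sub_zero, map_inv₀, map_inv₀, order_inv_laurentC,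
        haupt2_order_of_neg (hrele _) h, order_embCusp_J1, neg_neg]
    · rw [hint] at h
      exact absurd h (lt_irrefl _)
  · intro b hb hb'
    obtain ⟨τ₀, x, h⟩ := hpt b hb
    refine (isFullFamily_embInt N τ₀).hhAtF x T f _ _ hA hAB m hdiv b 1 ?_
    exact_mod_cast (haupt2_order_sub (hrele _) hb h (isJChart_embInt_J1 τ₀ x)).2 hb'

/-- **(M-h), level 3.** -/
theorem hhAtF_haupt3 (hN : 3 ∣ N) (T f : FK K₀ N)
    (hrel : J1 K₀ N * T ^ 3 = (T + 27) * (T + 243) ^ 3) (m : ℕ)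
    (hdiv : ∀ v : Place Kb (FK Kb N), (m : ℤ) ∣ v.ord (bcb K₀ N f)) :
    HhAtF K₀ ℂ T f m 0 (N / 3) ∧ HhAtF K₀ ℂ T f m (-27) 3 ∧ HhAtF K₀ ℂ T⁻¹ f m 0 N ∧
      ∀ b : ℂ, b ≠ 0 → b ≠ -27 → HhAtF K₀ ℂ T f m b 1 := by
  haveI : CharZero K₀ := algebraRat.charZero K₀
  haveI : CharZero (FK K₀ N) := charZero_of_injective_algebraMap (algebraMap K₀ (FK K₀ N)).injective
  have hT0 : T ≠ 0 := by
    rintro rfl
    norm_num at hrel
  -- the relation over `ℚ̄`, over `ℂ`, and along the charts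
  have hrelb : J1 Kb N * (bcb K₀ N T) ^ 3 = (bcb K₀ N T + 27) * (bcb K₀ N T + 243) ^ 3 := by
    have := congrArg (bcb K₀ N) hrel
    rwa [map_mul, map_mul, map_pow, map_pow, map_add, map_add, map_ofNat, map_ofNat, bcb_J1] at this
  have hrelC : J1 ℂ N * (bcC N (bcb K₀ N T)) ^ 3 =
      (bcC N (bcb K₀ N T) + 27) * (bcC N (bcb K₀ N T) + 243) ^ 3 := by
    have := congrArg (bcC N) hrelb
    rwa [map_mul, map_mul, map_pow, map_pow, map_add, map_add, map_ofNat, map_ofNat, bcC_J1] at this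
  have hrele : ∀ e : FK Kb N →ₐ[Kb] LaurentSeries ℂ,
      e (J1 Kb N) * (e (bcb K₀ N T)) ^ 3 = (e (bcb K₀ N T) + 27) * (e (bcb K₀ N T) + 243) ^ 3 := by
    intro e
    have := congrArg e hrelb
    rwa [map_mul, map_mul, map_pow, map_pow, map_add, map_add, map_ofNat, map_ofNat] at this
  have htr : Transcendental ℂ (bcC N (bcb K₀ N T)) := by
    refine transcendental_of_rel (transcendental_J1 (K := ℂ) N) (Polynomial.X ^ 3)
      ((Polynomial.X + 27) * (Polynomial.X + 243) ^ 3) (by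
        rw [map_pow, Polynomial.aeval_X, map_mul, map_pow, map_add, map_add, Polynomial.aeval_X,
          map_ofNat, map_ofNat]
        exact hrelC) ?_
    intro c hc
    have hc0 : c = 0 := by simpa using hc
    rw [hc0]
    norm_num
  have hA : Polynomial.aeval T (Polynomial.X ^ 3 : Polynomial K₀) ≠ 0 := by
    rw [map_pow, Polynomial.aeval_X]
    exact pow_ne_zero 3 hT0
  have hAB : J1 K₀ N * Polynomial.aeval T (Polynomial.X ^ 3 : Polynomial K₀) =
      Polynomial.aeval T ((Polynomial.X + 27) * (Polynomial.X + 243) ^ 3 : Polynomial K₀) := by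
    rw [map_pow, Polynomial.aeval_X, map_mul, map_pow, map_add, map_add, Polynomial.aeval_X,
      map_ofNat, map_ofNat]
    exact hrel
  have hNpos : (0 : ℤ) < N := by exact_mod_cast Nat.pos_of_ne_zero (NeZero.ne N)
  -- no zero or pole along interior charts, no other value along cusp charts
  have hint : ∀ τ₀ x, (embInt Kb N τ₀ x (bcb K₀ N T)).order = 0 := fun τ₀ x =>
    haupt3_order_eq_zero (hrele _) (order_embInt_J1_nonneg τ₀ x)
  have hcusp : ∀ x, (embCusp Kb N x (bcb K₀ N T)).order ≠ 0 := fun x =>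
    haupt3_order_ne_zero (hrele _) (by rw [order_embCusp_J1]; omega)
  have hpt : ∀ b : ℂ, b ≠ 0 → ∃ τ₀ x, 0 < (embInt Kb N τ₀ x (bcb K₀ N T) - HahnSeries.C b).order := by
    intro b hb
    rcases exists_chart_order_sub_pos _ htr b with ⟨x, h⟩ | h
    · exact absurd (order_eq_zero_of_order_sub_pos hb h) (hcusp x)
    · exact h
  refine ⟨?_, ?_, ?_, ?_⟩
  · rcases exists_chart_order_sub_pos _ htr 0 with ⟨x, h⟩ | ⟨τ₀, x, h⟩
    · refine (isFullFamily_embCusp N).hhAtF x T f _ _ hA hAB m hdiv 0 (N / 3) ?_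
      rw [map_zero, sub_zero] at h ⊢
      have h1 := haupt3_order_of_pos (hrele _) h
      rw [order_embCusp_J1] at h1
      have h2 : ((N / 3 : ℕ) : ℤ) = (N : ℤ) / 3 := by push_cast; rfl
      have h3 : (3 : ℤ) ∣ N := by exact_mod_cast hN
      rw [h2]
      omega
    · rw [map_zero, sub_zero, hint] at h
      exact absurd h (lt_irrefl _)
  · obtain ⟨τ₀, x, h⟩ := hpt (-27) (by norm_num)
    refine (isFullFamily_embInt N τ₀).hhAtF x T f _ _ hA hAB m hdiv (-27) 3 ?_
    exact (haupt3_order_sub (hrele _) (by norm_num) h (isJChart_embInt_J1 τ₀ x)).1 rfl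
  · have hA' : Polynomial.aeval T⁻¹ (Polynomial.X : Polynomial K₀) ≠ 0 := by
      rw [Polynomial.aeval_X]
      exact inv_ne_zero hT0
    have hAB' : J1 K₀ N * Polynomial.aeval T⁻¹ (Polynomial.X : Polynomial K₀) =
        Polynomial.aeval T⁻¹
          ((1 + 27 * Polynomial.X) * (1 + 243 * Polynomial.X) ^ 3 : Polynomial K₀) := by
      have : J1 K₀ N * T⁻¹ = (1 + 27 * T⁻¹) * (1 + 243 * T⁻¹) ^ 3 := by
        have h1 : (1 + 243 * T⁻¹) = (T + 243) * T⁻¹ := by
          field_simp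
        have h2 : (1 + 27 * T⁻¹) = (T + 27) * T⁻¹ := by
          field_simp
        have h3 : (T + 27) * T⁻¹ * ((T + 243) * T⁻¹) ^ 3 =
            ((T + 27) * (T + 243) ^ 3) * (T⁻¹) ^ 4 := by ring
        rw [h1, h2, h3, ← hrel]
        field_simp
      rw [Polynomial.aeval_X, map_mul, map_pow, map_add, map_add, map_one, map_mul, map_mul,
        Polynomial.aeval_X, map_ofNat, map_ofNat]
      exact this
    rcases exists_chart_order_neg _ htr with ⟨x, h⟩ | ⟨τ₀, x, h⟩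
    · refine (isFullFamily_embCusp N).hhAtF x T⁻¹ f _ _ hA' hAB' m hdiv 0 N ?_
      rw [map_zero, sub_zero, map_inv₀, map_inv₀, order_inv_laurentC,
        haupt3_order_of_neg (hrele _) h, order_embCusp_J1, neg_neg]
    · rw [hint] at h
      exact absurd h (lt_irrefl _)
  · intro b hb hb'
    obtain ⟨τ₀, x, h⟩ := hpt b hb
    refine (isFullFamily_embInt N τ₀).hhAtF x T f _ _ hA hAB m hdiv b 1 ?_
    exact_mod_cast (haupt3_order_sub (hrele _) hb h (isJChart_embInt_J1 τ₀ x)).2 hb'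

end final

end Fermat.Agent.ESlib
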