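import Fermat.Agent.ES.M.Hh
import Fermat.Agent.ES.M.HauptOrdExtra

/-!
# ES, modular side (M-h): charts centred at the points `T = b`

* `chartEmb_bcC` : compatibility of the chart embeddings over `ℚ̄` and over `ℂ`;
* `exists_chart_order_sub_pos` **(MH4)** : for every `b : ℂ` there is a chart along which `T - b`
  has positive order; `exists_chart_order_neg` : there is a chart along which `T` has a pole;
* `order_jgerm_generic`, `order_jgerm_of_1728`, `order_jgerm_of_zero` : the order of `j - j(τ₀)`.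
-/

set_option autoImplicit false
set_option linter.unusedSectionVars false
set_option linter.style.haveILetI false

open UpperHalfPlane hiding I
open ModularForm MatrixGroups Filter Topology ModularCurve Complex AlgebraicCurve IntermediateField
open CongruenceSubgroup
open scoped Manifold Real
open Derivative
open Fermat.Agent.S24lib

namespace Fermat.Agent.ESlib

local notation "Δ" => ModularForm.discriminant

section jorder

theorem order_jgerm_generic (τ₀ : ℍ) (h0 : jfun τ₀ ≠ 0) (h1 : jfun τ₀ ≠ 1728) :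
    (taylor (jgerm τ₀) - PowerSeries.C (jfun τ₀)).order = ((1 : ℕ) : ℕ∞) := by
  rw [taylor_sub_const (analyticAt_jgerm τ₀), Nat.cast_one]
  apply order_taylor_eq_one
  · simp [jgerm]
  · have : deriv (fun t => jgerm τ₀ t - jfun τ₀) 0 = deriv (jgerm τ₀) 0 :=
      deriv_sub_const _
    rw [this]
    exact deriv_jgerm_ne_zero τ₀ h0 h1

theorem order_jgerm_of_1728 (τ₀ : ℍ) (hj : jfun τ₀ = 1728) :
    (taylor (jgerm τ₀) - PowerSeries.C (jfun τ₀)).order = ((2 : ℕ) : ℕ∞) := by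
  obtain ⟨c, hc, h⟩ := D_E6
  rw [hj, taylor_sub_const (analyticAt_jgerm _)]
  have h1 : (fun t => jgerm τ₀ t - 1728) =
      (hgerm (E₆ : ℍ → ℂ) τ₀) ^ 2 * hgerm (fun τ => (Δ τ)⁻¹) τ₀ := by
    funext t
    simp only [jgerm, hgerm, Pi.mul_apply, Pi.pow_apply]
    rw [← jfun_sub_mul_disc, mul_assoc, mul_inv_cancel₀ (discriminant_ne_zero _), mul_one]
  have a6 := analyticAt_hgerm S20lib.isR_E6.holo τ₀
  have aΔ := analyticAt_hgerm mdiff_disc_inv τ₀
  rw [h1, taylor_mul (a6.pow 2) aΔ, taylor_pow a6, PowerSeries.order_mul, PowerSeries.order_pow]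
  have hΔ := discriminant_ne_zero τ₀
  have h6 : E₆ τ₀ = 0 := by
    have := jfun_sub_mul_disc τ₀
    rw [hj, sub_self, zero_mul] at this
    exact pow_eq_zero_iff (two_ne_zero) |>.1 this.symm
  have h4 : E₄ τ₀ ≠ 0 := by
    intro h4
    have := jfun_mul_disc τ₀
    rw [h4, hj] at this
    simp [hΔ] at this
  have o1 : (taylor (hgerm (fun τ => (Δ τ)⁻¹) τ₀)).order = 0 :=
    order_taylor_eq_zero (by rw [hgerm_zero]; exact inv_ne_zero hΔ)
  have o2 : (taylor (hgerm (E₆ : ℍ → ℂ) τ₀)).order = 1 := by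
    refine order_taylor_eq_one (by rw [hgerm_zero]; exact h6) ?_
    rw [deriv_hgerm, h, h6]
    simpa using ⟨hc, h4⟩
  rw [o1, o2]
  rfl

theorem order_jgerm_of_zero (τ₀ : ℍ) (hj : jfun τ₀ = 0) :
    (taylor (jgerm τ₀) - PowerSeries.C (jfun τ₀)).order = ((3 : ℕ) : ℕ∞) := by
  obtain ⟨c, hc, h⟩ := D_E4
  rw [hj, map_zero, sub_zero]
  have h1 : jgerm τ₀ =
      (hgerm (E₄ : ℍ → ℂ) τ₀) ^ 3 * hgerm (fun τ => (Δ τ)⁻¹) τ₀ := by
    funext t
    simp only [jgerm, hgerm, Pi.mul_apply, Pi.pow_apply, jfun, div_eq_mul_inv]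
  have a4 := analyticAt_hgerm S20lib.isR_E4.holo τ₀
  have aΔ := analyticAt_hgerm mdiff_disc_inv τ₀
  rw [h1, taylor_mul (a4.pow 3) aΔ, taylor_pow a4, PowerSeries.order_mul, PowerSeries.order_pow]
  have hΔ := discriminant_ne_zero τ₀
  have h4 : E₄ τ₀ = 0 := by
    have := jfun_mul_disc τ₀
    rw [hj, zero_mul] at this
    exact pow_eq_zero_iff (three_ne_zero) |>.1 this.symm
  have h6 : E₆ τ₀ ≠ 0 := by
    intro h6
    have := jfun_sub_mul_disc τ₀
    rw [h6, hj] at this
    simp [hΔ] at this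
  have o1 : (taylor (hgerm (fun τ => (Δ τ)⁻¹) τ₀)).order = 0 :=
    order_taylor_eq_zero (by rw [hgerm_zero]; exact inv_ne_zero hΔ)
  have o2 : (taylor (hgerm (E₄ : ℍ → ℂ) τ₀)).order = 1 := by
    refine order_taylor_eq_one (by rw [hgerm_zero]; exact h4) ?_
    rw [deriv_hgerm, h, h4]
    simpa using ⟨hc, h6⟩
  rw [o1, o2]
  rfl

end jorder

section compat

variable (N : ℕ) [NeZero N]

/-- base change of functions from `ℚ̄` to `ℂ` -/
noncomputable abbrev bcC : FK Kb N →+* FK ℂ N := bc Kb ℂ (modularFunctionFieldFull N)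

theorem bcC_Jgen (d : Dv N) : bcC N (Jgen Kb N d) = Jgen ℂ N d :=
  Subtype.ext (coeffMap_coeffEmb_algebraMap Kb ℂ _)

theorem bcC_J1 : bcC N (J1 Kb N) = J1 ℂ N := bcC_Jgen N _

theorem bcC_evF (P : MvPolynomial (Dv N) Kb) :
    bcC N (evF Kb N P) = evF ℂ N (MvPolynomial.map (algebraMap Kb ℂ) P) := by
  have h : (bcC N).comp (evF Kb N).toRingHom =
      (evF ℂ N).toRingHom.comp (MvPolynomial.map (algebraMap Kb ℂ)) := by
    apply MvPolynomial.ringHom_ext
    · intro a
      show bcC N (evF Kb N (MvPolynomial.C a)) =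
        evF ℂ N (MvPolynomial.map (algebraMap Kb ℂ) (MvPolynomial.C a))
      rw [MvPolynomial.map_C, ← MvPolynomial.algebraMap_eq, ← MvPolynomial.algebraMap_eq,
        AlgHom.commutes, AlgHom.commutes, bc_algebraMap]
    · intro d
      show bcC N (evF Kb N (MvPolynomial.X d)) =
        evF ℂ N (MvPolynomial.map (algebraMap Kb ℂ) (MvPolynomial.X d))
      rw [MvPolynomial.map_X, evF, evF, MvPolynomial.aeval_X, MvPolynomial.aeval_X, bcC_Jgen]
  exact DFunLike.congr_fun h P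

theorem evH_map (P : MvPolynomial (Dv N) Kb) :
    evH ℂ N (MvPolynomial.map (algebraMap Kb ℂ) P) = evH Kb N P := by
  rw [evH, evH, MvPolynomial.aeval_map_algebraMap]

variable {N}

theorem chartEmb_bcC {c : ℂ → ℍ} (hc : IsChart N c) (g : FK Kb N) :
    chartEmb ℂ hc (bcC N g) = chartEmb Kb hc g := by
  obtain ⟨P, Q, hQ, rfl⟩ := exists_frac N g
  rw [map_div₀, map_div₀, map_div₀, bcC_evF, bcC_evF, chartEmb_evF, chartEmb_evF, chartEmb_evF,
    chartEmb_evF, evH_map, evH_map]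

theorem embInt_bcC (τ₀ : ℍ) (x : SL(2, ℤ) ⧸ Gamma0 N) (g : FK Kb N) :
    embInt ℂ N τ₀ x (bcC N g) = embInt Kb N τ₀ x g := chartEmb_bcC _ g

theorem embCusp_bcC (x : SL(2, ℤ) ⧸ Gamma0 N) (g : FK Kb N) :
    embCusp ℂ N x (bcC N g) = embCusp Kb N x g := chartEmb_bcC _ g

/-- a non constant function has a zero, which is the centre of a chart -/
theorem exists_chart_order_pos (g : FK ℂ N) (hg : Transcendental ℂ g) :
    (∃ x, 0 < (embCusp ℂ N x g).order) ∨ ∃ τ₀ x, 0 < (embInt ℂ N τ₀ x g).order := by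
  haveI := (isFF_FK (K := ℂ) N).finiteDimensional hg
  obtain ⟨v, hv⟩ := exists_place_ord_pos (K := ℂ) g hg
  have hg0 : g ≠ 0 := by
    rintro rfl
    exact hg isAlgebraic_zero
  rcases exists_chart_of_place N v with ⟨x, e, he, h⟩ | ⟨τ₀, x, e, he, h⟩
  · left
    refine ⟨x, ?_⟩
    rw [h g hg0]
    positivity
  · right
    refine ⟨τ₀, x, ?_⟩
    rw [h g hg0]
    positivity

/-- **(MH4)** -/
theorem exists_chart_order_sub_pos (T : FK Kb N) (hT : Transcendental ℂ (bcC N T)) (b : ℂ) :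
    (∃ x, 0 < (embCusp Kb N x T - HahnSeries.C b).order) ∨
      ∃ τ₀ x, 0 < (embInt Kb N τ₀ x T - HahnSeries.C b).order := by
  have hg : Transcendental ℂ (bcC N T - algebraMap ℂ (FK ℂ N) b) := by
    intro h
    apply hT
    have := h.add (isAlgebraic_algebraMap (A := FK ℂ N) b)
    rwa [sub_add_cancel] at this
  have hb : algebraMap ℂ (LaurentSeries ℂ) b = HahnSeries.C b := by
    rw [algebraMap_laurentC]; rfl
  rcases exists_chart_order_pos _ hg with ⟨x, h⟩ | ⟨τ₀, x, h⟩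
  · left
    refine ⟨x, ?_⟩
    rwa [map_sub, AlgHom.commutes, embCusp_bcC, hb] at h
  · right
    refine ⟨τ₀, x, ?_⟩
    rwa [map_sub, AlgHom.commutes, embInt_bcC, hb] at h

theorem exists_chart_order_neg (T : FK Kb N) (hT : Transcendental ℂ (bcC N T)) :
    (∃ x, (embCusp Kb N x T).order < 0) ∨ ∃ τ₀ x, (embInt Kb N τ₀ x T).order < 0 := by
  have hg : Transcendental ℂ (bcC N T)⁻¹ := by
    intro h
    apply hT
    have := h.inv
    rwa [inv_inv] at this
  have hinv : ∀ y : LaurentSeries ℂ, 0 < (y⁻¹).order → y.order < 0 := by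
    intro y hy
    have hy0 : y ≠ 0 := by
      rintro rfl
      simp at hy
    have h1 : (y * y⁻¹).order = y.order + (y⁻¹).order :=
      HahnSeries.order_mul hy0 (inv_ne_zero hy0)
    rw [mul_inv_cancel₀ hy0, HahnSeries.order_one] at h1
    omega
  rcases exists_chart_order_pos _ hg with ⟨x, h⟩ | ⟨τ₀, x, h⟩
  · left
    refine ⟨x, hinv _ ?_⟩
    rwa [map_inv₀, embCusp_bcC] at h
  · right
    refine ⟨τ₀, x, hinv _ ?_⟩
    rwa [map_inv₀, embInt_bcC] at h

end compat

end Fermat.Agent.ESlib
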