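import Mathlib
import Fermat.Agent.ES.C.AK12

/-!
# ES, (M-K): the abstract KIL with `y` in an arbitrary extension field `Ω` of `F` in which `K` is
algebraically closed (in practice `Ω = K((q))`)
-/

set_option autoImplicit false
set_option linter.style.haveILetI false

namespace Fermat.Agent.ESlib

open Polynomial IntermediateField

universe u

variable {R K F Ω Ch : Type u} [CommRing R] [IsDomain R] [IsDiscreteValuationRing R]
    [Field K] [Algebra R K] [IsFractionRing R K] [CharZero K] [Field F] [Algebra K F] [Algebra R F]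
    [IsScalarTower R K F] [Field Ω] [Algebra F Ω] [Algebra K Ω] [IsScalarTower K F Ω]
    [Field Ch] [CharZero Ch] [IsAlgClosed Ch] [Algebra K Ch] [Algebra R Ch] [IsScalarTower R K Ch]

theorem abstract_KIL_field {π : R} (hπ : Irreducible π) (t : F) (ht : Transcendental K t)
    [FiniteDimensional K⟮t⟯ F] (hU : UnitDiff K π t)
    (m : ℕ) (hm : IsUnit (m : R)) (ζ : R) (hζ : IsPrimitiveRoot ζ m)
    (f : F) (hf : PiInt π t ((f - 1) / algebraMap R F π))
    (a0 : R) (ha0 : IsUnit a0) (M0 Ma Minf : ℕ)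
    (hM0 : IsUnit (M0 : R)) (hMa : IsUnit (Ma : R)) (hMinf : IsUnit (Minf : R))
    (hζ0 : ∃ z : K, IsPrimitiveRoot z M0) (hζa : ∃ z : K, IsPrimitiveRoot z Ma)
    (hζinf : ∃ z : K, IsPrimitiveRoot z Minf)
    (h0 : HhAtF K Ch t f m 0 M0) (ha : HhAtF K Ch t f m (algebraMap R Ch a0) Ma)
    (hinf : HhAtF K Ch t⁻¹ f m 0 Minf)
    (hgen : ∀ b : Ch, b ≠ 0 → b ≠ algebraMap R Ch a0 → HhAtF K Ch t f m b 1)
    (y : Ω) (hy : y ^ m = algebraMap F Ω f)
    (hK : ∀ z : Ω, IsIntegral K z → ∃ c : K, algebraMap K Ω c = z) :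
    ∃ x : F, algebraMap F Ω x = y := by
  letI : Algebra R F⟮y⟯ := ((algebraMap F F⟮y⟯).comp (algebraMap R F)).toAlgebra
  haveI : IsScalarTower R F F⟮y⟯ := IsScalarTower.of_algebraMap_eq fun _ => rfl
  haveI : IsScalarTower R K F⟮y⟯ := IsScalarTower.of_algebraMap_eq fun a => by
    change algebraMap F F⟮y⟯ (algebraMap R F a) = algebraMap K F⟮y⟯ (algebraMap R K a)
    rw [IsScalarTower.algebraMap_apply R K F, ← IsScalarTower.algebraMap_apply K F F⟮y⟯]
  obtain ⟨x, hx⟩ := abstract_KIL (E := F⟮y⟯) (Ch := Ch) hπ t ht hU m hm ζ hζ f hf a0 ha0 M0 Ma Minf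
    hM0 hMa hMinf hζ0 hζa hζinf h0 ha hinf hgen (AdjoinSimple.gen F y)
    (by
      apply Subtype.ext
      exact hy)
    (adjoin_gen_eq_top' y)
    (by
      intro z hz
      haveI : IsScalarTower K F⟮y⟯ Ω := IsScalarTower.of_algebraMap_eq fun a => by
        rw [IsScalarTower.algebraMap_apply K F Ω, IsScalarTower.algebraMap_apply K F F⟮y⟯]
        rfl
      have hz' : IsIntegral K (z : Ω) := by
        have := hz.map (IsScalarTower.toAlgHom K F⟮y⟯ Ω)
        exact this
      obtain ⟨c, hc⟩ := hK _ hz'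
      refine ⟨c, Subtype.ext ?_⟩
      rw [← hc]
      rfl)
  exact ⟨x, congrArg Subtype.val hx⟩

end Fermat.Agent.ESlib
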