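import Mathlib
import Fermat.Agent.ES.C.PSRoot

/-!
# ES, (M-K): `m`-th roots in `K((q))` and `K` is algebraically closed in `K((q))`
-/

set_option autoImplicit false

namespace Fermat.Agent.ESlib

open PowerSeries

variable {k : Type*} [Field k]

/-- **MK4.** `M`-th roots of Laurent series whose order is divisible by `M` and whose leading
coefficient is an `M`-th power. -/
theorem laurent_exists_pow_eq_of_coeff {M : ℕ} (hM : (M : k) ≠ 0) (a : LaurentSeries k)
    (h : (M : ℤ) ∣ a.order) (c : k) (hc : c ^ M = a.coeff a.order) :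
    ∃ w : LaurentSeries k, w ^ M = a := by
  have hM0 : M ≠ 0 := by rintro rfl; simp at hM
  by_cases ha : a = 0
  · exact ⟨0, by rw [ha, zero_pow hM0]⟩
  obtain ⟨n, hn⟩ := h
  have hcc : constantCoeff a.powerSeriesPart = a.coeff a.order := by
    rw [← coeff_zero_eq_constantCoeff_apply, LaurentSeries.powerSeriesPart_coeff]
    simp
  have hc0 : constantCoeff a.powerSeriesPart ≠ 0 := by
    rw [hcc]
    exact (HahnSeries.coeff_order_eq_zero (x := a)).not.mpr ha
  have hcne : c ≠ 0 := by
    rintro rfl
    rw [zero_pow hM0, ← hcc] at hc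
    exact hc0 hc.symm
  obtain ⟨w, hw, -⟩ := exists_pow_eq_of_constantCoeff hM a.powerSeriesPart hcne (hc.trans hcc.symm)
  refine ⟨HahnSeries.single n 1 * HahnSeries.ofPowerSeries ℤ k w, ?_⟩
  rw [mul_pow, ← map_pow (HahnSeries.ofPowerSeries ℤ k), hw, HahnSeries.single_pow, one_pow,
    nsmul_eq_mul, ← hn]
  exact LaurentSeries.single_order_mul_powerSeriesPart a

/-- An integral Laurent series of positive order vanishes. -/
theorem laurent_eq_zero_of_isIntegral_of_order_pos {z : LaurentSeries k} (hz : IsIntegral k z)
    (hpos : 0 < z.order) : z = 0 := by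
  by_contra hz0
  obtain ⟨n, hn⟩ := Int.eq_ofNat_of_zero_le hpos.le
  have hn0 : n ≠ 0 := by
    rintro rfl
    rw [hn] at hpos
    exact lt_irrefl _ hpos
  set w : k⟦X⟧ := X ^ n * z.powerSeriesPart with hw
  have hzw : HahnSeries.ofPowerSeries ℤ k w = z := by
    rw [hw, map_mul, map_pow, HahnSeries.ofPowerSeries_X, HahnSeries.single_pow, one_pow,
      nsmul_eq_mul, mul_one, ← hn]
    exact LaurentSeries.single_order_mul_powerSeriesPart z
  have hw0 : constantCoeff w = 0 := by
    rw [hw, map_mul, map_pow, constantCoeff_X, zero_pow hn0, zero_mul]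
  have h1 : Polynomial.aeval w (minpoly k z) = 0 := by
    apply HahnSeries.ofPowerSeries_injective (Γ := ℤ) (R := k)
    have hcomp : (HahnSeries.ofPowerSeries ℤ k).comp (algebraMap k k⟦X⟧) =
        algebraMap k (LaurentSeries k) := by
      ext1 a
      rw [HahnSeries.algebraMap_apply']
      rfl
    rw [Polynomial.aeval_def, Polynomial.hom_eval₂, hcomp, hzw, map_zero]
    exact minpoly.aeval k z
  have h2 := congrArg constantCoeff h1
  rw [Polynomial.aeval_def, Polynomial.hom_eval₂, hw0, map_zero] at h2
  have h3 : (constantCoeff (R := k)).comp (algebraMap k k⟦X⟧) = RingHom.id k := by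
    ext a
    simp
  rw [h3, Polynomial.eval₂_id, ← Polynomial.coeff_zero_eq_eval_zero] at h2
  exact minpoly.coeff_zero_ne_zero hz hz0 h2

/-- A Laurent series of nonzero order is transcendental over the constants. -/
theorem laurent_transcendental_of_order_ne_zero {z : LaurentSeries k} (hz : z.order ≠ 0) :
    Transcendental k z := by
  intro halg
  have hz0 : z ≠ 0 := by
    rintro rfl
    exact hz HahnSeries.order_zero
  rcases lt_or_gt_of_ne hz with h | h
  · have hinv : IsIntegral k z⁻¹ := halg.inv.isIntegral
    have hord : 0 < (z⁻¹).order := by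
      have h1 : (z * z⁻¹).order = z.order + (z⁻¹).order :=
        HahnSeries.order_mul hz0 (inv_ne_zero hz0)
      rw [mul_inv_cancel₀ hz0, HahnSeries.order_one] at h1
      omega
    exact inv_ne_zero hz0 (laurent_eq_zero_of_isIntegral_of_order_pos hinv hord)
  · exact hz0 (laurent_eq_zero_of_isIntegral_of_order_pos halg.isIntegral h)

/-- **MK2.** `k` is algebraically closed in `k((q))`. -/
theorem laurent_exists_const_of_isIntegral {z : LaurentSeries k} (hz : IsIntegral k z) :
    ∃ c : k, algebraMap k (LaurentSeries k) c = z := by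
  refine ⟨z.coeff 0, ?_⟩
  by_contra hne
  set u : LaurentSeries k := z - algebraMap k (LaurentSeries k) (z.coeff 0) with hu
  have hu0 : u ≠ 0 := fun h => hne (sub_eq_zero.1 h).symm
  have hint : IsIntegral k u := hz.sub isIntegral_algebraMap
  have hcoeff : u.coeff 0 = 0 := by
    rw [hu, HahnSeries.coeff_sub, HahnSeries.algebraMap_apply', PowerSeries.algebraMap_apply,
      HahnSeries.ofPowerSeries_C, HahnSeries.C_apply, HahnSeries.coeff_single_same]
    simp
  have hord : u.order ≠ 0 := by
    intro h0
    have := (HahnSeries.coeff_order_eq_zero (x := u)).not.mpr hu0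
    rw [h0] at this
    exact this hcoeff
  exact laurent_transcendental_of_order_ne_zero hord hint.isAlgebraic

end Fermat.Agent.ESlib
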