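import Fermat.Agent.ES.K.S18Final
import Fermat.Agent.ES.M.Top

/-!
# ES: `KILHaupt` (KIL at the levels divisible by `2` or `3`), the output of the modular side
-/

set_option autoImplicit false

open ModularCurve

namespace Fermat.Agent.ESlib

/-- KIL at all levels divisible by `2` or `3` and prime to `ℓ`, for prime exponents `≠ ℓ`. -/
theorem kilHaupt {ℓ : ℕ} (hℓ : ℓ.Prime) (A : ValuationSubring (AlgebraicClosure ℚ))
    (hA : A.LiesOverPrime ℓ) : KILHaupt ℓ A := by
  intro N' r m hN' hr hrN hℓN hm hmℓ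
  haveI : NeZero N' := ⟨hN'⟩
  exact kilAt_of_dvd hℓ A hA N' r hr hrN hℓN m hm hmℓ

end Fermat.Agent.ESlib
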