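import Fermat.Agent.ES.M.EmbAll
import Fermat.Agent.ES.K.PlaceExist
import Fermat.Agent.ES.M.HauptOrdExtra

/-!
# ES, modular side, row M-h2: (Hh) for the charts `T = t_r` and `T = 1 / t_r` of `F_K(N)`, `r ∣ N`
-/

set_option autoImplicit false
set_option linter.unusedSectionVars false

open UpperHalfPlane hiding I
open ModularCurve IntermediateField MatrixGroups CongruenceSubgroup AlgebraicCurve
open Fermat.Agent.S24lib

namespace Fermat.Agent.ESlib

/-- **M-h2a.** `SplitAtF` passes from `J` to any `T` with `J = ρ(T)` (as an equation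
`J * B(T) = A(T)`, `B(T) ≠ 0`): an embedding `σ` with `σ T = wT` satisfies
`σ J * B(wT) = A(wT) = wJ * B(wT)` and `B(wT) = σ (B(T)) ≠ 0`, so `σ J = wJ`. -/
theorem SplitAtF.of_rel {K L Ch : Type*} [Field K] [Field L] [Algebra K L] [Field Ch] [Algebra K Ch]
    {J T f : L} {m : ℕ} {wJ wT : LaurentSeries Ch} (A B : Polynomial K)
    (hrel : J * Polynomial.aeval T B = Polynomial.aeval T A) (hB : Polynomial.aeval T B ≠ 0)
    (hrel' : wJ * Polynomial.aeval wT B = Polynomial.aeval wT A)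
    (h : SplitAtF K Ch J f m wJ) : SplitAtF K Ch T f m wT := by
  intro σ hσ
  refine h σ ?_
  have h1 : σ J * Polynomial.aeval (σ T) B = Polynomial.aeval (σ T) A := by
    rw [Polynomial.aeval_algHom_apply, Polynomial.aeval_algHom_apply, ← map_mul, hrel]
  have h2 : algebraMap (LaurentSeries Ch) (AlgebraicClosure (LaurentSeries Ch)) wJ *
      Polynomial.aeval (algebraMap (LaurentSeries Ch) (AlgebraicClosure (LaurentSeries Ch)) wT) B =
      Polynomial.aeval (algebraMap (LaurentSeries Ch) (AlgebraicClosure (LaurentSeries Ch)) wT) A := by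
    rw [Polynomial.aeval_algebraMap_apply, Polynomial.aeval_algebraMap_apply, ← map_mul, hrel']
  have h3 : Polynomial.aeval (σ T) B ≠ 0 := by
    rw [Polynomial.aeval_algHom_apply]
    exact (map_ne_zero σ.toRingHom).2 hB
  rw [hσ] at h1 h3
  exact mul_right_cancel₀ h3 (h1.trans h2.symm)

/-- **M-h2b.** `SplitAtF` for `T` and `w` gives `SplitAtF` for `T⁻¹` and `w⁻¹`. -/
theorem SplitAtF.inv {K L Ch : Type*} [Field K] [Field L] [Algebra K L] [Field Ch] [Algebra K Ch]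
    {T f : L} {m : ℕ} {w : LaurentSeries Ch} (h : SplitAtF K Ch T f m w) :
    SplitAtF K Ch T⁻¹ f m w⁻¹ := by
  intro σ hσ
  refine h σ ?_
  rw [map_inv₀, map_inv₀] at hσ
  exact inv_injective hσ

variable (K : Type) [Field K] [CharZero K] [Algebra ℚ K] [Algebra K ℂ] [IsScalarTower ℚ K ℂ]
variable (N : ℕ) [NeZero N]

/-- **M-h2c.** every non constant `T ∈ F_ℂ(N)` takes every value `b`: there is a place which is a
zero of `T - b` (helper16's `exists_place_ord_pos` in ES/K/PlaceExist.lean applied to `u = T - b`;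
`ℂ⟮T - b⟯ = ℂ⟮T⟯`: `adjoin_sub_algebraMap`-like). -/
theorem exists_place_zero (T : FK ℂ N) (hT : Transcendental ℂ T) [FiniteDimensional ℂ⟮T⟯ (FK ℂ N)]
    (b : ℂ) : ∃ v : Place ℂ (FK ℂ N), 0 < v.ord (T - algebraMap ℂ (FK ℂ N) b) := by
  have heq : ℂ⟮T - algebraMap ℂ (FK ℂ N) b⟯ = ℂ⟮T⟯ := by
    apply le_antisymm
    · rw [adjoin_simple_le_iff]
      exact sub_mem (mem_adjoin_simple_self ℂ T) (IntermediateField.algebraMap_mem _ b)
    · rw [adjoin_simple_le_iff]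
      have h2 : (T - algebraMap ℂ (FK ℂ N) b) + algebraMap ℂ (FK ℂ N) b ∈
          ℂ⟮T - algebraMap ℂ (FK ℂ N) b⟯ :=
        add_mem (mem_adjoin_simple_self ℂ _) (IntermediateField.algebraMap_mem _ b)
      rwa [sub_add_cancel] at h2
  have hfd : FiniteDimensional ℂ⟮T - algebraMap ℂ (FK ℂ N) b⟯ (FK ℂ N) := by
    rw [heq]; infer_instance
  have htr : Transcendental ℂ (T - algebraMap ℂ (FK ℂ N) b) := by
    intro h
    apply hT
    have h2 := h.add (isAlgebraic_algebraMap (A := FK ℂ N) b)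
    rwa [sub_add_cancel] at h2
  exact exists_place_ord_pos _ htr

/-- the elliptic value: `-64` for `r = 2`, `-27` for `r = 3` -/
def a0 (r : ℕ) : ℤ := if r = 2 then -64 else -27

/-- for every value `a` there is a point `τ₀` over `a` along which `j` has the standard orders -/
theorem exists_isJChart (a : ℂ) : ∃ τ₀ : ℍ, jfun τ₀ = a ∧
    IsJChart (HahnSeries.ofPowerSeries ℤ ℂ (taylor (jgerm τ₀))) := by
  have key : ∀ (τ₀ : ℍ) (r : ℕ), (taylor (jgerm τ₀) - PowerSeries.C (jfun τ₀)).order = r →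
      ∀ c : ℂ, 0 < (HahnSeries.ofPowerSeries ℤ ℂ (taylor (jgerm τ₀)) - HahnSeries.C c).order →
        c = jfun τ₀ ∧
          (HahnSeries.ofPowerSeries ℤ ℂ (taylor (jgerm τ₀)) - HahnSeries.C c).order = (r : ℤ) := by
    intro τ₀ r hr c hc
    have hcc : c = jfun τ₀ := by
      by_contra hne
      have h0 : (taylor (jgerm τ₀) - PowerSeries.C c).order = ((0 : ℕ) : ℕ∞) := by
        rw [PowerSeries.order_eq_nat]
        refine ⟨?_, fun i hi => absurd hi (Nat.not_lt_zero i)⟩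
        rw [map_sub, PowerSeries.coeff_zero_eq_constantCoeff_apply, constantCoeff_taylor,
          PowerSeries.coeff_zero_C]
        have : jgerm τ₀ 0 = jfun τ₀ := by simp [jgerm]
        rw [this]
        exact sub_ne_zero.2 (Ne.symm hne)
      have h1 := order_ofPowerSeries_eq h0
      rw [map_sub, HahnSeries.ofPowerSeries_C] at h1
      rw [h1] at hc
      simp at hc
    refine ⟨hcc, ?_⟩
    have h1 := order_ofPowerSeries_eq hr
    rw [map_sub, HahnSeries.ofPowerSeries_C] at h1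
    rw [hcc, h1]
  by_cases h0 : a = 0
  · refine ⟨rho, by rw [jfun_rho, h0], fun c hc => ?_⟩
    have hr : (taylor (jgerm rho) - PowerSeries.C (jfun rho)).order = ((3 : ℕ) : ℕ∞) := by
      rw [jfun_rho, map_zero, sub_zero, order_jgerm_rho]; rfl
    obtain ⟨h1, h2⟩ := key rho 3 hr c hc
    rw [jfun_rho] at h1
    refine ⟨fun _ => by rw [h2]; rfl, fun h => ?_, fun h => absurd h1 h⟩
    rw [h1] at h; norm_num at h
  by_cases h1 : a = 1728
  · refine ⟨UpperHalfPlane.I, by rw [jfun_I, h1], fun c hc => ?_⟩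
    have hr : (taylor (jgerm UpperHalfPlane.I) - PowerSeries.C (jfun UpperHalfPlane.I)).order =
        ((2 : ℕ) : ℕ∞) := by
      rw [jfun_I, order_jgerm_I]; rfl
    obtain ⟨h2, h3⟩ := key UpperHalfPlane.I 2 hr c hc
    rw [jfun_I] at h2
    refine ⟨fun h => ?_, fun _ => by rw [h3]; rfl, fun _ h => absurd h2 h⟩
    rw [h2] at h; norm_num at h
  · obtain ⟨τ₀, hτ⟩ := jfun_surjective a
    refine ⟨τ₀, hτ, fun c hc => ?_⟩
    have hr : (taylor (jgerm τ₀) - PowerSeries.C (jfun τ₀)).order = ((1 : ℕ) : ℕ∞) := by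
      rw [taylor_sub_const (analyticAt_jgerm τ₀)]
      rw [order_taylor_eq_one (by simp [jgerm])
        (by rw [deriv_sub_const]; exact deriv_jgerm_ne_zero τ₀ (hτ ▸ h0) (hτ ▸ h1))]
      rfl
    obtain ⟨h2, h3⟩ := key τ₀ 1 hr c hc
    rw [hτ] at h2
    exact ⟨fun h => absurd (h2 ▸ h) h0, fun h => absurd (h2 ▸ h) h1, fun _ _ => by rw [h3]; rfl⟩

theorem orders_algebraMap_eq_C (b : ℂ) :
    algebraMap ℂ (LaurentSeries ℂ) b = HahnSeries.C b := by
  rw [HahnSeries.algebraMap_apply', PowerSeries.algebraMap_apply, HahnSeries.ofPowerSeries_C]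
  rfl

theorem orders_ofPowerSeries_nonneg (p : PowerSeries ℂ) :
    0 ≤ (HahnSeries.ofPowerSeries ℤ ℂ p).order := by
  by_cases h : HahnSeries.ofPowerSeries ℤ ℂ p = 0
  · rw [h, HahnSeries.order_zero]
  · rw [HahnSeries.le_order_iff_forall h]
    intro j hj
    have hc : (HahnSeries.ofPowerSeries ℤ ℂ p).coeff j =
      if j < 0 then 0 else p.coeff j.natAbs := PowerSeries.coeff_coe _ _
    rw [hc, if_pos hj]

theorem order_embCusp_J1 (x : SL(2, ℤ) ⧸ Gamma0 N) :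
    (embCusp ℂ N x (J1 ℂ N)).order = -(N : ℤ) := by
  have h0 : (embCusp ℂ N x (J1 ℂ N)⁻¹).order = N := order_chartEmb_cCusp_J1_inv N _
  have hne : embCusp ℂ N x (J1 ℂ N) ≠ 0 :=
    (map_ne_zero (embCusp ℂ N x).toRingHom).2 (J1_ne_zero N)
  have h1 := HahnSeries.order_mul hne (inv_ne_zero hne)
  rw [mul_inv_cancel₀ hne, HahnSeries.order_one, ← map_inv₀, h0] at h1
  omega

theorem order_embInt_J1_nonneg (τ₀ : ℍ) (x : SL(2, ℤ) ⧸ Gamma0 N) :
    0 ≤ (embInt ℂ N τ₀ x (J1 ℂ N)).order := by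
  have : embInt ℂ N τ₀ x (J1 ℂ N) = HahnSeries.ofPowerSeries ℤ ℂ (taylor (jgerm τ₀)) :=
    chartEmb_cInt_J1 N _ τ₀
  rw [this]
  exact orders_ofPowerSeries_nonneg _

/-- every place of `F_ℂ(N)` is the centre of a cusp chart, or of an interior chart along which `j`
has the standard orders -/
theorem exists_good_chart_of_place (v : Place ℂ (FK ℂ N)) :
    (∃ x : SL(2, ℤ) ⧸ Gamma0 N, ∃ e : ℕ, 0 < e ∧
      ∀ f : FK ℂ N, f ≠ 0 → (embCusp ℂ N x f).order = e * v.ord f) ∨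
    (∃ (τ₀ : ℍ) (x : SL(2, ℤ) ⧸ Gamma0 N) (e : ℕ), 0 < e ∧
      IsJChart (embInt ℂ N τ₀ x (J1 ℂ N)) ∧
      ∀ f : FK ℂ N, f ≠ 0 → (embInt ℂ N τ₀ x f).order = e * v.ord f) := by
  rcases Fermat.Agent.S24RH.pole_or_fibre (isFF_FK N) v (transcendental_J1 (K := ℂ) N) with
    h | ⟨a, ha⟩
  · exact Or.inl (exists_cCusp_of_place N v h)
  · obtain ⟨τ₀, hτ, hJ⟩ := exists_isJChart a
    obtain ⟨x, e, he, h⟩ := exists_cInt_of_place N v a ha τ₀ hτ
    refine Or.inr ⟨τ₀, x, e, he, ?_, h⟩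
    have : embInt ℂ N τ₀ x (J1 ℂ N) = HahnSeries.ofPowerSeries ℤ ℂ (taylor (jgerm τ₀)) :=
      chartEmb_cInt_J1 N _ τ₀
    rw [this]
    exact hJ

section main

variable (r : ℕ) [NeZero r] (hr : r = 2 ∨ r = 3) (hrN : r ∣ N)

/-- everything `HauptOrd.lean` says, uniformly in `r` -/
theorem haupt_order_facts (θ : FK ℂ N →ₐ[ℂ] LaurentSeries ℂ) :
    ((θ (tF ℂ N r hr hrN)).order < 0 → (θ (tF ℂ N r hr hrN)).order = (θ (J1 ℂ N)).order) ∧
    (0 < (θ (tF ℂ N r hr hrN)).order →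
      (r : ℤ) * (θ (tF ℂ N r hr hrN)).order = -(θ (J1 ℂ N)).order) ∧
    ((θ (J1 ℂ N)).order < 0 → (θ (tF ℂ N r hr hrN)).order ≠ 0) ∧
    (0 ≤ (θ (J1 ℂ N)).order → (θ (tF ℂ N r hr hrN)).order = 0) ∧
    (∀ b : ℂ, b ≠ 0 → 0 < (θ (tF ℂ N r hr hrN) - HahnSeries.C b).order → IsJChart (θ (J1 ℂ N)) →
      (θ (tF ℂ N r hr hrN) - HahnSeries.C b).order = if b = (a0 r : ℂ) then (r : ℤ) else 1) := by
  rcases hr with rfl | rfl
  · have hrel : θ (J1 ℂ N) * θ (tF ℂ N 2 (Or.inl rfl) hrN) ^ 2 =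
        (θ (tF ℂ N 2 (Or.inl rfl) hrN) + 256) ^ 3 := by
      have := congrArg θ (tF_rel_two ℂ N hrN)
      simpa only [map_mul, map_pow, map_add, map_ofNat] using this
    refine ⟨haupt2_order_of_neg hrel, fun h => by exact_mod_cast haupt2_order_of_pos hrel h,
      haupt2_order_ne_zero hrel, haupt2_order_eq_zero hrel, fun b hb hw hJ => ?_⟩
    obtain ⟨h1, h2⟩ := haupt2_order_sub hrel hb hw hJ
    have ha : ((a0 2 : ℤ) : ℂ) = -64 := by simp [a0]
    rw [ha]
    split_ifs with h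
    · exact_mod_cast h1 h
    · exact h2 h
  · have hrel : θ (J1 ℂ N) * θ (tF ℂ N 3 (Or.inr rfl) hrN) ^ 3 =
        (θ (tF ℂ N 3 (Or.inr rfl) hrN) + 27) * (θ (tF ℂ N 3 (Or.inr rfl) hrN) + 243) ^ 3 := by
      have := congrArg θ (tF_rel_three ℂ N hrN)
      simpa only [map_mul, map_pow, map_add, map_ofNat] using this
    refine ⟨haupt3_order_of_neg hrel, fun h => by exact_mod_cast haupt3_order_of_pos hrel h,
      haupt3_order_ne_zero hrel, haupt3_order_eq_zero hrel, fun b hb hw hJ => ?_⟩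
    obtain ⟨h1, h2⟩ := haupt3_order_sub hrel hb hw hJ
    have ha : ((a0 3 : ℤ) : ℂ) = -27 := by simp [a0]
    rw [ha]
    split_ifs with h
    · exact_mod_cast h1 h
    · exact h2 h

/-- **M-h2d (interior points: existence of the chart and order).**  For `b ≠ 0` there are `τ₀, x`
such that `w := embInt ℂ N τ₀ x t` satisfies `ord (w - b) = 1`, resp. `= r` if `b = a0 r`.

Proof (`r = 2`; `r = 3` is similar with `j t³ = (t+27)(t+243)³`,
`(t+27)(t+243)³ - 1728 t³ = (t² - 486 t - 19683)²`).  Work in `F_ℂ(N)`, `t = tF ℂ N r`.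
`exists_place_zero` gives `v` with `v.ord (t - b) > 0`.  Put `a := (b+256)³/b²`; by the relation
`v.ord (J1 - a) > 0`.  Choose `τ₀` with `jfun τ₀ = a` (`jfun_surjective`), taking `τ₀ = I` if
`a = 1728` and `τ₀ = rho` if `a = 0`.  `exists_cInt_of_place` gives `x, e` with
`(embInt ℂ N τ₀ x f).order = e * v.ord f`.  `w := embInt ℂ N τ₀ x t`; `ord (w - b) > 0`.
`wJ := embInt ℂ N τ₀ x J1 = taylor (jgerm τ₀)` (`chartEmb_J1`), `ord (wJ - a) = e₀` with
`e₀ = 1` (`deriv_jgerm_ne_zero`, `order_taylor_eq_one`), `2` (`order_jgerm_I`), `3`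
(`order_jgerm_rho`).  From `(wJ - a) w² b² = (w+256)³ b² - (b+256)³ w² = (w - b) G(w)`:
* `a ≠ 0, 1728`: `1 = ord (w - b) + ord G(w)` so `ord (w - b) = 1`;
* `a = 1728`: `(wJ - 1728) w² = (w+64)(w-512)²`; `b = 512`: `2 = 2 ord (w - 512)`;
  `b = -64`: `2 = ord (w + 64)`;
* `a = 0`: `wJ w² = (w+256)³`, `b = -256`: `3 = 3 ord (w + 256)`. -/
theorem exists_embInt_order (b : ℂ) (hb0 : b ≠ 0) :
    ∃ (τ₀ : ℍ) (x : SL(2, ℤ) ⧸ Gamma0 N),
      (embInt ℂ N τ₀ x (tF ℂ N r hr hrN) - HahnSeries.C b).order =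
        if b = (a0 r : ℂ) then (r : ℤ) else 1 := by
  have hfd := (finiteDimensional_tF ℂ N r hr hrN).1
  obtain ⟨v, hv⟩ := exists_place_zero N (tF ℂ N r hr hrN) (transcendental_tF ℂ N r hr hrN) b
  have hne : tF ℂ N r hr hrN - algebraMap ℂ (FK ℂ N) b ≠ 0 := by
    intro h
    rw [h] at hv
    simp at hv
  rcases exists_good_chart_of_place N v with ⟨x, e, he, h⟩ | ⟨τ₀, x, e, he, hJ, h⟩
  · exfalso
    obtain ⟨-, -, f3, -, -⟩ := haupt_order_facts N r hr hrN (embCusp ℂ N x)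
    have h1 := h _ hne
    rw [map_sub, AlgHom.commutes, orders_algebraMap_eq_C] at h1
    have h2 : 0 < (embCusp ℂ N x (tF ℂ N r hr hrN) - HahnSeries.C b).order := by
      rw [h1]
      have : (0 : ℤ) < e := by exact_mod_cast he
      positivity
    refine f3 ?_ (order_eq_zero_of_order_sub_pos hb0 h2)
    rw [order_embCusp_J1]
    have : (0 : ℤ) < N := by exact_mod_cast Nat.pos_of_ne_zero (NeZero.ne N)
    omega
  · refine ⟨τ₀, x, ?_⟩
    obtain ⟨-, -, -, -, f5⟩ := haupt_order_facts N r hr hrN (embInt ℂ N τ₀ x)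
    have h1 := h _ hne
    rw [map_sub, AlgHom.commutes, orders_algebraMap_eq_C] at h1
    have h2 : 0 < (embInt ℂ N τ₀ x (tF ℂ N r hr hrN) - HahnSeries.C b).order := by
      rw [h1]
      have : (0 : ℤ) < e := by exact_mod_cast he
      positivity
    exact f5 b hb0 h2 hJ

/-- **M-h2e (the cusp `t = 0`).**  `v` a zero of `t`; by the relation `v.ord J1 < 0`;
`exists_cCusp_of_place` gives `x, e`; `w := embCusp ℂ N x t`, `ord w > 0`;
`wJ := embCusp ℂ N x J1` has order `-N` (`order_chartEmb_cCusp_J1_inv`); `wJ w^r = (unit)`, so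
`r * ord w = N`. -/
theorem exists_embCusp_order_zero :
    ∃ x : SL(2, ℤ) ⧸ Gamma0 N, (embCusp ℂ N x (tF ℂ N r hr hrN)).order = ((N / r : ℕ) : ℤ) := by
  have hfd := (finiteDimensional_tF ℂ N r hr hrN).1
  obtain ⟨v, hv⟩ := exists_place_ord_pos (tF ℂ N r hr hrN) (transcendental_tF ℂ N r hr hrN)
  have hne : tF ℂ N r hr hrN ≠ 0 := tF_ne_zero ℂ N r hr hrN
  rcases exists_good_chart_of_place N v with ⟨x, e, he, h⟩ | ⟨τ₀, x, e, he, hJ, h⟩
  · refine ⟨x, ?_⟩
    obtain ⟨-, f2, -, -, -⟩ := haupt_order_facts N r hr hrN (embCusp ℂ N x)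
    have h2 : 0 < (embCusp ℂ N x (tF ℂ N r hr hrN)).order := by
      rw [h _ hne]
      have : (0 : ℤ) < e := by exact_mod_cast he
      positivity
    have h3 := f2 h2
    rw [order_embCusp_J1, neg_neg] at h3
    have hN : (N : ℤ) = (r : ℤ) * ((N / r : ℕ) : ℤ) := by
      exact_mod_cast (Nat.mul_div_cancel' hrN).symm
    have hr0' : (r : ℤ) ≠ 0 := by exact_mod_cast NeZero.ne r
    exact mul_left_cancel₀ hr0' (h3.trans hN)
  · exfalso
    obtain ⟨-, -, -, f4, -⟩ := haupt_order_facts N r hr hrN (embInt ℂ N τ₀ x)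
    have h2 : 0 < (embInt ℂ N τ₀ x (tF ℂ N r hr hrN)).order := by
      rw [h _ hne]
      have : (0 : ℤ) < e := by exact_mod_cast he
      positivity
    rw [f4 (order_embInt_J1_nonneg N τ₀ x)] at h2
    exact lt_irrefl _ h2

/-- **M-h2f (the cusp `t = ∞`).**  `v` a zero of `1/t`; `v.ord J1 < 0`; `w := embCusp ℂ N x t`,
`ord w < 0`, `wJ w^r = w^(r+1) (unit)`, so `ord w = -N`.  (Or directly `x = 1`:
`laurent_evH_cCusp_one`.) -/
theorem exists_embCusp_order_infty :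
    ∃ x : SL(2, ℤ) ⧸ Gamma0 N, (embCusp ℂ N x (tF ℂ N r hr hrN)).order = -(N : ℤ) := by
  have hfd := (finiteDimensional_tF ℂ N r hr hrN).2
  have hne : tF ℂ N r hr hrN ≠ 0 := tF_ne_zero ℂ N r hr hrN
  have htr : Transcendental ℂ (tF ℂ N r hr hrN)⁻¹ := by
    intro h
    have := h.inv
    rw [inv_inv] at this
    exact transcendental_tF ℂ N r hr hrN this
  obtain ⟨v, hv⟩ := exists_place_ord_pos (tF ℂ N r hr hrN)⁻¹ htr
  rw [Place.ord_inv] at hv
  rcases exists_good_chart_of_place N v with ⟨x, e, he, h⟩ | ⟨τ₀, x, e, he, hJ, h⟩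
  · refine ⟨x, ?_⟩
    obtain ⟨f1, -, -, -, -⟩ := haupt_order_facts N r hr hrN (embCusp ℂ N x)
    have h2 : (embCusp ℂ N x (tF ℂ N r hr hrN)).order < 0 := by
      rw [h _ hne]
      have : (0 : ℤ) < e := by exact_mod_cast he
      nlinarith
    rw [f1 h2, order_embCusp_J1]
  · exfalso
    obtain ⟨-, -, -, f4, -⟩ := haupt_order_facts N r hr hrN (embInt ℂ N τ₀ x)
    have h2 : (embInt ℂ N τ₀ x (tF ℂ N r hr hrN)).order < 0 := by
      rw [h _ hne]
      have : (0 : ℤ) < e := by exact_mod_cast he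
      nlinarith
    rw [f4 (order_embInt_J1_nonneg N τ₀ x)] at h2
    exact lt_irrefl _ h2

/-- `SplitAtF` passes from `J1` to `t` along any embedding of `F_ℂ(N)` -/
theorem splitAtF_tF_of_J1 {f : FK K N} {m : ℕ} (θ : FK ℂ N →ₐ[ℂ] LaurentSeries ℂ)
    (h : SplitAtF K ℂ (J1 K N) f m (θ (J1 ℂ N))) :
    SplitAtF K ℂ (tF K N r hr hrN) f m (θ (tF ℂ N r hr hrN)) := by
  rcases hr with rfl | rfl
  · refine SplitAtF.of_rel ((Polynomial.X + Polynomial.C 256) ^ 3) (Polynomial.X ^ 2) ?_ ?_ ?_ h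
    · simp only [map_pow, map_add, Polynomial.aeval_X, map_ofNat]
      exact tF_rel_two K N hrN
    · simp only [map_pow, Polynomial.aeval_X]
      exact pow_ne_zero _ (tF_ne_zero K N 2 _ hrN)
    · simp only [map_pow, map_add, Polynomial.aeval_X, map_ofNat]
      have := congrArg θ (tF_rel_two ℂ N hrN)
      simpa only [map_mul, map_pow, map_add, map_ofNat] using this
  · refine SplitAtF.of_rel ((Polynomial.X + Polynomial.C 27) * (Polynomial.X + Polynomial.C 243) ^ 3)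
      (Polynomial.X ^ 3) ?_ ?_ ?_ h
    · simp only [map_mul, map_pow, map_add, Polynomial.aeval_X, map_ofNat]
      exact tF_rel_three K N hrN
    · simp only [map_pow, Polynomial.aeval_X]
      exact pow_ne_zero _ (tF_ne_zero K N 3 _ hrN)
    · simp only [map_mul, map_pow, map_add, Polynomial.aeval_X, map_ofNat]
      have := congrArg θ (tF_rel_three ℂ N hrN)
      simpa only [map_mul, map_pow, map_add, map_ofNat] using this

/-- **M-h2g.** `SplitAtF` for `t` along an interior chart (`splitAtF_J1_int`, `SplitAtF.of_rel` with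
`tF_rel_two`, `tF_rel_three` over `K` and over `ℂ`, `tF_ne_zero`). -/
theorem splitAtF_tF_int {f : FK K N} {m : ℕ} (hdiv : ChartDiv K N f m) (τ₀ : ℍ)
    (x : SL(2, ℤ) ⧸ Gamma0 N) :
    SplitAtF K ℂ (tF K N r hr hrN) f m (embInt ℂ N τ₀ x (tF ℂ N r hr hrN)) :=
  splitAtF_tF_of_J1 K N r hr hrN (embInt ℂ N τ₀ x) (splitAtF_J1_int hdiv τ₀ x)

/-- **M-h2h.** `SplitAtF` for `t` along a cusp chart. -/
theorem splitAtF_tF_cusp {f : FK K N} {m : ℕ} (hdiv : ChartDiv K N f m)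
    (x : SL(2, ℤ) ⧸ Gamma0 N) :
    SplitAtF K ℂ (tF K N r hr hrN) f m (embCusp ℂ N x (tF ℂ N r hr hrN)) :=
  splitAtF_tF_of_J1 K N r hr hrN (embCusp ℂ N x) (splitAtF_J1_cusp hdiv x)

variable {K N} {f : FK K N} {m : ℕ} (hdiv : ChartDiv K N f m)
include hdiv

/-- **(Hh) at a generic point.** -/
theorem hhAtF_tF (b : ℂ) (hb0 : b ≠ 0) (hb : b ≠ (a0 r : ℂ)) :
    HhAtF K ℂ (tF K N r hr hrN) f m b 1 := by
  obtain ⟨τ₀, x, h⟩ := exists_embInt_order N r hr hrN b hb0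
  rw [if_neg hb] at h
  exact ⟨_, by rw [h]; rfl, splitAtF_tF_int K N r hr hrN hdiv τ₀ x⟩

/-- **(Hh) at the elliptic point.** -/
theorem hhAtF_tF_a0 : HhAtF K ℂ (tF K N r hr hrN) f m (a0 r : ℂ) r := by
  have hb0 : ((a0 r : ℤ) : ℂ) ≠ 0 := by
    unfold a0; split_ifs <;> norm_num
  obtain ⟨τ₀, x, h⟩ := exists_embInt_order N r hr hrN (a0 r : ℂ) hb0
  rw [if_pos rfl] at h
  exact ⟨_, h, splitAtF_tF_int K N r hr hrN hdiv τ₀ x⟩

/-- **(Hh) at the cusp `t = 0`.** -/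
theorem hhAtF_tF_zero : HhAtF K ℂ (tF K N r hr hrN) f m 0 (N / r) := by
  obtain ⟨x, h⟩ := exists_embCusp_order_zero N r hr hrN
  exact ⟨_, by rw [map_zero, sub_zero, h], splitAtF_tF_cusp K N r hr hrN hdiv x⟩

/-- **(Hh) at the cusp `t = ∞`.** -/
theorem hhAtF_tF_inv_zero : HhAtF K ℂ (tF K N r hr hrN)⁻¹ f m 0 N := by
  obtain ⟨x, h⟩ := exists_embCusp_order_infty N r hr hrN
  refine ⟨_, ?_, (splitAtF_tF_cusp K N r hr hrN hdiv x).inv⟩
  have hne : embCusp ℂ N x (tF ℂ N r hr hrN) ≠ 0 := by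
    intro h0
    rw [h0, HahnSeries.order_zero] at h
    have : (N : ℤ) ≠ 0 := by exact_mod_cast NeZero.ne N
    omega
  have h1 := HahnSeries.order_mul hne (inv_ne_zero hne)
  rw [mul_inv_cancel₀ hne, HahnSeries.order_one] at h1
  rw [map_zero, sub_zero]
  omega

end main

end Fermat.Agent.ESlib
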